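import Mathlib

/-!
# Kummer theory for the cyclotomic twist over `ℚ_[p]`

Every level-constant cocycle of the Galois group of `ℚ_[p]` with values in a finite field of
characteristic `p` twisted by the mod-`p` cyclotomic character is, up to a coboundary, a combination
of two fixed cocycles (the Kummer cocycles of `p` and `1 + p`).
-/

set_option autoImplicit false

namespace Fermat.Agent.TW

open Polynomial

section Units

variable {p : ℕ} [hp : Fact p.Prime]

omit hp in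
lemma one_add_mul_pow_eq_mod_cube {R : Type*} [CommRing R] (x : R) (n : ℕ) :
    ∃ r : R, (1 + (p : R) * x) ^ n
      = 1 + (n : R) * ((p : R) * x) + (n.choose 2 : R) * ((p : R) * x) ^ 2 + (p : R) ^ 3 * r := by
  induction n with
  | zero => exact ⟨0, by simp⟩
  | succ n ih =>
    obtain ⟨r, hr⟩ := ih
    refine ⟨(n.choose 2 : R) * x ^ 3 + r * (1 + p * x), ?_⟩
    rw [pow_succ, hr, Nat.choose_succ_succ' n 1, Nat.choose_one_right]
    push_cast
    ring

lemma exists_pow_eq_one_add_sq_mul (hp2 : p ≠ 2) (s : ℤ_[p]) :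
    ∃ y : ℤ_[p], y ^ p = 1 + (p : ℤ_[p]) ^ 2 * s := by
  obtain ⟨r, hr⟩ := one_add_mul_pow_eq_mod_cube (p := p) (s : ℤ_[p]) p
  obtain ⟨m, hm⟩ : p ∣ p.choose 2 :=
    hp.out.dvd_choose_self (by norm_num)
      (lt_of_le_of_ne hp.out.two_le (Ne.symm hp2))
  set f : Polynomial ℤ_[p] := X ^ p - C (1 + (p : ℤ_[p]) ^ 2 * s)
  set a : ℤ_[p] := 1 + p * s
  have hfa : f.aeval a = (p : ℤ_[p]) ^ 3 * ((m : ℤ_[p]) * s ^ 2 + r) := by
    simp only [f, a, coe_aeval_eq_eval, eval_sub, eval_pow, eval_X, eval_C, hr, hm]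
    push_cast
    ring
  have hunit : IsUnit a := by
    rw [PadicInt.isUnit_iff]
    have h1 : ‖(p : ℤ_[p]) * s‖ < 1 := by
      rw [norm_mul, PadicInt.norm_p]
      calc (p : ℝ)⁻¹ * ‖s‖ ≤ (p : ℝ)⁻¹ * 1 := by
            gcongr; exact PadicInt.norm_le_one s
        _ < 1 := by
            rw [mul_one]; exact inv_lt_one_of_one_lt₀ (by exact_mod_cast hp.out.one_lt)
    calc ‖a‖ = max ‖(1 : ℤ_[p])‖ ‖(p : ℤ_[p]) * s‖ :=
          PadicInt.norm_add_eq_max_of_ne (by rw [norm_one]; exact h1.ne')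
      _ = 1 := by rw [norm_one, max_eq_left h1.le]
  have hd : ‖f.derivative.aeval a‖ = (p : ℝ)⁻¹ := by
    have : f.derivative.aeval a = (p : ℤ_[p]) * a ^ (p - 1) := by
      simp [f, coe_aeval_eq_eval, derivative_pow]
    rw [this, norm_mul, norm_pow, PadicInt.isUnit_iff.1 hunit, one_pow, mul_one, PadicInt.norm_p]
  have hlt : ‖f.aeval a‖ < ‖f.derivative.aeval a‖ ^ 2 := by
    rw [hd, hfa, norm_mul, norm_pow, PadicInt.norm_p]
    calc (p : ℝ)⁻¹ ^ 3 * ‖(m : ℤ_[p]) * s ^ 2 + r‖ ≤ (p : ℝ)⁻¹ ^ 3 * 1 := by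
          gcongr; exact PadicInt.norm_le_one _
      _ < (p : ℝ)⁻¹ ^ 2 := by
          rw [mul_one]
          exact pow_lt_pow_right_of_lt_one₀
            (inv_pos.2 (by exact_mod_cast hp.out.pos))
            (inv_lt_one_of_one_lt₀ (by exact_mod_cast hp.out.one_lt)) (by norm_num)
  obtain ⟨z, hz, -⟩ := hensels_lemma hlt
  refine ⟨z, ?_⟩
  simpa [f, coe_aeval_eq_eval, sub_eq_zero] using hz

/-- `ℚ_[p]ˣ` modulo `p`-th powers is generated by `p` and `1 + p`. -/
lemma exists_eq_zpow_mul_pow_mul_pow (hp2 : p ≠ 2) {x : ℚ_[p]} (hx : x ≠ 0) :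
    ∃ (i : ℤ) (j : ℕ) (y : ℚ_[p]), x = (p : ℚ_[p]) ^ i * (1 + (p : ℚ_[p])) ^ j * y ^ p := by
  have key : ∀ w : ℤ_[p], PadicInt.toZMod w = 1 →
      ∃ (j : ℕ) (y : ℤ_[p]), w = (1 + (p : ℤ_[p])) ^ j * y ^ p := by
    intro w hw
    have h1 : w - 1 ∈ RingHom.ker (PadicInt.toZMod (p := p)) := by
      rw [RingHom.mem_ker, map_sub, hw, map_one, sub_self]
    rw [PadicInt.ker_toZMod, PadicInt.maximalIdeal_eq_span_p, Ideal.mem_span_singleton] at h1
    obtain ⟨t, ht⟩ := h1
    set j := (PadicInt.toZMod t).val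
    obtain ⟨r, hr⟩ := one_add_mul_pow_eq_mod_cube (p := p) (1 : ℤ_[p]) j
    rw [mul_one] at hr
    have hu : IsUnit ((1 + (p : ℤ_[p])) ^ j) := by
      refine IsUnit.pow _ ?_
      rw [← mul_one (p : ℤ_[p])]
      obtain ⟨y, hy⟩ := exists_pow_eq_one_add_sq_mul hp2 (0 : ℤ_[p])
      by_contra hn
      rw [← mem_nonunits_iff, ← IsLocalRing.mem_maximalIdeal,
        PadicInt.maximalIdeal_eq_span_p, Ideal.mem_span_singleton, mul_one] at hn
      have : (p : ℤ_[p]) ∣ 1 := by simpa using dvd_sub hn (dvd_refl (p : ℤ_[p]))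
      exact PadicInt.p_nonunit (isUnit_of_dvd_one this)
    obtain ⟨e, he⟩ : (p : ℤ_[p]) ∣ t - j := by
      rw [← Ideal.mem_span_singleton, ← PadicInt.maximalIdeal_eq_span_p, ← PadicInt.ker_toZMod,
        RingHom.mem_ker, map_sub, map_natCast]
      simp only [j, ZMod.natCast_zmod_val, sub_self]
    obtain ⟨v, hv⟩ : ∃ v : ℤ_[p], w - (1 + (p : ℤ_[p])) ^ j = (p : ℤ_[p]) ^ 2 * v :=
      ⟨e - ((j.choose 2 : ℕ) : ℤ_[p]) - p * r, by linear_combination ht - hr + (p : ℤ_[p]) * he⟩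
    obtain ⟨y, hy⟩ := exists_pow_eq_one_add_sq_mul hp2 (v * ↑hu.unit⁻¹)
    refine ⟨j, y, ?_⟩
    rw [hy]
    have : (1 + (p : ℤ_[p])) ^ j * ↑hu.unit⁻¹ = 1 := hu.mul_val_inv
    linear_combination hv - (p : ℤ_[p]) ^ 2 * v * this
  obtain ⟨n, u, hu⟩ : ∃ (n : ℤ) (u : ℤ_[p]ˣ), x = (p : ℚ_[p]) ^ n * (u : ℚ_[p]) := by
    refine ⟨x.valuation, PadicInt.mkUnits (u := x * (p : ℚ_[p]) ^ (-x.valuation)) ?_, ?_⟩
    · rw [norm_mul, Padic.norm_eq_zpow_neg_valuation hx, Padic.norm_p_zpow, ← zpow_add₀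
        (by exact_mod_cast hp.out.ne_zero), neg_neg, neg_add_cancel, zpow_zero]
    · rw [PadicInt.mkUnits_eq, mul_left_comm, ← zpow_add₀
        (by exact_mod_cast hp.out.ne_zero), add_neg_cancel, zpow_zero, mul_one]
  have h1 : PadicInt.toZMod ((↑(u⁻¹ ^ (p - 1)) : ℤ_[p])) = 1 := by
    rw [Units.val_pow_eq_pow_val, map_pow]
    exact ZMod.pow_card_sub_one_eq_one
      ((u⁻¹.isUnit.map PadicInt.toZMod).ne_zero)
  obtain ⟨j, y, hy⟩ := key _ h1
  refine ⟨n, j, (u : ℚ_[p]) * y, ?_⟩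
  have h2 : (u : ℤ_[p]) = (1 + (p : ℤ_[p])) ^ j * ((u : ℤ_[p]) * y) ^ p := by
    calc (u : ℤ_[p]) = (↑(u⁻¹ ^ (p - 1)) : ℤ_[p]) * (↑(u ^ p) : ℤ_[p]) := by
          rw [← Units.val_mul]
          congr 1
          obtain ⟨q, hq⟩ : ∃ q, p = q + 1 := ⟨p - 1, (Nat.succ_pred hp.out.ne_zero).symm⟩
          subst hq
          simp [pow_succ]
      _ = _ := by rw [hy, Units.val_pow_eq_pow_val]; ring
  have h3 := congrArg (fun z : ℤ_[p] => (z : ℚ_[p])) h2
  push_cast at h3
  rw [hu]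
  conv_lhs => rw [h3]
  ring

end Units

section Kummer

variable {K L : Type*} [Field K] [Field L] [Algebra K L] [IsGalois K L]

/-- Hilbert 90 for locally constant cocycles of an infinite Galois extension. -/
lemma exists_eq_div_of_levelConstant_cocycle (f : Gal(L/K) → L)
    (hf0 : ∀ s, f s ≠ 0) (hf : ∀ s t, f (s * t) = s (f t) * f s)
    (E : IntermediateField K L) [FiniteDimensional K E]
    (hc : ∀ g s, s ∈ E.fixingSubgroup → f (g * s) = f g) :
    ∃ b : L, b ≠ 0 ∧ ∀ s, f s = s b / b := by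
  classical
  let M : IntermediateField K L := IntermediateField.normalClosure K E L
  have : Normal K M := normalClosure.normal K E L
  have : FiniteDimensional K M := normalClosure.is_finiteDimensional K E L
  have hle : M.fixingSubgroup ≤ E.fixingSubgroup :=
    IntermediateField.fixingSubgroup_antitone E.le_normalClosure
  have hone : f 1 = 1 := by
    have := hf 1 1
    rw [mul_one, AlgEquiv.one_apply] at this
    exact (mul_eq_left₀ (hf0 1)).1 this.symm
  have hfix : ∀ (g : Gal(L/K)), ∀ s ∈ M.fixingSubgroup, s (f g) = f g := by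
    intro g s hs
    have h1 : f s = 1 := by
      have := hc 1 s (hle hs)
      rwa [one_mul, hone] at this
    have hconj : g⁻¹ * s * g ∈ M.fixingSubgroup := by
      have hn : M.fixingSubgroup.Normal := by
        rw [← IntermediateField.restrictNormalHom_ker]
        exact MonoidHom.normal_ker _
      have := hn.conj_mem s hs g⁻¹
      rwa [inv_inv] at this
    have h2 := hc g _ (hle hconj)
    rw [show g * (g⁻¹ * s * g) = s * g by group, hf, h1, mul_one] at h2
    exact h2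
  have hmem : ∀ g, f g ∈ M := by
    intro g
    rw [← InfiniteGalois.fixedField_fixingSubgroup M, IntermediateField.mem_fixedField_iff]
    exact hfix g
  have hsurj : Function.Surjective (AlgEquiv.restrictNormalHom (F := K) (K₁ := L) M) :=
    AlgEquiv.restrictNormalHom_surjective L
  have hcomm : ∀ (g : Gal(L/K)) (x : M),
      ((AlgEquiv.restrictNormalHom M g x : M) : L) = g x :=
    fun g x => AlgEquiv.restrictNormal_commutes g M x
  choose sec hsec using hsurj
  have hwell : ∀ g, f (sec (AlgEquiv.restrictNormalHom M g)) = f g := by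
    intro g
    have hk : g⁻¹ * sec (AlgEquiv.restrictNormalHom M g) ∈ M.fixingSubgroup := by
      rw [← IntermediateField.restrictNormalHom_ker, MonoidHom.mem_ker, map_mul, map_inv, hsec,
        inv_mul_cancel]
    simpa using hc g _ (hle hk)
  let F : Gal(M/K) → Mˣ := fun σ =>
    Units.mk0 ⟨f (sec σ), hmem _⟩ (by simpa [Subtype.ext_iff] using hf0 (sec σ))
  have hF : groupCohomology.IsMulCocycle₁ F := by
    intro σ τ
    ext
    have h1 : f (sec (σ * τ)) = f (sec σ * sec τ) := by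
      have h := hwell (sec σ * sec τ)
      rwa [map_mul, hsec, hsec] at h
    simp only [F, Units.val_mul, IntermediateField.coe_mul, Units.val_mk0, AlgEquiv.smul_units_def,
      Units.coe_map, MonoidHom.coe_coe]
    rw [h1, hf]
    congr 1
    conv_rhs => rw [← hsec σ]
    rw [hcomm]
  obtain ⟨β, hβ⟩ := groupCohomology.isMulCoboundary₁_of_isMulCocycle₁_of_aut_to_units F hF
  refine ⟨((β : M) : L), by simp, fun s => ?_⟩
  have h := congrArg (fun u : Mˣ => ((u : M) : L)) (hβ (AlgEquiv.restrictNormalHom M s))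
  simp only [F, AlgEquiv.smul_units_def, Units.val_div_eq_div_val, Units.coe_map, MonoidHom.coe_coe,
    Units.val_mk0, IntermediateField.coe_div, hcomm, hwell] at h
  exact h.symm

end Kummer

section Padic

variable {p : ℕ} [hp : Fact p.Prime]

open scoped Classical in
/-- The exponent of the Kummer cocycle of `b` with respect to `ζ` (junk value `0`). -/
noncomputable def kummerExp {L : Type*} [Field L] (ζ b : L) (s : L → L) : ZMod p :=
  if h : ∃ t : ZMod p, s b = ζ ^ t.val * b then h.choose else 0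

/-- Over `ℚ_[p]`, cocycles in `k(ω)` are spanned by two of them and the coboundaries. -/
theorem exists_two_generators_cyclotomic_cocycles (hp2 : p ≠ 2) :
    ∃ κ₀ κ₁ : Gal(PadicAlgCl p/ℚ_[p]) → ZMod p,
      ∀ (k : Type) [Field k] [Finite k] [Algebra (ZMod p) k]
        (χ : Gal(PadicAlgCl p/ℚ_[p]) → k)
        (_ : ∀ (s : Gal(PadicAlgCl p/ℚ_[p])) (a : ℕ),
          (∀ μ : PadicAlgCl p, μ ^ p = 1 → s μ = μ ^ a) → χ s = (a : k))
        (c : Gal(PadicAlgCl p/ℚ_[p]) → k)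
        (_ : ∀ s t, c (s * t) = c s + χ s * c t)
        (E : IntermediateField ℚ_[p] (PadicAlgCl p)) (_ : FiniteDimensional ℚ_[p] E)
        (_ : ∀ g s, s ∈ E.fixingSubgroup → c (g * s) = c g),
        ∃ x y z : k, ∀ s,
          c s = x * algebraMap (ZMod p) k (κ₀ s) + y * algebraMap (ZMod p) k (κ₁ s)
            + (χ s * z - z) := by
  classical
  set L := PadicAlgCl p
  have : NeZero p := ⟨hp.out.ne_zero⟩
  obtain ⟨ζ, hζ⟩ := HasEnoughRootsOfUnity.exists_primitiveRoot L p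
  have hp0 : (p : ℚ_[p]) ≠ 0 := by exact_mod_cast hp.out.ne_zero
  have h1p : (1 : ℚ_[p]) + p ≠ 0 := by exact_mod_cast Nat.succ_ne_zero p ∘ (by intro h; omega)
  obtain ⟨b₀, hb₀⟩ := IsAlgClosed.exists_pow_nat_eq (algebraMap ℚ_[p] L p) hp.out.pos
  obtain ⟨b₁, hb₁⟩ := IsAlgClosed.exists_pow_nat_eq (algebraMap ℚ_[p] L (1 + p)) hp.out.pos
  refine ⟨fun s => kummerExp ζ b₀ s, fun s => kummerExp ζ b₁ s, ?_⟩
  intro k _ _ _ χ hχ c hc E hE hlev
  have := hE
  have hb₀0 : b₀ ≠ 0 := by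
    intro h; rw [h, zero_pow hp.out.ne_zero] at hb₀
    exact (_root_.map_ne_zero _).2 hp0 hb₀.symm
  have hb₁0 : b₁ ≠ 0 := by
    intro h; rw [h, zero_pow hp.out.ne_zero] at hb₁
    exact (_root_.map_ne_zero _).2 h1p hb₁.symm
  have hζ0 : ζ ≠ 0 := hζ.ne_zero hp.out.ne_zero
  have hroot : ∀ μ : L, μ ^ p = 1 → ∃ t : ZMod p, μ = ζ ^ t.val := by
    intro μ hμ
    obtain ⟨i, hi, rfl⟩ := hζ.eq_pow_of_pow_eq_one hμ
    exact ⟨(i : ZMod p), by rw [ZMod.val_natCast, Nat.mod_eq_of_lt hi]⟩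
  have hpowcast : ∀ n : ℕ, ζ ^ n = ζ ^ ((n : ZMod p)).val := by
    intro n
    rw [ZMod.val_natCast]
    exact pow_eq_pow_mod n hζ.pow_eq_one
  have hmulval : ∀ t u : ZMod p, ζ ^ t.val * ζ ^ u.val = ζ ^ (t + u).val := by
    intro t u
    rw [← pow_add, hpowcast (t.val + u.val)]
    simp
  have hinj : ∀ t u : ZMod p, ζ ^ t.val = ζ ^ u.val → t = u := fun t u h =>
    ZMod.val_injective p (hζ.pow_inj (ZMod.val_lt t) (ZMod.val_lt u) h)
  have hkum : ∀ (b : L) (x : ℚ_[p]), b ^ p = algebraMap ℚ_[p] L x → b ≠ 0 →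
      ∀ s : Gal(L/ℚ_[p]), s b = ζ ^ (kummerExp (p := p) ζ b s).val * b := by
    intro b x hb hb0 s
    have hex : ∃ t : ZMod p, s b = ζ ^ t.val * b := by
      obtain ⟨t, ht⟩ := hroot (s b / b) (by
        rw [div_pow, ← map_pow, hb, AlgEquiv.commutes, ← hb, div_self (pow_ne_zero _ hb0)])
      exact ⟨t, (div_eq_iff hb0).1 ht⟩
    simp only [kummerExp]
    rw [dif_pos hex]
    exact hex.choose_spec
  -- the cyclotomic exponent of each element
  have hexp : ∀ s : Gal(L/ℚ_[p]), ∃ a : ℕ, s ζ = ζ ^ a ∧ χ s = (a : k) := by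
    intro s
    obtain ⟨a, -, ha⟩ := hζ.eq_pow_of_pow_eq_one (ξ := s ζ)
      (by rw [← map_pow, hζ.pow_eq_one, map_one])
    refine ⟨a, ha.symm, hχ s a fun μ hμ => ?_⟩
    obtain ⟨i, -, rfl⟩ := hζ.eq_pow_of_pow_eq_one hμ
    rw [map_pow, ← ha, ← pow_mul, ← pow_mul, mul_comm]
  choose e he1 he2 using hexp
  -- one coordinate
  have key : ∀ φ : k →ₗ[ZMod p] ZMod p, ∃ i j t : ZMod p, ∀ s,
      φ (c s) = i * kummerExp (p := p) ζ b₀ s + j * kummerExp (p := p) ζ b₁ s
        + ((e s : ZMod p) * t - t) := by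
    intro φ
    set d : Gal(L/ℚ_[p]) → ZMod p := fun s => φ (c s)
    have hd : ∀ s t, d (s * t) = d s + (e s : ZMod p) * d t := by
      intro s t
      simp only [d]
      rw [hc, map_add, he2 s]
      rw [← nsmul_eq_mul, map_nsmul, nsmul_eq_mul]
    obtain ⟨b, hb0, hb⟩ := exists_eq_div_of_levelConstant_cocycle
      (fun s => ζ ^ (d s).val) (fun s => pow_ne_zero _ hζ0)
      (by
        intro s t
        show ζ ^ (d (s * t)).val = s (ζ ^ (d t).val) * ζ ^ (d s).val
        rw [map_pow, he1 s, ← pow_mul]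
        rw [hpowcast (e s * (d t).val), hmulval]
        congr 2
        rw [hd]
        simp [add_comm])
      E (fun g s hs => by simp only [d, hlev g s hs])
    obtain ⟨x, hx⟩ : ∃ x : ℚ_[p], algebraMap ℚ_[p] L x = b ^ p := by
      rw [← Set.mem_range, InfiniteGalois.mem_range_algebraMap_iff_fixed]
      intro s
      have h := hb s
      rw [eq_div_iff hb0] at h
      rw [map_pow, ← h, mul_pow, ← pow_mul, mul_comm (d s).val, pow_mul, hζ.pow_eq_one, one_pow,
        one_mul]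
    have hx0 : x ≠ 0 := by
      intro h; rw [h, map_zero] at hx; exact pow_ne_zero p hb0 hx.symm
    obtain ⟨i, j, y, hy⟩ := exists_eq_zpow_mul_pow_mul_pow hp2 hx0
    set i' : ℕ := (i % (p : ℤ)).toNat
    obtain ⟨y', hy'⟩ : ∃ y' : ℚ_[p], x = (p : ℚ_[p]) ^ i' * (1 + (p : ℚ_[p])) ^ j * y' ^ p := by
      refine ⟨(p : ℚ_[p]) ^ (i / (p : ℤ)) * y, ?_⟩
      have hi : i = (i' : ℤ) + (i / (p : ℤ)) * p := by
        rw [Int.toNat_of_nonneg (Int.emod_nonneg _ (by exact_mod_cast hp.out.ne_zero))]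
        exact (Int.emod_add_ediv_mul i p).symm
      rw [hy]
      conv_lhs => rw [hi]
      rw [zpow_add₀ hp0, zpow_natCast, zpow_mul, zpow_natCast, mul_pow]
      ring
    have hy'0 : y' ≠ 0 := by
      intro h; rw [h, zero_pow hp.out.ne_zero, mul_zero] at hy'; exact hx0 hy'
    set y₀ : L := algebraMap ℚ_[p] L y'
    have hy₀ : y₀ ≠ 0 := (_root_.map_ne_zero _).2 hy'0
    have hB : b₀ ^ i' * b₁ ^ j * y₀ ≠ 0 :=
      mul_ne_zero (mul_ne_zero (pow_ne_zero _ hb₀0) (pow_ne_zero _ hb₁0)) hy₀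
    obtain ⟨t, ht⟩ := hroot (b / (b₀ ^ i' * b₁ ^ j * y₀)) (by
      rw [div_pow, ← hx, hy', mul_pow, mul_pow, ← pow_mul, ← pow_mul, mul_comm i', mul_comm j,
        pow_mul, pow_mul, hb₀, hb₁, map_mul, map_mul, map_pow, map_pow, map_pow]
      exact div_self (by
        rw [← map_pow, ← map_pow, ← map_pow, ← map_mul, ← map_mul]
        exact (_root_.map_ne_zero _).2 (hy' ▸ hx0)))
    rw [div_eq_iff hB] at ht
    refine ⟨(i' : ZMod p), (j : ZMod p), t, fun s => hinj _ _ ?_⟩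
    have h := hb s
    rw [eq_div_iff hb0] at h
    have hs0 := hkum b₀ (p : ℚ_[p]) hb₀ hb₀0 s
    have hs1 := hkum b₁ _ hb₁ hb₁0 s
    have hsb : s b = ζ ^ (e s * t.val) *
        ((ζ ^ (kummerExp (p := p) ζ b₀ s).val * b₀) ^ i' *
          (ζ ^ (kummerExp (p := p) ζ b₁ s).val * b₁) ^ j * y₀) := by
      rw [ht, map_mul, map_mul, map_mul, map_pow, map_pow, map_pow, hs0, hs1,
        he1 s, ← pow_mul, AlgEquiv.commutes]
    rw [hsb] at h
    -- `h : ζ^(d s).val * b = ...`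
    have hz : ζ ^ (d s).val * ζ ^ t.val = ζ ^ (e s * t.val) *
        (ζ ^ ((kummerExp (p := p) ζ b₀ s).val * i') *
          ζ ^ ((kummerExp (p := p) ζ b₁ s).val * j)) := by
      apply mul_right_cancel₀ hB
      rw [mul_assoc, ← ht, h, mul_pow, mul_pow, ← pow_mul, ← pow_mul]
      ring
    rw [hmulval, ← pow_add, ← pow_add, hpowcast (_ + _)] at hz
    have := hinj _ _ hz
    push_cast [ZMod.natCast_val, ZMod.cast_id] at this
    congr 2
    linear_combination this
  choose i j t hit using key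
  let B := Module.Basis.ofVectorSpace (ZMod p) k
  have : Fintype (Module.Basis.ofVectorSpaceIndex (ZMod p) k) := Fintype.ofFinite _
  refine ⟨∑ l, i (B.coord l) • B l, ∑ l, j (B.coord l) • B l, ∑ l, t (B.coord l) • B l,
    fun s => ?_⟩
  conv_lhs => rw [← B.sum_repr (c s)]
  have : χ s = algebraMap (ZMod p) k (e s : ZMod p) := by
    rw [he2 s, map_natCast]
  rw [this, Finset.sum_mul, Finset.sum_mul, Finset.mul_sum, ← Finset.sum_sub_distrib,
    ← Finset.sum_add_distrib, ← Finset.sum_add_distrib]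
  refine Finset.sum_congr rfl fun l _ => ?_
  have hl := hit (B.coord l) s
  rw [Module.Basis.coord_apply] at hl
  rw [hl]
  simp only [Algebra.smul_def, map_add, map_sub, map_mul]
  ring

end Padic

end Fermat.Agent.TW
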