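import Fermat.Prelude.Def_GaloisRep_Adic
import Fermat.Prelude.Def_GroupCohomology_ContinuousUnramified

/-!
# The adjoint module of a residual representation and its infinitesimal lifts

`ad0 ρbar` is the trace-zero part of `End V` under conjugation, `ad0Tw p ρbar` its twist by the
mod `p` cyclotomic character, and `adLift ρbar c hc` the representation over `k[ε]` attached to a
level-constant cocycle `c`: `σ ↦ (1 + ε c(σ)) ρbar(σ)`.
-/

set_option autoImplicit false
set_option linter.style.haveILetI false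

noncomputable section

open CategoryTheory groupCohomology ExtCitation
open scoped TensorProduct

namespace Fermat.Agent.TW

local notation "Γℚ" => (AlgebraicClosure ℚ ≃ₐ[ℚ] AlgebraicClosure ℚ)

variable {k : Type} [Field k] (ρbar : ResidualGaloisRep k)

theorem rhoMulInv (σ : Γℚ) : ρbar.ρ σ * ρbar.ρ σ⁻¹ = 1 := by
  rw [← map_mul, mul_inv_cancel, map_one]

theorem rhoInvMul (σ : Γℚ) : ρbar.ρ σ⁻¹ * ρbar.ρ σ = 1 := by
  rw [← map_mul, inv_mul_cancel, map_one]

/-- Conjugation action on `End V`. -/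
def adRep : Representation k Γℚ (Module.End k ρbar.V) where
  toFun σ := (LinearMap.mulLeft k (ρbar.ρ σ)).comp (LinearMap.mulRight k (ρbar.ρ σ⁻¹))
  map_one' := by
    apply LinearMap.ext
    intro X
    simp
  map_mul' σ τ := by
    apply LinearMap.ext
    intro X
    simp [mul_assoc]

theorem adRep_apply (σ : Γℚ) (X : Module.End k ρbar.V) :
    adRep ρbar σ X = ρbar.ρ σ * (X * ρbar.ρ σ⁻¹) := rfl

/-- Trace-zero endomorphisms. -/
abbrev adZeroSpace : Submodule k (Module.End k ρbar.V) :=
  LinearMap.ker (LinearMap.trace k ρbar.V)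

theorem adRep_mem_adZeroSpace (σ : Γℚ) (X : Module.End k ρbar.V) (hX : X ∈ adZeroSpace ρbar) :
    adRep ρbar σ X ∈ adZeroSpace ρbar := by
  rw [LinearMap.mem_ker] at hX ⊢
  rw [adRep_apply, LinearMap.trace_mul_comm, mul_assoc, rhoInvMul, mul_one, hX]

/-- The representation on trace-zero endomorphisms. -/
def adZeroRep : Representation k Γℚ (adZeroSpace ρbar) where
  toFun σ := (adRep ρbar σ).restrict (adRep_mem_adZeroSpace ρbar σ)
  map_one' := by
    apply LinearMap.ext
    intro X
    apply Subtype.ext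
    simp
  map_mul' σ τ := by
    apply LinearMap.ext
    intro X
    apply Subtype.ext
    simp

/-- `ad⁰ ρbar`. -/
abbrev ad0 : Rep k Γℚ := Rep.of (adZeroRep ρbar)

theorem ad0_rho_coe (σ : Γℚ) (X : ad0 ρbar) :
    (((ad0 ρbar).ρ σ X : adZeroSpace ρbar) : Module.End k ρbar.V)
      = ρbar.ρ σ * ((X : adZeroSpace ρbar).1 * ρbar.ρ σ⁻¹) := rfl

section Twist

variable (p : ℕ) [Fact p.Prime] [CharP k p]

/-- The mod `p` cyclotomic character with values in `k`. -/
def cycloK : Γℚ →* kˣ :=
  (Units.map (ZMod.castHom dvd_rfl k : ZMod p →+* k).toMonoidHom).comp (cycloChar p)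

/-- `ad⁰ ρbar (1)`. -/
abbrev ad0Tw : Rep k Γℚ := Rep.twist (ad0 ρbar) (cycloK (k := k) p)

end Twist


/-- The value of a cocycle as an endomorphism. -/
abbrev cocycleEnd (c : cocycles₁ (ad0 ρbar)) (σ : Γℚ) : Module.End k ρbar.V :=
  ((c σ : ad0 ρbar) : adZeroSpace ρbar).1

theorem cocycleEnd_mul (c : cocycles₁ (ad0 ρbar)) (σ τ : Γℚ) :
    cocycleEnd ρbar c (σ * τ)
      = ρbar.ρ σ * (cocycleEnd ρbar c τ * ρbar.ρ σ⁻¹) + cocycleEnd ρbar c σ :=
  congrArg Subtype.val ((mem_cocycles₁_iff c.1).1 c.2 σ τ)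

/-- Underlying endomorphism of the lift attached to a cocycle. -/
def adLiftEnd (c : cocycles₁ (ad0 ρbar)) (σ : Γℚ) :
    Module.End (DualNumber k) (DualNumber k ⊗[k] ρbar.V) :=
  (ρbar.ρ σ).baseChange (DualNumber k) +
    (DualNumber.eps : DualNumber k) •
      (cocycleEnd ρbar c σ * ρbar.ρ σ).baseChange (DualNumber k)

theorem adLiftEnd_tmul (c : cocycles₁ (ad0 ρbar)) (σ : Γℚ) (a : DualNumber k) (v : ρbar.V) :
    adLiftEnd ρbar c σ (a ⊗ₜ[k] v)
      = a ⊗ₜ[k] ρbar.ρ σ v + (DualNumber.eps * a) ⊗ₜ[k] cocycleEnd ρbar c σ (ρbar.ρ σ v) := by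
  simp [adLiftEnd, TensorProduct.smul_tmul']

theorem adLiftEnd_one (c : cocycles₁ (ad0 ρbar)) : adLiftEnd ρbar c 1 = 1 := by
  have h : cocycleEnd ρbar c 1 = 0 := by
    rw [show cocycleEnd ρbar c 1 = ((c 1 : ad0 ρbar) : adZeroSpace ρbar).1 from rfl,
      cocycles₁_map_one]
    rfl
  apply LinearMap.ext
  intro x
  induction x using TensorProduct.induction_on with
  | zero => simp only [map_zero]
  | add x y hx hy => simp only [map_add, hx, hy]
  | tmul a v => simp [adLiftEnd_tmul, h]

theorem adLiftEnd_mul (c : cocycles₁ (ad0 ρbar)) (σ τ : Γℚ) :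
    adLiftEnd ρbar c (σ * τ) = adLiftEnd ρbar c σ * adLiftEnd ρbar c τ := by
  have hb : ∀ v, ρbar.ρ σ⁻¹ (ρbar.ρ σ v) = v := fun v => by
    rw [← Module.End.mul_apply, rhoInvMul, Module.End.one_apply]
  apply LinearMap.ext
  intro x
  induction x using TensorProduct.induction_on with
  | zero => simp only [map_zero]
  | add x y hx hy => simp only [map_add, hx, hy]
  | tmul a v =>
    simp only [Module.End.mul_apply, adLiftEnd_tmul, map_add, map_mul, cocycleEnd_mul,
      LinearMap.add_apply, hb, TensorProduct.tmul_add]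
    rw [← mul_assoc DualNumber.eps DualNumber.eps a, DualNumber.eps_mul_eps, zero_mul,
      TensorProduct.zero_tmul]
    abel

/-- The representation over the dual numbers attached to a level-constant cocycle. -/
def adLift (c : cocycles₁ (ad0 ρbar)) (hc : IsLevelConstant₁ (MonoidHom.id Γℚ) c) :
    GaloisRepAdic (DualNumber k) :=
  { V := DualNumber k ⊗[k] ρbar.V
    finrank_eq := by rw [Module.finrank_baseChange, ρbar.finrank_eq]
    ρ := { toFun := adLiftEnd ρbar c
           map_one' := adLiftEnd_one ρbar c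
           map_mul' := adLiftEnd_mul ρbar c }
    isAdicContinuous := by
      intro n
      obtain ⟨F, hF, hcF⟩ := hc
      obtain ⟨L, hL, hρL⟩ := ρbar.factorsThroughFiniteLevel
      haveI := hF
      haveI := hL
      refine ⟨F ⊔ L, IntermediateField.finiteDimensional_sup F L, fun σ hσ v => ?_⟩
      have h0 : cocycleEnd ρbar c σ = 0 := by
        have h1 : c (1 * σ) = c 1 := hcF 1 σ
          ((IntermediateField.mem_fixingSubgroup_iff _ _).2 fun x hx =>
            hσ x (SetLike.le_def.1 (le_sup_left : F ≤ F ⊔ L) hx))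
        rw [one_mul, cocycles₁_map_one] at h1
        show ((c σ : ad0 ρbar) : adZeroSpace ρbar).1 = 0
        rw [h1]
        rfl
      have h3 : ρbar.ρ σ = 1 :=
        hρL σ (fun x hx => hσ x (SetLike.le_def.1 (le_sup_right : L ≤ F ⊔ L) hx))
      have h2 : adLiftEnd ρbar c σ = 1 := by
        apply LinearMap.ext
        intro x
        induction x using TensorProduct.induction_on with
        | zero => simp only [map_zero]
        | add x y hx hy => simp only [map_add, hx, hy]
        | tmul a v => simp [adLiftEnd_tmul, h0, h3]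
      show adLiftEnd ρbar c σ v - v ∈ _
      rw [h2, Module.End.one_apply, sub_self]
      exact Submodule.zero_mem _ }

/-- The localisation map on `H¹` at a prime. -/
abbrev locPrime (q : Nat.Primes) {R : Type} [CommRing R] (M : Rep R Γℚ) :
    H1 M →ₗ[R] H1 (Rep.res (primeLocalToGlobal q) M) :=
  (groupCohomology.map (primeLocalToGlobal q) (𝟙 (Rep.res (primeLocalToGlobal q) M)) 1).hom

end Fermat.Agent.TW
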