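import Mathlib
import Fermat.Prelude.Def_GaloisRep_StrictOrdinary
import Fermat.Prelude.Def_ExtCitation_KummerBridge
import Fermat.Prelude.Def_GaloisRep_CompletionBridge
import Fermat.Agent.TW.Ad

/-!
# Strict ordinary lifts to the dual numbers

If the lift of `ρ` to `k[ε]` attached to a trace-zero cocycle is strict ordinary at `p`, then `ρ`
has a strict ordinary line and, up to a coboundary, the cocycle kills the line and has values in it.
-/

set_option autoImplicit false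

noncomputable section

namespace Fermat.Agent.TW

open scoped TensorProduct DualNumber
open groupCohomology

local notation "Γℚ" => (AlgebraicClosure ℚ ≃ₐ[ℚ] AlgebraicClosure ℚ)

variable {k : Type} [Field k] (ρ : ResidualGaloisRep k)

/-- The mod-`p` cyclotomic character with values in `k`. -/
def cycK (p : ℕ) [Fact p.Prime] (k : Type) [Field k] (σ : Γℚ) : k := (ExtCitation.cycloExp p σ : k)

theorem apply_root_eq_pow_cycloExp (p : ℕ) [Fact p.Prime] (σ : Γℚ)
    (μ : AlgebraicClosure ℚ) (hμ : μ ^ p = 1) : σ μ = μ ^ ExtCitation.cycloExp p σ := by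
  have : NeZero p := ⟨(Fact.out : p.Prime).ne_zero⟩
  exact modularCyclotomicCharacter.spec _ (ExtCitation.card_rootsOfUnity_eq_self p)
    (σ : AlgebraicClosure ℚ ≃+* AlgebraicClosure ℚ) (rootsOfUnity.mkOfPowEq μ hμ).2

theorem ρ_injective (σ : Γℚ) : Function.Injective (ρ.ρ σ) := fun a b h => by
  simpa [← Module.End.mul_apply, rhoInvMul] using congrArg (ρ.ρ σ⁻¹) h

theorem ρ_surjective (σ : Γℚ) : Function.Surjective (ρ.ρ σ) := fun u =>
  ⟨ρ.ρ σ⁻¹ u, by rw [← Module.End.mul_apply, rhoMulInv, Module.End.one_apply]⟩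

section Components

/-- The residual component of an element of `k[ε] ⊗ V`. -/
def dualFst : k[ε] ⊗[k] ρ.V →ₗ[k] ρ.V :=
  TensorProduct.lift ((LinearMap.lsmul k ρ.V).comp (TrivSqZeroExt.fstHom k k k).toLinearMap)

/-- The infinitesimal component of an element of `k[ε] ⊗ V`. -/
def dualSnd : k[ε] ⊗[k] ρ.V →ₗ[k] ρ.V :=
  TensorProduct.lift ((LinearMap.lsmul k ρ.V).comp (TrivSqZeroExt.sndHom k k))

@[simp] theorem dualFst_tmul (a : k[ε]) (v : ρ.V) :
    dualFst ρ (a ⊗ₜ v) = TrivSqZeroExt.fst a • v := by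
  simp [dualFst]

@[simp] theorem dualSnd_tmul (a : k[ε]) (v : ρ.V) :
    dualSnd ρ (a ⊗ₜ v) = TrivSqZeroExt.snd a • v := by
  simp [dualSnd]

theorem dual_recon (w : k[ε] ⊗[k] ρ.V) :
    w = (1 : k[ε]) ⊗ₜ dualFst ρ w + (DualNumber.eps : k[ε]) ⊗ₜ dualSnd ρ w := by
  induction w using TensorProduct.induction_on with
  | zero => simp
  | tmul a v =>
    rw [dualFst_tmul, dualSnd_tmul, ← TensorProduct.smul_tmul, ← TensorProduct.smul_tmul,
      ← TensorProduct.add_tmul]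
    congr 1
    ext <;> simp
  | add a b ha hb =>
    rw [map_add, map_add, TensorProduct.tmul_add, TensorProduct.tmul_add]
    conv_lhs => rw [ha, hb]
    abel

theorem dualFst_smul (a : k[ε]) (w : k[ε] ⊗[k] ρ.V) :
    dualFst ρ (a • w) = TrivSqZeroExt.fst a • dualFst ρ w := by
  induction w using TensorProduct.induction_on with
  | zero => simp
  | tmul b v => simp [TensorProduct.smul_tmul', mul_smul]
  | add x y hx hy => simp [hx, hy]

theorem dualSnd_smul (a : k[ε]) (w : k[ε] ⊗[k] ρ.V) :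
    dualSnd ρ (a • w) =
      TrivSqZeroExt.fst a • dualSnd ρ w + TrivSqZeroExt.snd a • dualFst ρ w := by
  induction w using TensorProduct.induction_on with
  | zero => simp
  | tmul b v =>
    simp only [TensorProduct.smul_tmul', dualSnd_tmul, dualFst_tmul, smul_eq_mul,
      TrivSqZeroExt.fst_mul, DualNumber.snd_mul, add_smul, mul_smul]
  | add x y hx hy =>
    simp only [smul_add, map_add, hx, hy]
    abel

theorem dualFst_liftEnd (c : cocycles₁ (ad0 ρ)) (σ : Γℚ) (w : k[ε] ⊗[k] ρ.V) :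
    dualFst ρ (adLiftEnd ρ c σ w) = ρ.ρ σ (dualFst ρ w) := by
  induction w using TensorProduct.induction_on with
  | zero => simp
  | tmul a v => simp [adLiftEnd_tmul]
  | add x y hx hy => simp [hx, hy]

theorem dualSnd_liftEnd (c : cocycles₁ (ad0 ρ)) (σ : Γℚ) (w : k[ε] ⊗[k] ρ.V) :
    dualSnd ρ (adLiftEnd ρ c σ w) =
      ρ.ρ σ (dualSnd ρ w) + cocycleEnd ρ c σ (ρ.ρ σ (dualFst ρ w)) := by
  induction w using TensorProduct.induction_on with
  | zero => simp
  | tmul a v => simp [adLiftEnd_tmul]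
  | add x y hx hy =>
    simp only [map_add, hx, hy]
    abel

end Components

/-- `v₀` spans a strict ordinary line of `ρ` at the distinguished place over `p`. -/
structure IsOrdLine (p : ℕ) [Fact p.Prime] (v₀ : ρ.V) : Prop where
  ne_zero : v₀ ≠ 0
  decomposition : ∀ σ ∈ (padicPlace p).decompositionSubgroup ℚ, ∃ z : k,
    z ≠ 0 ∧ ρ.ρ σ v₀ = (cycK p k σ * z) • v₀ ∧
      ∀ v, ρ.ρ σ v - z • v ∈ Submodule.span k {v₀}
  inertia : ∀ σ ∈ (padicPlace p).inertiaSubgroupIn ℚ, ∀ v,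
    ρ.ρ σ v - v ∈ Submodule.span k {v₀}

theorem trace_eq_two_mul {f : Module.End k ρ.V} {v₀ : ρ.V} {b : k} (h0 : f v₀ = b • v₀)
    (hr : ∀ u, f u - b • u ∈ Submodule.span k {v₀}) : LinearMap.trace k ρ.V f = 2 * b := by
  have hnil : IsNilpotent (f - b • 1) := by
    refine ⟨2, LinearMap.ext fun u => ?_⟩
    obtain ⟨t, ht⟩ := Submodule.mem_span_singleton.1 (hr u)
    rw [pow_two, Module.End.mul_apply, LinearMap.sub_apply f (b • 1) u, LinearMap.smul_apply,
      Module.End.one_apply, ← ht, map_smul, LinearMap.sub_apply, LinearMap.smul_apply,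
      Module.End.one_apply, h0, sub_self, smul_zero, LinearMap.zero_apply]
  have h := (LinearMap.isNilpotent_trace_of_isNilpotent hnil).eq_zero
  rw [map_sub, map_smul, LinearMap.trace_one, ρ.finrank_eq, sub_eq_zero, smul_eq_mul] at h
  rw [h]; push_cast; ring

/-- Structure of the cocycle of a strict ordinary lift. -/
theorem exists_ordLine_of_strictOrdinary (p : ℕ) [hp : Fact p.Prime] [CharP k p] (hp2 : p ≠ 2)
    (hlies : (padicPlace p).LiesOverPrime p)
    (c : cocycles₁ (ad0 ρ)) (hc : IsLevelConstant₁ (MonoidHom.id Γℚ) c)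
    (hord : (adLift ρ c hc).IsStrictOrdinaryAt p) :
    ∃ v₀ : ρ.V, IsOrdLine ρ p v₀ ∧ ∃ T : ad0 ρ,
      ∀ σ ∈ (padicPlace p).decompositionSubgroup ℚ,
        (c σ + ((ad0 ρ).ρ σ T - T)).1 v₀ = 0 ∧
        ∀ u, (c σ + ((ad0 ρ).ρ σ T - T)).1 u ∈ Submodule.span k {v₀} := by
  have h2 : (2 : k) ≠ 0 := Ring.two_ne_zero (by rw [ringChar.eq k p]; exact hp2)
  have hp0 : ((p : ℕ) : k[ε]) = 0 := by
    rw [← map_natCast (algebraMap k k[ε]), CharP.cast_eq_zero k p, map_zero]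
  obtain ⟨-, hP⟩ := hord
  obtain ⟨L, ⟨b, hL⟩, -, hI, hD⟩ := hP (padicPlace p) hlies
  have hb : ∀ a : k[ε], a • b 0 = 0 → a = 0 := by
    intro a h
    have := congrArg (fun w => b.repr w 0) h
    simpa using this
  let b₀ : k[ε] ⊗[k] ρ.V := b 0
  have hb' : ∀ a : k[ε], a • b₀ = 0 → a = 0 := hb
  have hI' : ∀ σ ∈ (padicPlace p).inertiaSubgroupIn ℚ, ∀ w : k[ε] ⊗[k] ρ.V,
      ∃ a : k[ε], a • b₀ = adLiftEnd ρ c σ w - w := by
    intro σ hσ w
    have h := hI σ hσ w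
    rw [hL] at h
    exact Submodule.mem_span_singleton.1 h
  have hD' : ∀ σ ∈ (padicPlace p).decompositionSubgroup ℚ, ∃ x z : k[ε],
      adLiftEnd ρ c σ b₀ = x • b₀ ∧
      (∀ w : k[ε] ⊗[k] ρ.V, ∃ a : k[ε], a • b₀ = adLiftEnd ρ c σ w - z • w) ∧
      x = (ExtCitation.cycloExp p σ : k[ε]) * z := by
    intro σ hσ
    obtain ⟨x, z, hx, hz, hn⟩ := hD σ hσ
    refine ⟨x, z, hx (b 0) (by rw [hL]; exact Submodule.mem_span_singleton_self _),
      fun w => ?_, ?_⟩
    · have h := hz w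
      rw [hL] at h
      exact Submodule.mem_span_singleton.1 h
    · have := hn 1 (ExtCitation.cycloExp p σ) (fun μ hμ => by
        rw [pow_one] at hμ; exact apply_root_eq_pow_cycloExp p σ μ hμ)
      rw [pow_one, hp0, Ideal.mem_span_singleton, zero_dvd_iff, sub_eq_zero] at this
      exact this
  set v₀ := dualFst ρ b₀
  set w₀ := dualSnd ρ b₀
  have hv0 : v₀ ≠ 0 := by
    intro h
    have hz : (DualNumber.eps : k[ε]) • b₀ = 0 := by
      rw [dual_recon ρ ((DualNumber.eps : k[ε]) • b₀), dualFst_smul, dualSnd_smul,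
        show dualFst ρ b₀ = 0 from h]
      simp
    exact one_ne_zero (α := k)
      ((DualNumber.snd_eps).symm.trans (congrArg TrivSqZeroExt.snd (hb' _ hz)))
  -- the equations at an element of the decomposition group
  have heq : ∀ σ ∈ (padicPlace p).decompositionSubgroup ℚ, ∃ z₀ z₁ : k, z₀ ≠ 0 ∧
      ρ.ρ σ v₀ = (cycK p k σ * z₀) • v₀ ∧
      ρ.ρ σ w₀ + cocycleEnd ρ c σ (ρ.ρ σ v₀) =
        (cycK p k σ * z₀) • w₀ + (cycK p k σ * z₁) • v₀ ∧
      ∀ v w, ∃ a₀ a₁ : k, ρ.ρ σ v - z₀ • v = a₀ • v₀ ∧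
        ρ.ρ σ w + cocycleEnd ρ c σ (ρ.ρ σ v) - z₀ • w - z₁ • v = a₀ • w₀ + a₁ • v₀ := by
    intro σ hσ
    obtain ⟨x, z, hx, hz, hxz⟩ := hD' σ hσ
    have hcst : (ExtCitation.cycloExp p σ : k[ε]) = TrivSqZeroExt.inl (cycK p k σ) := by
      rw [← map_natCast (algebraMap k k[ε])]; rfl
    rw [hcst] at hxz
    have e := hx
    have e0 := congrArg (dualFst ρ) e
    have e1 := congrArg (dualSnd ρ) e
    rw [dualFst_liftEnd, dualFst_smul, hxz] at e0
    rw [dualSnd_liftEnd, dualSnd_smul, hxz] at e1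
    simp only [TrivSqZeroExt.fst_mul, DualNumber.snd_mul, TrivSqZeroExt.fst_inl,
      TrivSqZeroExt.snd_inl, zero_mul, add_zero] at e0 e1
    refine ⟨TrivSqZeroExt.fst z, TrivSqZeroExt.snd z, ?_, e0, e1, fun v w => ?_⟩
    · intro h
      rw [h, mul_zero, zero_smul] at e0
      exact hv0 (ρ_injective ρ σ (e0.trans (map_zero _).symm))
    · obtain ⟨a, ha⟩ := hz ((1 : k[ε]) ⊗ₜ v + (DualNumber.eps : k[ε]) ⊗ₜ w)
      refine ⟨TrivSqZeroExt.fst a, TrivSqZeroExt.snd a, ?_, ?_⟩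
      · have := congrArg (dualFst ρ) ha
        rw [dualFst_smul, map_sub, dualFst_liftEnd, dualFst_smul] at this
        simpa using this.symm
      · have := congrArg (dualSnd ρ) ha
        rw [dualSnd_smul, map_sub, dualSnd_liftEnd, dualSnd_smul] at this
        simp only [map_add, dualFst_tmul, dualSnd_tmul, TrivSqZeroExt.fst_one,
          TrivSqZeroExt.snd_one, DualNumber.fst_eps, DualNumber.snd_eps, one_smul, zero_smul,
          add_zero, zero_add] at this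
        rw [sub_sub]; exact this.symm
  refine ⟨v₀, ⟨hv0, fun σ hσ => ?_, fun σ hσ v => ?_⟩, ?_⟩
  · obtain ⟨z₀, z₁, hz0, he0, -, hq⟩ := heq σ hσ
    refine ⟨z₀, hz0, he0, fun v => ?_⟩
    obtain ⟨a₀, a₁, ha, -⟩ := hq v 0
    exact Submodule.mem_span_singleton.2 ⟨a₀, ha.symm⟩
  · obtain ⟨a, ha⟩ := hI' σ hσ ((1 : k[ε]) ⊗ₜ v)
    have := congrArg (dualFst ρ) ha
    rw [dualFst_smul, map_sub, dualFst_liftEnd] at this
    exact Submodule.mem_span_singleton.2 ⟨TrivSqZeroExt.fst a, by simpa using this⟩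
  · obtain ⟨φ, hφ⟩ : ∃ φ : Module.Dual k ρ.V, φ v₀ = 1 :=
      Module.Projective.exists_dual_eq_one k hv0
    set T₀ : Module.End k ρ.V := φ.smulRight w₀
    set τ : k := LinearMap.trace k ρ.V T₀ / 2
    have hT : T₀ - τ • 1 ∈ adZeroSpace ρ := by
      rw [LinearMap.mem_ker, map_sub, map_smul, LinearMap.trace_one, ρ.finrank_eq, smul_eq_mul,
        Nat.cast_ofNat, div_mul_cancel₀ _ h2, sub_self]
    refine ⟨⟨T₀ - τ • 1, hT⟩, fun σ hσ => ?_⟩
    obtain ⟨z₀, z₁, hz0, he0, he1, hq⟩ := heq σ hσ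
    set f : Module.End k ρ.V := cocycleEnd ρ c σ +
      (ρ.ρ σ * (T₀ - τ • 1) * ρ.ρ σ⁻¹ - (T₀ - τ • 1))
    have hf : (c σ + ((ad0 ρ).ρ σ ⟨T₀ - τ • 1, hT⟩ - ⟨T₀ - τ • 1, hT⟩)).1 = f := by
      show cocycleEnd ρ c σ + (((ad0 ρ).ρ σ ⟨T₀ - τ • 1, hT⟩).1 - (T₀ - τ • 1)) = f
      rw [ad0_rho_coe, ← mul_assoc]
    have hfρ : ∀ v, f (ρ.ρ σ v) = cocycleEnd ρ c σ (ρ.ρ σ v) +
        (ρ.ρ σ ((T₀ - τ • 1) v) - (T₀ - τ • 1) (ρ.ρ σ v)) := by
      intro v
      simp only [f, LinearMap.add_apply, LinearMap.sub_apply, Module.End.mul_apply]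
      rw [← Module.End.mul_apply (ρ.ρ σ⁻¹), rhoInvMul, Module.End.one_apply]
    have hT0 : (T₀ - τ • 1) v₀ = w₀ - τ • v₀ := by simp [T₀, hφ]
    have hchi : cycK p k σ * z₀ ≠ 0 := by
      intro h; rw [h, zero_smul] at he0
      exact hv0 (ρ_injective ρ σ (he0.trans (map_zero _).symm))
    set β : k := z₁ / z₀
    have hf0 : f v₀ = β • v₀ := by
      have h := hfρ v₀
      rw [hT0, map_sub (ρ.ρ σ), map_smul (ρ.ρ σ), he0, map_smul f, map_smul (cocycleEnd ρ c σ),
        map_smul (T₀ - τ • 1), hT0] at h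
      rw [he0, map_smul] at he1
      apply smul_right_injective ρ.V hchi
      show (cycK p k σ * z₀) • f v₀ = (cycK p k σ * z₀) • β • v₀
      rw [h, smul_smul (cycK p k σ * z₀) β, show cycK p k σ * z₀ * β = cycK p k σ * z₁ by
        simp only [β]; field_simp]
      linear_combination (norm := module) he1
    have hfr : ∀ u, f u - β • u ∈ Submodule.span k {v₀} := by
      intro u
      obtain ⟨v, rfl⟩ := ρ_surjective ρ σ u
      obtain ⟨a₀, a₁, ha₀, ha₁⟩ := hq v ((T₀ - τ • 1) v)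
      refine Submodule.mem_span_singleton.2 ⟨a₁ + a₀ * τ - β * a₀, ?_⟩
      rw [sub_eq_iff_eq_add'] at ha₀
      have hT' : (T₀ - τ • 1) (ρ.ρ σ v) = z₀ • (T₀ - τ • 1) v + a₀ • (w₀ - τ • v₀) := by
        rw [ha₀, map_add, map_smul, map_smul, hT0]
      have hz : β * z₀ = z₁ := div_mul_cancel₀ _ hz0
      rw [hfρ, hT']
      conv_rhs => rw [ha₀]
      rw [ha₀] at ha₁
      rw [smul_add, smul_smul, hz]
      linear_combination (norm := module) -ha₁
    have hβ : β = 0 := by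
      have := trace_eq_two_mul ρ hf0 hfr
      rw [← hf, LinearMap.mem_ker.1 (c σ + ((ad0 ρ).ρ σ ⟨_, hT⟩ - ⟨_, hT⟩)).2] at this
      exact (mul_eq_zero.1 this.symm).resolve_left h2
    rw [hf]
    simp only [hβ, zero_smul, sub_zero] at hf0 hfr
    exact ⟨hf0, hfr⟩

/-- The strict ordinary line is unique when some inertia element is moved by the cyclotomic
character. -/
theorem IsOrdLine.mem_span (p : ℕ) [Fact p.Prime]
    (hI : (padicPlace p).inertiaSubgroupIn ℚ ≤ (padicPlace p).decompositionSubgroup ℚ)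
    (hσ : ∃ σ ∈ (padicPlace p).inertiaSubgroupIn ℚ, cycK p k σ ≠ 1)
    {v₀ v₀' : ρ.V} (h : IsOrdLine ρ p v₀) (h' : IsOrdLine ρ p v₀') :
    v₀' ∈ Submodule.span k {v₀} := by
  by_contra hne
  obtain ⟨σ, hσI, hχ⟩ := hσ
  obtain ⟨z, hz0, hx, hz⟩ := h.decomposition σ (hI hσI)
  obtain ⟨t, ht⟩ := Submodule.mem_span_singleton.1
    (Submodule.sub_mem _ (h.inertia σ hσI v₀') (hz v₀'))
  have hz1 : z = 1 := by
    by_contra hz1
    refine hne (Submodule.mem_span_singleton.2 ⟨(z - 1)⁻¹ * t, ?_⟩)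
    rw [mul_smul, ht, inv_smul_eq_iff₀ (sub_ne_zero.2 hz1)]
    module
  obtain ⟨s, hs⟩ := Submodule.mem_span_singleton.1 (h'.inertia σ hσI v₀)
  rw [hx, hz1, mul_one] at hs
  rcases eq_or_ne s 0 with rfl | hs0
  · rw [zero_smul, eq_comm, sub_eq_zero] at hs
    exact hχ (smul_left_injective k h.ne_zero (hs.trans (one_smul k v₀).symm))
  · refine hne (Submodule.mem_span_singleton.2 ⟨s⁻¹ * (cycK p k σ - 1), ?_⟩)
    rw [mul_smul, sub_smul, one_smul, ← hs, inv_smul_smul₀ hs0]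

end Fermat.Agent.TW
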