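import Fermat.Agent.FlatTangent.PairModel
import Fermat.Agent.FlatTangent.ResidualCases
import Fermat.Agent.FlatTangent.OrdinaryNormal
import Fermat.Agent.FlatTangent.OrdinaryBound
import Fermat.Agent.FlatTangent.SupersingularBound
import Fermat.Agent.FlatTangent.SSCriterion
import Fermat.Prelude.Def_GaloisRep_DeformationRingData
import Fermat.Prelude.Def_GaloisRep_StrictOrdinary
import Fermat.Prelude.Def_GaloisRep_Flat

/-!
# The flat local condition at `p`

The classes of flat deformations to the dual numbers span, locally at `p`, at most one dimension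
more than the invariants of `ad⁰`.
-/

set_option autoImplicit false
set_option maxSynthPendingDepth 3
set_option linter.style.haveILetI false

noncomputable section

open CategoryTheory groupCohomology ExtCitation Polynomial IsLocalRing Module

namespace Fermat.Agent.TW

open FlatTangent (cobCocycle OrdData SSData pairAct shiftEnd)

local notation "Γℚ" => (AlgebraicClosure ℚ ≃ₐ[ℚ] AlgebraicClosure ℚ)

variable {k : Type} [Field k] [Finite k]

/-- The flat local condition at `p`. -/
theorem exists_flat_local (p : ℕ) [Fact p.Prime] [CharP k p] (hp2 : p ≠ 2)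
    (ρbar : ResidualGaloisRep k)
    (hdet : (GaloisRepAdic.ofResidualGaloisRep ρbar).DetIsCyclotomic p)
    (hsplit : ∀ σ : Γℚ, ∃ a b : k, LinearMap.charpoly (ρbar.ρ σ) = (X - C a) * (X - C b))
    (hflat : (GaloisRepAdic.ofResidualGaloisRep ρbar).IsFlatAt p) :
    ∃ L : Submodule k (H1 (Rep.res (primeLocalToGlobal (pPrime p)) (ad0 ρbar))),
      L ≤ continuousH1 (primeLocalToGlobal (pPrime p)) (Rep.res (primeLocalToGlobal (pPrime p)) (ad0 ρbar)) ∧
      FiniteDimensional k L ∧
      finrank k L ≤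
        finrank k (Rep.res (primeLocalToGlobal (pPrime p)) (ad0 ρbar)).ρ.invariants + 1 ∧
      ∀ (c : cocycles₁ (ad0 ρbar)) (hc : IsLevelConstant₁ (MonoidHom.id Γℚ) c),
        (adLift ρbar c hc).DetIsCyclotomic p → (adLift ρbar c hc).IsFlatAt p →
        locPrime (pPrime p) (ad0 ρbar) ((H1π (ad0 ρbar)).hom c) ∈ L := by
  classical
  letI := Fintype.ofFinite k
  letI := ZMod.algebra k p
  haveI : Finite ρbar.V := Module.finite_of_finite k
  letI := Fintype.ofFinite ρbar.V
  obtain ⟨R⟩ := FlatTangent.exists_model_residual p ρbar hflat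
  have hshift : ∀ (c : cocycles₁ (ad0 ρbar)) (T : ad0 ρbar),
      cocycleEnd ρbar (c + cobCocycle ρbar T) = shiftEnd ρbar c T := fun c T =>
    funext (FlatTangent.cocycleEnd_add_cob c T)
  have hlev : ∀ (c : cocycles₁ (ad0 ρbar)), IsLevelConstant₁ (MonoidHom.id Γℚ) c →
      ∀ T, IsLevelConstant₁ (MonoidHom.id Γℚ) ⇑(c + cobCocycle ρbar T) := fun c hc T =>
    Submodule.add_mem (levelCocycles₁ (MonoidHom.id Γℚ) (ad0 ρbar)) hc
      (FlatTangent.isLevelConstant_cob T)
  rcases FlatTangent.residual_cases hp2 hdet hsplit R with ⟨⟨O⟩⟩ | ⟨⟨S⟩⟩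
  · obtain ⟨L, h1, h2, h3, h4⟩ := FlatTangent.exists_ordinary_local O hp2 R
    refine ⟨L, h1, h2, h3, fun c hc _ hf => ?_⟩
    obtain ⟨T, hT1, hT2⟩ := FlatTangent.exists_ord_normal hp2 O c hc hf
    refine h4 c T hc ⟨fun σ hσ => ?_, fun σ hσ => ?_⟩ ?_
    · obtain ⟨t, ht⟩ := Submodule.mem_span_singleton.1 (hT1 σ hσ)
      rw [hshift, ← ht, map_smul, O.coord_b, if_neg (by decide), smul_zero]
    · show O.b.coord 0 (cocycleEnd ρbar (c + cobCocycle ρbar T) σ (O.b 0)) = 0
      rw [hshift, (hT2 σ hσ).1, map_zero]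
    · rw [hshift]
      exact FlatTangent.exists_model_pair p ρbar c hc hf T
  · obtain ⟨L, h1, h2, h3, h4⟩ := S.exists_local hp2 R
    refine ⟨L, h1, h2, h3.trans (Nat.le_add_left 1 _), fun c hc _ hf => h4 c 0 ?_⟩
    obtain ⟨Rp⟩ := FlatTangent.exists_model_pair p ρbar c hc hf 0
    rw [← hshift] at Rp
    exact ⟨hlev c hc 0, fun i j s => S.lev_entry _ (hlev c hc 0) Rp i j s⟩

end Fermat.Agent.TW
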