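import Fermat.Agent.TW.SelmerBound
import Fermat.Agent.TW.FlatLocal
import Fermat.Prelude.Def_GaloisRep_Flat
import Fermat.Prelude.Def_GaloisRep_StrictOrdinary

/-!
# Taylor–Wiles primes for the strict ordinary and flat conditions
-/

set_option autoImplicit false

noncomputable section

open Polynomial IsLocalRing ExtCitation CategoryTheory groupCohomology

namespace Fermat.Agent.TW

local notation "Γℚ" => (AlgebraicClosure ℚ ≃ₐ[ℚ] AlgebraicClosure ℚ)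

variable {𝒪 : Type} [CommRing 𝒪] [IsDomain 𝒪] [IsDiscreteValuationRing 𝒪]
  [IsAdicComplete (maximalIdeal 𝒪) 𝒪] [Finite (ResidueField 𝒪)]
  (p : ℕ) [Fact p.Prime] (hp2 : p ≠ 2) (hp𝒪 : (p : 𝒪) ∈ maximalIdeal 𝒪)
  (ρbar : ResidualGaloisRep (ResidueField 𝒪))
  (habs : ρbar.IsAbsolutelyIrreducible)
  (hdet : (GaloisRepAdic.ofResidualGaloisRep ρbar).DetIsCyclotomic p)
  (hsplit : ∀ σ : Γℚ,
    ∃ α β : ResidueField 𝒪, LinearMap.charpoly (ρbar.ρ σ) = (X - C α) * (X - C β))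
  (hTW : ∀ (K : Type) [Field K] [Algebra (ResidueField 𝒪) K]
    (G : Subgroup Γℚ), G.index = 2 →
    ∀ V : Submodule K (ρbar.baseChange K).V,
      (∀ σ ∈ G, ∀ x ∈ V, (ρbar.baseChange K).ρ σ x ∈ V) → V = ⊥ ∨ V = ⊤)
  (S Smin : Finset ℕ) (hpSmin : p ∈ Smin) (hSmin : Smin ⊆ S)
  (hmin : ∀ q : ℕ, q.Prime → q ≠ p → (q ∈ Smin ↔ ¬ ρbar.IsUnramifiedAt q))

include hp2 hp𝒪 habs hdet hsplit hTW hpSmin hSmin hmin in
/-- The strict ordinary half. -/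
theorem exists_taylorWilesPrimes_strictOrdinary :
    ∃ r : ℕ, ∀ n : ℕ, ∃ qv : Fin r → ℕ, Function.Injective qv ∧
      (∀ i, (qv i).Prime ∧ qv i ∉ S ∧ p ^ (n + 1) ∣ qv i - 1) ∧
      (∀ i, ∀ P : ValuationSubring (AlgebraicClosure ℚ), P.LiesOverPrime (qv i) →
        ∀ φ : Γℚ, P.IsFrobeniusAt φ (qv i) →
          ∃ α β : ResidueField 𝒪, α ≠ β ∧ LinearMap.charpoly (ρbar.ρ φ) = (X - C α) * (X - C β)) ∧
      ∀ DQ : GaloisRep.DeformationRingData 𝒪 ρbar (fun _A _ _ _ ρ =>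
          GaloisRep.strictOrdinaryCondition 𝒪 p (Smin ∪ Finset.univ.image qv) ρ ∧
            ∀ q ∈ Smin, q.Prime → q ≠ p → ρ.IsUnipotentOnInertiaAt q),
        ∃ γ : MvPowerSeries (Fin r) 𝒪 →ₐ[𝒪] DQ.R, Function.Surjective γ :=
  exists_taylorWilesPrimes_surjective p hp2 hp𝒪 ρbar habs hdet hsplit hTW S Smin hpSmin hSmin hmin
    (fun _A _ _ ρ => ρ.IsStrictOrdinaryAt p)
    (fun φ hφ _ _ h => Tangent.isStrictOrdinaryAt_baseChangeAlong φ hφ h)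
    (fun h => Tangent.isStrictOrdinaryAt_of_isEquiv h)
    (fun hP => exists_strictOrdinary_local p hp2 ρbar hdet hP)

include hp2 hp𝒪 habs hdet hsplit hTW hpSmin hSmin hmin in
/-- The flat half. -/
theorem exists_taylorWilesPrimes_flat :
    ∃ r : ℕ, ∀ n : ℕ, ∃ qv : Fin r → ℕ, Function.Injective qv ∧
      (∀ i, (qv i).Prime ∧ qv i ∉ S ∧ p ^ (n + 1) ∣ qv i - 1) ∧
      (∀ i, ∀ P : ValuationSubring (AlgebraicClosure ℚ), P.LiesOverPrime (qv i) →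
        ∀ φ : Γℚ, P.IsFrobeniusAt φ (qv i) →
          ∃ α β : ResidueField 𝒪, α ≠ β ∧ LinearMap.charpoly (ρbar.ρ φ) = (X - C α) * (X - C β)) ∧
      ∀ DQ : GaloisRep.DeformationRingData 𝒪 ρbar (fun _A _ _ _ ρ =>
          GaloisRep.flatCondition 𝒪 p (Smin ∪ Finset.univ.image qv) ρ ∧
            ∀ q ∈ Smin, q.Prime → q ≠ p → ρ.IsUnipotentOnInertiaAt q),
        ∃ γ : MvPowerSeries (Fin r) 𝒪 →ₐ[𝒪] DQ.R, Function.Surjective γ :=
  exists_taylorWilesPrimes_surjective p hp2 hp𝒪 ρbar habs hdet hsplit hTW S Smin hpSmin hSmin hmin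
    (fun _A _ _ ρ => ρ.IsFlatAt p)
    (fun φ hφ _ hs h => Tangent.isFlatAt_baseChangeAlong φ hφ hs h)
    (fun h => Tangent.isFlatAt_of_isEquiv h)
    (fun hP => exists_flat_local p hp2 ρbar hdet hsplit hP)

end Fermat.Agent.TW
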