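import Fermat.Agent.TW.Ad
import Fermat.Agent.TWGroup.Span
import Fermat.Prelude.Def_GaloisRep_LocalConditions
import Mathlib.RingTheory.Polynomial.Cyclotomic.Roots
import Mathlib.RingTheory.TensorProduct.Free
import Mathlib.GroupTheory.Index

/-!
# Elements with the Taylor–Wiles properties

For a residual representation that stays absolutely irreducible on every subgroup of index at most
two, every nonzero class in `H¹(ad⁰(1))` is detected by an element fixing the `p ^ (n+1)`-th roots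
of unity with distinct eigenvalues.
-/

set_option autoImplicit false
set_option linter.unusedSectionVars false

noncomputable section

open CategoryTheory groupCohomology ExtCitation Polynomial Module
open scoped TensorProduct Matrix

namespace Fermat.Agent.TW

open Fermat.Agent.TWGroup

local notation "Γℚ" => (AlgebraicClosure ℚ ≃ₐ[ℚ] AlgebraicClosure ℚ)

section Fix

variable (N : ℕ)

/-- The automorphisms fixing all `N`-th roots of unity. -/
def rootsFixer : Subgroup Γℚ where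
  carrier := {σ | ∀ μ : AlgebraicClosure ℚ, μ ^ N = 1 → σ μ = μ}
  one_mem' μ _ := rfl
  mul_mem' {a b} ha hb μ hμ := by rw [AlgEquiv.mul_apply, hb μ hμ, ha μ hμ]
  inv_mem' {a} ha μ hμ := by
    apply a.injective
    rw [← AlgEquiv.mul_apply, mul_inv_cancel, AlgEquiv.one_apply, ha μ hμ]

theorem mem_rootsFixer {σ : Γℚ} :
    σ ∈ rootsFixer N ↔ ∀ μ : AlgebraicClosure ℚ, μ ^ N = 1 → σ μ = μ := Iff.rfl

instance rootsFixer_normal : (rootsFixer N).Normal where
  conj_mem a ha g μ hμ := by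
    have : a (g⁻¹ μ) = g⁻¹ μ := ha _ (by rw [← map_pow, hμ, map_one])
    rw [AlgEquiv.mul_apply, AlgEquiv.mul_apply, this, ← AlgEquiv.mul_apply, mul_inv_cancel,
      AlgEquiv.one_apply]

theorem commutator_mem_rootsFixer [NeZero N] (a b : Γℚ) :
    a * b * a⁻¹ * b⁻¹ ∈ rootsFixer N := by
  intro μ hμ
  obtain ⟨ζ, hζ⟩ := HasEnoughRootsOfUnity.exists_primitiveRoot (AlgebraicClosure ℚ) N
  obtain ⟨i, -, hi⟩ := hζ.eq_pow_of_pow_eq_one (show (a ζ) ^ N = 1 by
    rw [← map_pow, hζ.pow_eq_one, map_one])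
  obtain ⟨j, -, hj⟩ := hζ.eq_pow_of_pow_eq_one (show (b ζ) ^ N = 1 by
    rw [← map_pow, hζ.pow_eq_one, map_one])
  have hcomm : ∀ ν : AlgebraicClosure ℚ, ν ^ N = 1 → a (b ν) = b (a ν) := fun ν hν => by
    obtain ⟨m, -, rfl⟩ := hζ.eq_pow_of_pow_eq_one hν
    simp only [map_pow, ← hi, ← hj, ← pow_mul]
    ring_nf
  simp only [AlgEquiv.mul_apply]
  rw [hcomm _ (by rw [← map_pow, ← map_pow, hμ, map_one, map_one]), ← AlgEquiv.mul_apply a,
    mul_inv_cancel, AlgEquiv.one_apply, ← AlgEquiv.mul_apply b, mul_inv_cancel, AlgEquiv.one_apply]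

end Fix

variable {k : Type} [Field k] [Finite k] (p : ℕ) [Fact p.Prime] [CharP k p]

theorem det_eq_natCast (ρbar : ResidualGaloisRep k)
    (hdet : (GaloisRepAdic.ofResidualGaloisRep ρbar).DetIsCyclotomic p) (σ : Γℚ) (a : ℕ)
    (h : ∀ μ : AlgebraicClosure ℚ, μ ^ p = 1 → σ μ = μ ^ a) :
    LinearMap.det (ρbar.ρ σ) = (a : k) := by
  have := hdet.2 1 σ a (by simpa using h)
  rw [pow_one, CharP.cast_eq_zero, Ideal.span_singleton_eq_bot.2 rfl, Ideal.mem_bot,
    sub_eq_zero] at this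
  exact this

theorem det_eq_cycloK (ρbar : ResidualGaloisRep k)
    (hdet : (GaloisRepAdic.ofResidualGaloisRep ρbar).DetIsCyclotomic p) (σ : Γℚ) :
    LinearMap.det (ρbar.ρ σ) = (cycloK (k := k) p σ : k) := by
  haveI : NeZero p := ⟨(Fact.out : p.Prime).ne_zero⟩
  have hσ : ∀ μ : AlgebraicClosure ℚ, μ ^ p = 1 → σ μ = μ ^ cycloExp p σ := by
    intro μ hμ
    have hμ' : rootsOfUnity.mkOfPowEq μ hμ ∈ (⊤ : Subgroup (rootsOfUnity p (AlgebraicClosure ℚ))) :=
      Subgroup.mem_top _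
    have := modularCyclotomicCharacter.spec (AlgebraicClosure ℚ) (card_rootsOfUnity_eq_self p)
      (σ : AlgebraicClosure ℚ ≃+* AlgebraicClosure ℚ)
      (t := (rootsOfUnity.mkOfPowEq μ hμ).1) (rootsOfUnity.mkOfPowEq μ hμ).2
    simpa [cycloExp] using this
  rw [det_eq_natCast p ρbar hdet σ _ hσ]
  have := congrArg (ZMod.castHom (dvd_refl p) k) (coe_cycloChar p σ)
  simpa [cycloK] using this.symm

theorem exists_det_not_sq (ρbar : ResidualGaloisRep k)
    (hdet : (GaloisRepAdic.ofResidualGaloisRep ρbar).DetIsCyclotomic p) :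
    p = 5 → ∃ g : Γℚ, ∀ e : ℕ, LinearMap.det (ρbar.ρ g) ≠ (e : k) ^ 2 := by
  intro h5
  subst h5
  obtain ⟨ζ, hζ⟩ := HasEnoughRootsOfUnity.exists_primitiveRoot (AlgebraicClosure ℚ) 5
  have hζ2 : IsPrimitiveRoot (ζ ^ 2) 5 := hζ.pow_of_coprime 2 (by norm_num)
  have hmin : minpoly ℚ ζ = minpoly ℚ (ζ ^ 2) := by
    rw [← cyclotomic_eq_minpoly_rat hζ (by norm_num),
      ← cyclotomic_eq_minpoly_rat hζ2 (by norm_num)]
  haveI : Algebra.IsAlgebraic ℚ (AlgebraicClosure ℚ) := AlgebraicClosure.isAlgebraic ℚ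
  haveI : IsAlgClosure ℚ (AlgebraicClosure ℚ) := ⟨inferInstance, inferInstance⟩
  haveI : Normal ℚ (AlgebraicClosure ℚ) := IsAlgClosure.normal ℚ (AlgebraicClosure ℚ)
  obtain ⟨g, hg⟩ := minpoly.exists_algEquiv_of_root'
    (L := AlgebraicClosure ℚ) (Algebra.IsAlgebraic.isAlgebraic ζ)
    (show Polynomial.aeval (ζ ^ 2) (minpoly ℚ ζ) = 0 by rw [hmin]; exact minpoly.aeval _ _)
  refine ⟨g, fun e he => ?_⟩
  have hg' : g ζ = ζ ^ 2 ∨ g (ζ ^ 2) = ζ := by first | exact Or.inl hg | exact Or.inr hg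
  rcases hg' with hg' | hg'
  · have hd := det_eq_natCast 5 ρbar hdet g 2 fun μ hμ => by
      obtain ⟨m, -, rfl⟩ := hζ.eq_pow_of_pow_eq_one hμ
      rw [map_pow, hg', ← pow_mul, ← pow_mul, mul_comm]
    rw [he] at hd
    have h' : ((e ^ 2 : ℕ) : k) = ((2 : ℕ) : k) := by push_cast; exact_mod_cast hd
    rw [CharP.natCast_eq_natCast k 5] at h'
    have h'' : (e % 5) ^ 2 % 5 = 2 := by rw [← Nat.pow_mod]; exact h'
    have := Nat.mod_lt e (show 5 > 0 by norm_num)
    interval_cases (e % 5) <;> simp at h''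
  · have hg'' : g ζ = ζ ^ 3 := by
      have h6 : (ζ ^ 2) ^ 3 = ζ := by
        rw [← pow_mul, show 2 * 3 = 5 + 1 from rfl, pow_add, hζ.pow_eq_one, one_mul, pow_one]
      calc g ζ = g ((ζ ^ 2) ^ 3) := by rw [h6]
        _ = ζ ^ 3 := by rw [map_pow, hg']
    have hd := det_eq_natCast 5 ρbar hdet g 3 fun μ hμ => by
      obtain ⟨m, -, rfl⟩ := hζ.eq_pow_of_pow_eq_one hμ
      rw [map_pow, hg'', ← pow_mul, ← pow_mul, mul_comm]
    rw [he] at hd
    have h' : ((e ^ 2 : ℕ) : k) = ((3 : ℕ) : k) := by push_cast; exact_mod_cast hd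
    rw [CharP.natCast_eq_natCast k 5] at h'
    have h'' : (e % 5) ^ 2 % 5 = 3 := by rw [← Nat.pow_mod]; exact h'
    have := Nat.mod_lt e (show 5 > 0 by norm_num)
    interval_cases (e % 5) <;> simp at h''

variable (ρbar : ResidualGaloisRep k)

/-- A basis of the residual space. -/
def resBasis : Module.Basis (Fin 2) k ρbar.V :=
  Module.finBasisOfFinrankEq k ρbar.V ρbar.finrank_eq

/-- The matrix form of a residual representation. -/
def resMatrix : Γℚ →* Matrix (Fin 2) (Fin 2) k :=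
  (LinearMap.toMatrixAlgEquiv (resBasis ρbar) :
    Module.End k ρbar.V ≃ₐ[k] _).toAlgHom.toRingHom.toMonoidHom.comp ρbar.ρ

theorem resMatrix_apply (σ : Γℚ) :
    resMatrix ρbar σ = LinearMap.toMatrix (resBasis ρbar) (resBasis ρbar) (ρbar.ρ σ) := rfl

theorem det_resMatrix (σ : Γℚ) :
    Matrix.det (resMatrix ρbar σ) = LinearMap.det (ρbar.ρ σ) := by
  rw [resMatrix_apply, LinearMap.det_toMatrix]

theorem det_resMatrix_rootsFixer
    (hdet : (GaloisRepAdic.ofResidualGaloisRep ρbar).DetIsCyclotomic p) (n : ℕ) :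
    ∀ σ ∈ rootsFixer (p ^ (n + 1)), Matrix.det (resMatrix ρbar σ) = 1 := by
  intro σ hσ
  rw [det_resMatrix, det_eq_natCast p ρbar hdet σ 1 fun μ hμ => ?_, Nat.cast_one]
  rw [pow_one]
  exact hσ μ (by rw [pow_succ', pow_mul, hμ, one_pow])

theorem exists_not_fixesLine
    (habs : ρbar.IsAbsolutelyIrreducible)
    (hTW : ∀ (K : Type) [Field K] [Algebra k K] (G : Subgroup Γℚ), G.index = 2 →
      ∀ V : Submodule K (ρbar.baseChange K).V,
        (∀ σ ∈ G, ∀ x ∈ V, (ρbar.baseChange K).ρ σ x ∈ V) → V = ⊥ ∨ V = ⊤)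
    (v : Fin 2 → AlgebraicClosure k) (hv : v ≠ 0) :
    let R := ((algebraMap k (AlgebraicClosure k)).mapMatrix :
      Matrix (Fin 2) (Fin 2) k →+* _).toMonoidHom.comp (resMatrix ρbar)
    ∃ a b : Γℚ, ¬FixesLine (R a) v ∧ ¬FixesLine (R b) v ∧ ¬FixesLine (R (a * b)) v := by
  intro R
  by_contra hcon
  push Not at hcon
  -- the stabiliser of the line
  let St : Subgroup Γℚ :=
    { carrier := {σ | FixesLine (R σ) v}
      one_mem' := ⟨1, by rw [map_one, Matrix.one_mulVec, one_smul]⟩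
      mul_mem' := by
        rintro a b ⟨x, hx⟩ ⟨y, hy⟩
        exact ⟨y * x, by
          rw [map_mul, ← Matrix.mulVec_mulVec, hy, Matrix.mulVec_smul, hx, smul_smul]⟩
      inv_mem' := by
        rintro a ⟨x, hx⟩
        refine ⟨x⁻¹, mulVec_injective R a ?_⟩
        have hx0 : x ≠ 0 := fun h0 => mulVec_ne_zero R a hv (by rw [hx, h0, zero_smul])
        show R a *ᵥ (R a⁻¹ *ᵥ v) = R a *ᵥ (x⁻¹ • v)
        rw [Matrix.mulVec_mulVec, ← map_mul, mul_inv_cancel, map_one, Matrix.one_mulVec,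
          Matrix.mulVec_smul, hx, smul_smul, inv_mul_cancel₀ hx0, one_smul] }
  set b' := Algebra.TensorProduct.basis (AlgebraicClosure k) (resBasis ρbar)
  set w := b'.equivFun.symm v with hw
  have hw0 : w ≠ 0 := fun h0 => hv (b'.equivFun.symm.injective (by rw [← hw, h0, map_zero]))
  have hstab : ∀ σ ∈ St, ∀ x ∈ Submodule.span (AlgebraicClosure k) {w},
      (ρbar.baseChange (AlgebraicClosure k)).ρ σ x ∈ Submodule.span (AlgebraicClosure k) {w} := by
    rintro σ ⟨c, hc⟩ x hx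
    obtain ⟨r, rfl⟩ := Submodule.mem_span_singleton.1 hx
    rw [map_smul]
    refine Submodule.smul_mem _ _ (Submodule.mem_span_singleton.2 ⟨c, ?_⟩)
    apply b'.equivFun.injective
    rw [map_smul]
    simp only [w, LinearEquiv.apply_symm_apply, Module.Basis.equivFun_apply]
    have hm := LinearMap.toMatrix_mulVec_repr b' b' ((ρbar.ρ σ).baseChange (AlgebraicClosure k)) w
    rw [LinearMap.toMatrix_baseChange] at hm
    change c • v = b'.repr ((ρbar.ρ σ).baseChange (AlgebraicClosure k) w)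
    rw [← hm, ← Module.Basis.equivFun_apply, hw, LinearEquiv.apply_symm_apply]
    exact hc.symm
  have hbot : Submodule.span (AlgebraicClosure k) {w} ≠ ⊥ := fun h => hw0 (Submodule.span_singleton_eq_bot.1 h)
  have htop : Submodule.span (AlgebraicClosure k) {w} ≠ ⊤ := fun h => by
    have := finrank_span_singleton (K := AlgebraicClosure k) hw0
    rw [h, finrank_top, (ρbar.baseChange (AlgebraicClosure k)).finrank_eq] at this
    norm_num at this
  by_cases hSt : ∃ g, g ∉ St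
  · obtain ⟨a, ha⟩ := hSt
    have hidx : St.index = 2 := Subgroup.index_eq_two_iff.2 ⟨a, fun b => by
      by_cases hb : b ∈ St
      · exact Or.inr ⟨hb, fun hba => ha ((Subgroup.mul_mem_cancel_left St hb).1 hba)⟩
      · exact Or.inl ⟨hcon b a hb ha, hb⟩⟩
    exact (hTW (AlgebraicClosure k) St hidx _ hstab).elim hbot htop
  · exact (habs (Submodule.span (AlgebraicClosure k) {w})
      (fun σ => hstab σ (by_contra fun h => hSt ⟨σ, h⟩))).elim hbot htop

theorem traceSpans_resMatrix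
    (habs : ρbar.IsAbsolutelyIrreducible)
    (hdet : (GaloisRepAdic.ofResidualGaloisRep ρbar).DetIsCyclotomic p)
    (hTW : ∀ (K : Type) [Field K] [Algebra k K] (G : Subgroup Γℚ), G.index = 2 →
      ∀ V : Submodule K (ρbar.baseChange K).V,
        (∀ σ ∈ G, ∀ x ∈ V, (ρbar.baseChange K).ρ σ x ∈ V) → V = ⊥ ∨ V = ⊤)
    (n : ℕ) : TraceSpans (resMatrix ρbar) (rootsFixer (p ^ (n + 1))) := by
  haveI : NeZero (p ^ (n + 1)) := ⟨pow_ne_zero _ (Fact.out : p.Prime).ne_zero⟩
  refine TraceSpans.of_map (algebraMap k (AlgebraicClosure k))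
    (traceSpans_of_isAlgClosed (commutator_mem_rootsFixer _) ?_
      (fun v hv => exists_not_fixesLine ρbar habs hTW v hv))
  intro σ hσ
  rw [show (((algebraMap k (AlgebraicClosure k)).mapMatrix :
      Matrix (Fin 2) (Fin 2) k →+* _).toMonoidHom.comp (resMatrix ρbar)) σ =
    (algebraMap k (AlgebraicClosure k)).mapMatrix (resMatrix ρbar σ) from rfl,
    ← RingHom.map_det, det_resMatrix_rootsFixer p ρbar hdet n σ hσ, map_one]

theorem exists_distinct_roots {σ : Γℚ}
    (hsplit : ∃ α β : k, LinearMap.charpoly (ρbar.ρ σ) = (X - C α) * (X - C β))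
    (hdet : Matrix.det (resMatrix ρbar σ) = 1)
    (h2 : Matrix.trace (resMatrix ρbar σ) ≠ 2) (hm2 : Matrix.trace (resMatrix ρbar σ) ≠ -2) :
    ∃ α β : k, α ≠ β ∧ LinearMap.charpoly (ρbar.ρ σ) = (X - C α) * (X - C β) := by
  obtain ⟨α, β, h⟩ := hsplit
  refine ⟨α, β, ?_, h⟩
  rintro rfl
  rw [← LinearMap.charpoly_toMatrix (ρbar.ρ σ) (resBasis ρbar), ← resMatrix_apply,
    Matrix.charpoly_fin_two, hdet] at h
  have h0 := congrArg (Polynomial.eval 0) h
  have h1 := congrArg (Polynomial.eval 1) h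
  simp at h0 h1
  rcases (sq_eq_one_iff.1 (show α ^ 2 = 1 by linear_combination -h0)) with rfl | rfl
  · exact h2 (by linear_combination -h1)
  · exact hm2 (by linear_combination -h1)

/-- An element detecting a given class of `ad⁰(1)` with the Taylor–Wiles properties. -/
theorem exists_detecting_element (p : ℕ) [Fact p.Prime] [CharP k p] (hp2 : p ≠ 2)
    (ρbar : ResidualGaloisRep k)
    (habs : ρbar.IsAbsolutelyIrreducible)
    (hdet : (GaloisRepAdic.ofResidualGaloisRep ρbar).DetIsCyclotomic p)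
    (hsplit : ∀ σ : Γℚ, ∃ α β : k, LinearMap.charpoly (ρbar.ρ σ) = (X - C α) * (X - C β))
    (hTW : ∀ (K : Type) [Field K] [Algebra k K] (G : Subgroup Γℚ), G.index = 2 →
      ∀ V : Submodule K (ρbar.baseChange K).V,
        (∀ σ ∈ G, ∀ x ∈ V, (ρbar.baseChange K).ρ σ x ∈ V) → V = ⊥ ∨ V = ⊤)
    (c : cocycles₁ (ad0Tw ρbar p)) (_hc : IsLevelConstant₁ (MonoidHom.id Γℚ) c)
    (hne : (H1π (ad0Tw ρbar p)).hom c ≠ 0) (n : ℕ) :
    ∃ σ : Γℚ, (∀ μ : AlgebraicClosure ℚ, μ ^ p ^ (n + 1) = 1 → σ μ = μ) ∧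
      (∃ α β : k, α ≠ β ∧ LinearMap.charpoly (ρbar.ρ σ) = (X - C α) * (X - C β)) ∧
      ∀ m : ad0Tw ρbar p, c σ ≠ (ad0Tw ρbar p).ρ σ m - m := by
  set b := resBasis ρbar
  set e : Module.End k ρbar.V ≃ₐ[k] Matrix (Fin 2) (Fin 2) k := LinearMap.toMatrixAlgEquiv b
  set R := resMatrix ρbar
  have hRe : ∀ σ, R σ = e (ρbar.ρ σ) := fun _ => rfl
  have hval : ∀ (σ : Γℚ) (m : ad0Tw ρbar p),
      e (((ad0Tw ρbar p).ρ σ m : adZeroSpace ρbar) : Module.End k ρbar.V) =
        twAct (R σ) (e ((m : adZeroSpace ρbar) : Module.End k ρbar.V)) := by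
    intro σ m
    have hinv : (R σ).adjugate = Matrix.det (R σ) • R σ⁻¹ := by
      calc (R σ).adjugate = (R σ).adjugate * (R σ * R σ⁻¹) := by
            rw [← map_mul, mul_inv_cancel, map_one, mul_one]
        _ = Matrix.det (R σ) • R σ⁻¹ := by
            rw [← mul_assoc, Matrix.adjugate_mul, smul_mul_assoc, one_mul]
    rw [twAct, hinv, mul_smul_comm, det_resMatrix, det_eq_cycloK p ρbar hdet]
    show e ((cycloK (k := k) p σ : k) •
      (((ad0 ρbar).ρ σ m : adZeroSpace ρbar) : Module.End k ρbar.V)) = _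
    rw [map_smul, Fermat.Agent.TW.ad0_rho_coe, map_mul, map_mul, ← hRe, ← hRe, mul_assoc]
  let cM : Γℚ → Matrix (Fin 2) (Fin 2) k := fun σ =>
    e ((c σ : adZeroSpace ρbar) : Module.End k ρbar.V)
  have htr : ∀ σ, Matrix.trace (cM σ) = 0 := fun σ => by
    show Matrix.trace (LinearMap.toMatrix b b ((c σ : adZeroSpace ρbar) : Module.End k ρbar.V)) = 0
    rw [← LinearMap.trace_eq_matrix_trace]
    exact LinearMap.mem_ker.1 (c σ : adZeroSpace ρbar).2
  have hcoc : IsTWCocycle R cM := fun g h => by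
    show e ((c (g * h) : adZeroSpace ρbar) : Module.End k ρbar.V) = _
    have hh : c (g * h) = (ad0Tw ρbar p).ρ g (c h) + c g :=
      (mem_cocycles₁_iff c.1).1 c.2 g h
    rw [hh]
    show e ((((ad0Tw ρbar p).ρ g (c h) : adZeroSpace ρbar) : Module.End k ρbar.V) +
      ((c g : adZeroSpace ρbar) : Module.End k ρbar.V)) = _
    rw [map_add, hval, add_comm]
  by_contra hcon
  push Not at hcon
  refine hne ?_
  obtain ⟨T, hT0, hT⟩ := exists_trace_zero_eq_twAct_sub hcoc htr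
    (det_resMatrix_rootsFixer p ρbar hdet n) p hp2 (traceSpans_resMatrix p ρbar habs hdet hTW n)
    (fun h5 => by simpa only [det_resMatrix, R] using exists_det_not_sq p ρbar hdet h5)
    (fun σ hσ h2 hm2 => by
      obtain ⟨m, hm⟩ := hcon σ hσ
        (exists_distinct_roots ρbar (hsplit σ) (det_resMatrix_rootsFixer p ρbar hdet n σ hσ) h2 hm2)
      have hcm : cM σ = twAct (R σ) (e ((m : adZeroSpace ρbar) : Module.End k ρbar.V))
          - e ((m : adZeroSpace ρbar) : Module.End k ρbar.V) := by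
        rw [← hval]
        show e _ = _
        rw [hm]
        exact map_sub e _ _
      have hd := det_resMatrix_rootsFixer p ρbar hdet n σ hσ
      rw [traceDeriv, hcm, sub_mul, Matrix.trace_sub, twAct, mul_assoc _ _ (R σ),
        Matrix.adjugate_mul, hd, one_smul, mul_one, Matrix.trace_mul_comm, sub_self])
  have hm : e.symm T ∈ adZeroSpace ρbar := by
    rw [LinearMap.mem_ker, LinearMap.trace_eq_matrix_trace k b,
      show LinearMap.toMatrix b b (e.symm T) = T from e.apply_symm_apply T, hT0]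
  rw [H1π_eq_zero_iff]
  refine ⟨(⟨e.symm T, hm⟩ : adZeroSpace ρbar), funext fun g => ?_⟩
  rw [d₀₁_hom_apply]
  apply Subtype.ext
  apply e.injective
  show e ((((ad0Tw ρbar p).ρ g (⟨e.symm T, hm⟩ : adZeroSpace ρbar) : adZeroSpace ρbar)
    : Module.End k ρbar.V) - e.symm T) = cM g
  rw [map_sub, hval, hT g]
  simp

/-- An element with the Taylor–Wiles properties (no class to detect). -/
theorem exists_taylorWiles_element (p : ℕ) [Fact p.Prime] [CharP k p] (hp2 : p ≠ 2)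
    (ρbar : ResidualGaloisRep k)
    (habs : ρbar.IsAbsolutelyIrreducible)
    (hdet : (GaloisRepAdic.ofResidualGaloisRep ρbar).DetIsCyclotomic p)
    (hsplit : ∀ σ : Γℚ, ∃ α β : k, LinearMap.charpoly (ρbar.ρ σ) = (X - C α) * (X - C β))
    (hTW : ∀ (K : Type) [Field K] [Algebra k K] (G : Subgroup Γℚ), G.index = 2 →
      ∀ V : Submodule K (ρbar.baseChange K).V,
        (∀ σ ∈ G, ∀ x ∈ V, (ρbar.baseChange K).ρ σ x ∈ V) → V = ⊥ ∨ V = ⊤)
    (n : ℕ) :
    ∃ σ : Γℚ, (∀ μ : AlgebraicClosure ℚ, μ ^ p ^ (n + 1) = 1 → σ μ = μ) ∧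
      ∃ α β : k, α ≠ β ∧ LinearMap.charpoly (ρbar.ρ σ) = (X - C α) * (X - C β) := by
  obtain ⟨σ, hσ, h2, hm2⟩ := exists_trace_ne p hp2
    (traceSpans_resMatrix p ρbar habs hdet hTW n) (det_resMatrix_rootsFixer p ρbar hdet n)
  exact ⟨σ, hσ,
    exists_distinct_roots ρbar (hsplit σ) (det_resMatrix_rootsFixer p ρbar hdet n σ hσ) h2 hm2⟩

end Fermat.Agent.TW
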