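import Fermat.Agent.TW.Transfer
import Fermat.Agent.TW.GroupTheory
import Fermat.Agent.Density.Qbar
import Fermat.Agent.Galois.Cyclotomic
import Fermat.Agent.Galois.PadicPlace

/-!
# Choosing Taylor–Wiles primes that kill a space of classes of `ad⁰(1)`

The elements supplied by `GroupTheory` are replaced by Frobenius elements using Frobenius's density
theorem, and primes are chosen one at a time until a given finite-dimensional space of classes
injects into the sum of its localisations.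
-/

set_option autoImplicit false
set_option linter.style.haveILetI false

noncomputable section

open CategoryTheory groupCohomology ExtCitation Polynomial Module
open scoped Pointwise

namespace Fermat.Agent.TW.Killing

local notation "Γℚ" => (AlgebraicClosure ℚ ≃ₐ[ℚ] AlgebraicClosure ℚ)

local instance instNormalQbar : Normal ℚ (AlgebraicClosure ℚ) :=
  haveI : Algebra.IsAlgebraic ℚ (AlgebraicClosure ℚ) := AlgebraicClosure.isAlgebraic ℚ
  haveI : IsAlgClosure ℚ (AlgebraicClosure ℚ) := ⟨inferInstance, inferInstance⟩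
  IsAlgClosure.normal ℚ (AlgebraicClosure ℚ)

/-- An intermediate field containing the `m`-th roots of unity, finite over `ℚ`. -/
def rootsField (m : ℕ) : IntermediateField ℚ (AlgebraicClosure ℚ) :=
  IntermediateField.adjoin ℚ {x : AlgebraicClosure ℚ | x ^ m = 1}

theorem finiteDimensional_rootsField (m : ℕ) [NeZero m] : FiniteDimensional ℚ (rootsField m) := by
  haveI : Algebra.IsAlgebraic ℚ (AlgebraicClosure ℚ) := AlgebraicClosure.isAlgebraic ℚ
  have hfin : {x : AlgebraicClosure ℚ | x ^ m = 1}.Finite :=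
    (Polynomial.nthRoots m (1 : AlgebraicClosure ℚ)).toFinset.finite_toSet.subset fun x hx => by
      have hx' : x ^ m = 1 := hx
      simp [Polynomial.mem_nthRoots (NeZero.pos m), hx']
  haveI := hfin.to_subtype
  exact IntermediateField.finiteDimensional_adjoin fun x _ =>
    Algebra.IsIntegral.isIntegral x

theorem apply_mem_rootsField {m : ℕ} {μ : AlgebraicClosure ℚ} (h : μ ^ m = 1) :
    μ ∈ rootsField m :=
  IntermediateField.subset_adjoin ℚ _ h

/-- Powers and restrictions: equal generated groups give mutual powers. -/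
theorem exists_zpow_eqOn {F : IntermediateField ℚ (AlgebraicClosure ℚ)} [Normal ℚ F]
    {a b : Γℚ} (h : Subgroup.zpowers (a.restrictNormal F) = Subgroup.zpowers (b.restrictNormal F)) :
    ∃ i : ℤ, ∀ x ∈ F, (b ^ i) x = a x := by
  have hm : a.restrictNormal F ∈ Subgroup.zpowers (b.restrictNormal F) :=
    h ▸ Subgroup.mem_zpowers _
  obtain ⟨i, hi⟩ := Subgroup.mem_zpowers_iff.1 hm
  refine ⟨i, fun x hx => ?_⟩
  have h2 : (b ^ i).restrictNormal F = a.restrictNormal F := by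
    rw [← hi]
    exact map_zpow (AlgEquiv.restrictNormalHom (F := ℚ) (K₁ := AlgebraicClosure ℚ) F) b i
  have h3 := AlgEquiv.restrictNormal_commutes (b ^ i) F ⟨x, hx⟩
  have h4 := AlgEquiv.restrictNormal_commutes a F ⟨x, hx⟩
  rw [h2] at h3
  exact h3.symm.trans h4

theorem inv_mul_mem_fixingSubgroup {F : IntermediateField ℚ (AlgebraicClosure ℚ)} {a b : Γℚ}
    (h : ∀ x ∈ F, a x = b x) : a⁻¹ * b ∈ F.fixingSubgroup := by
  refine (IntermediateField.mem_fixingSubgroup_iff _ _).2 fun x hx => ?_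
  rw [AlgEquiv.mul_apply, ← h x hx]
  exact a.symm_apply_apply x

section Eigen

variable {k V : Type} [Field k] [AddCommGroup V] [Module k V] [FiniteDimensional k V]

omit [FiniteDimensional k V] in
/-- An element with a repeated eigenvalue has no power with two distinct eigenvalues. -/
theorem eq_of_sq_zero_of_eigen (f : Module.End k V) (a γ : k) (i : ℕ) (v : V) (hv : v ≠ 0)
    (hf : (f - a • 1) * (f - a • 1) = 0) (hγ : (f ^ i) v = γ • v) : γ = a ^ i := by
  obtain ⟨g, hg⟩ : ∃ g : Module.End k V, f ^ i - (a ^ i) • 1 = g * (f - a • 1) := by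
    have hc : Commute f (a • (1 : Module.End k V)) :=
      (Commute.one_right f).smul_right a
    refine ⟨∑ j ∈ Finset.range i, f ^ j * (a • (1 : Module.End k V)) ^ (i - 1 - j), ?_⟩
    rw [hc.geom_sum₂_mul, _root_.smul_pow, one_pow]
  have h2 : (f ^ i - (a ^ i) • 1) v = (γ - a ^ i) • v := by
    rw [LinearMap.sub_apply, hγ, LinearMap.smul_apply, Module.End.one_apply, sub_smul]
  have hc2 : Commute (f - a • 1) (f ^ i - (a ^ i) • 1) := by
    have h1 : Commute f (f ^ i - (a ^ i) • 1) :=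
      (Commute.self_pow f i).sub_right ((Commute.one_right f).smul_right _)
    exact h1.sub_left (((Commute.one_left _)).smul_left a)
  have hsq : (f ^ i - (a ^ i) • 1) * (f ^ i - (a ^ i) • 1) = 0 := by
    calc (f ^ i - (a ^ i) • 1) * (f ^ i - (a ^ i) • 1)
        = g * ((f - a • 1) * (f ^ i - (a ^ i) • 1)) := by rw [← mul_assoc, ← hg]
      _ = g * ((f ^ i - (a ^ i) • 1) * (f - a • 1)) := by rw [hc2.eq]
      _ = g * (g * ((f - a • 1) * (f - a • 1))) := by rw [hg, mul_assoc]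
      _ = 0 := by rw [hf, mul_zero, mul_zero]
  have h3 : ((γ - a ^ i) * (γ - a ^ i)) • v = 0 := by
    have := LinearMap.congr_fun hsq v
    rw [Module.End.mul_apply, h2, map_smul, h2, smul_smul, LinearMap.zero_apply] at this
    exact this
  exact sub_eq_zero.1 (mul_self_eq_zero.1 ((smul_eq_zero.1 h3).resolve_right hv))

/-- If some power of `f` has distinct eigenvalues, so has `f`. -/
theorem ne_of_pow_distinct (f : Module.End k V) {α β α' β' : k} (i : ℕ)
    (hf : LinearMap.charpoly f = (X - C α) * (X - C β))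
    (hfi : LinearMap.charpoly (f ^ i) = (X - C α') * (X - C β')) (hne : α' ≠ β') : α ≠ β := by
  rintro rfl
  have hN : (f - α • 1) * (f - α • 1) = 0 := by
    have := LinearMap.aeval_self_charpoly f
    rw [hf, map_mul, map_sub, aeval_X, aeval_C, Algebra.algebraMap_eq_smul_one] at this
    exact this
  have key : ∀ γ, (LinearMap.charpoly (f ^ i)).IsRoot γ → γ = α ^ i := fun γ hγ => by
    obtain ⟨v, hv⟩ :=
      ((Module.End.hasEigenvalue_iff_isRoot_charpoly _ γ).2 hγ).exists_hasEigenvector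
    exact eq_of_sq_zero_of_eigen f α γ i v hv.2 hN hv.apply_eq_smul
  exact hne ((key α' (by simp [hfi])).trans (key β' (by simp [hfi])).symm)

end Eigen

variable {k : Type} [Field k] (ρbar : ResidualGaloisRep k)

theorem charpoly_conj_rho (g φ : Γℚ) :
    LinearMap.charpoly (ρbar.ρ (g * φ * g⁻¹)) = LinearMap.charpoly (ρbar.ρ φ) := by
  let e : ρbar.V ≃ₗ[k] ρbar.V := LinearEquiv.ofLinear (ρbar.ρ g) (ρbar.ρ g⁻¹)
    (by rw [← Module.End.mul_eq_comp, ← map_mul, mul_inv_cancel, map_one]; rfl)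
    (by rw [← Module.End.mul_eq_comp, ← map_mul, inv_mul_cancel, map_one]; rfl)
  have h : e.conj (ρbar.ρ φ) = ρbar.ρ (g * φ * g⁻¹) := by
    rw [map_mul, map_mul]
    rfl
  rw [← h, LinearEquiv.charpoly_conj]

/-- All Frobenius elements at an unramified prime have the same characteristic polynomial. -/
theorem charpoly_frobenius_eq (q : ℕ) (hq : q.Prime) (hur : ρbar.IsUnramifiedAt q)
    (A P : ValuationSubring (AlgebraicClosure ℚ)) (hA : A.LiesOverPrime q)
    (hP : P.LiesOverPrime q) (φ ψ : Γℚ) (hφ : A.IsFrobeniusAt φ q) (hψ : P.IsFrobeniusAt ψ q) :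
    LinearMap.charpoly (ρbar.ρ ψ) = LinearMap.charpoly (ρbar.ρ φ) := by
  obtain ⟨g, hg⟩ := Galois.exists_smul_eq hA hP hq
  have h1 : P.IsFrobeniusAt (g * φ * g⁻¹) q := hg ▸ Galois.isFrobeniusAt_conj hφ g
  have h2 := hur P hP _ (Galois.isFrobeniusAt_inv_mul_mem_inertia h1 hψ)
  have h3 : ρbar.ρ ψ = ρbar.ρ (g * φ * g⁻¹) := by
    calc ρbar.ρ ψ = ρbar.ρ ((g * φ * g⁻¹) * ((g * φ * g⁻¹)⁻¹ * ψ)) := by rw [mul_inv_cancel_left]
      _ = ρbar.ρ (g * φ * g⁻¹) := by rw [map_mul, h2, mul_one]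
  rw [h3, charpoly_conj_rho]

variable [Finite k] (p : ℕ) [Fact p.Prime] [CharP k p]

/-- The working hypotheses on `ρbar`. -/
structure Hyp : Prop where
  ne_two : p ≠ 2
  absIrr : ρbar.IsAbsolutelyIrreducible
  det : (GaloisRepAdic.ofResidualGaloisRep ρbar).DetIsCyclotomic p
  split : ∀ σ : Γℚ, ∃ α β : k, LinearMap.charpoly (ρbar.ρ σ) = (X - C α) * (X - C β)
  tw : ∀ (K : Type) [Field K] [Algebra k K] (G : Subgroup Γℚ), G.index = 2 →
      ∀ V : Submodule K (ρbar.baseChange K).V,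
        (∀ σ ∈ G, ∀ x ∈ V, (ρbar.baseChange K).ρ σ x ∈ V) → V = ⊥ ∨ V = ⊤

/-- The properties required of one auxiliary prime. -/
def IsGoodPrime (n : ℕ) (B : Finset ℕ) (q : ℕ) : Prop :=
  q.Prime ∧ q ∉ B ∧ p ^ (n + 1) ∣ q - 1 ∧
    ∀ P : ValuationSubring (AlgebraicClosure ℚ), P.LiesOverPrime q →
      ∀ φ : Γℚ, P.IsFrobeniusAt φ q →
        ∃ α β : k, α ≠ β ∧ LinearMap.charpoly (ρbar.ρ φ) = (X - C α) * (X - C β)

theorem rho_eq_of_fix {L : IntermediateField ℚ (AlgebraicClosure ℚ)}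
    (hρL : ∀ σ : Γℚ, (∀ x ∈ L, σ x = x) → ρbar.ρ σ = 1) {a b : Γℚ} (h : ∀ x ∈ L, a x = b x) :
    ρbar.ρ a = ρbar.ρ b := by
  have h1 := hρL (a⁻¹ * b)
    ((IntermediateField.mem_fixingSubgroup_iff _ _).1 (inv_mul_mem_fixingSubgroup h))
  calc ρbar.ρ a = ρbar.ρ a * ρbar.ρ (a⁻¹ * b) := by rw [h1, mul_one]
    _ = ρbar.ρ b := by rw [← map_mul, mul_inv_cancel_left]

omit [Finite k] in
theorem cycloK_eq_one {s : Γℚ} (h : ∀ μ : AlgebraicClosure ℚ, μ ^ p = 1 → s μ = μ) :
    cycloK (k := k) p s = 1 := by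
  haveI : NeZero p := ⟨(Fact.out : p.Prime).ne_zero⟩
  have h1 : cycloChar p s = 1 := by
    suffices h' : ∀ t ∈ rootsOfUnity p (AlgebraicClosure ℚ),
        (s : AlgebraicClosure ℚ ≃+* AlgebraicClosure ℚ) (t : AlgebraicClosure ℚ)
          = (t : AlgebraicClosure ℚ) ^ (1 : ZMod p).val from
      Units.ext (modularCyclotomicCharacter.unique _ (card_rootsOfUnity_eq_self p) _ h').symm
    intro t ht
    have hr : (t : AlgebraicClosure ℚ) ^ p = 1 := by
      have := congrArg (Units.val) ((mem_rootsOfUnity p t).1 ht)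
      simpa using this
    show s (t : AlgebraicClosure ℚ) = _
    haveI : Fact (1 < p) := ⟨(Fact.out : p.Prime).one_lt⟩
    rw [h _ hr, ZMod.val_one, pow_one]
  rw [cycloK, MonoidHom.comp_apply, h1, map_one]

/-- From a group element with the Taylor–Wiles properties to a prime whose Frobenius generates
the same cyclic group at a given level. -/
theorem exists_prime_of_element (H : Hyp ρbar p) (n : ℕ) (B : Finset ℕ) (hpB : p ∈ B)
    (hB : ∀ q : ℕ, q.Prime → q ∉ B → ρbar.IsUnramifiedAt q)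
    (F₀ : IntermediateField ℚ (AlgebraicClosure ℚ)) [FiniteDimensional ℚ F₀]
    (σ : Γℚ) (hμ : ∀ μ : AlgebraicClosure ℚ, μ ^ p ^ (n + 1) = 1 → σ μ = μ)
    (hσ : ∃ α β : k, α ≠ β ∧ LinearMap.charpoly (ρbar.ρ σ) = (X - C α) * (X - C β)) :
    ∃ q, IsGoodPrime ρbar p n B q ∧
      ∃ A : ValuationSubring (AlgebraicClosure ℚ), A.LiesOverPrime q ∧
        ∃ y ∈ A.decompositionSubgroup ℚ, ∀ x ∈ F₀, y x = σ x := by
  obtain ⟨L, hL, hρL⟩ := ρbar.factorsThroughFiniteLevel
  haveI := hL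
  haveI : NeZero (p ^ (n + 1)) := ⟨pow_ne_zero _ (Fact.out : p.Prime).ne_zero⟩
  haveI := finiteDimensional_rootsField (p ^ (n + 1))
  set F₁ := F₀ ⊔ L ⊔ rootsField (p ^ (n + 1)) with hF₁
  haveI : FiniteDimensional ℚ F₁ := inferInstance
  set F := IntermediateField.normalClosure ℚ F₁ (AlgebraicClosure ℚ) with hF
  haveI : FiniteDimensional ℚ F := inferInstance
  haveI : Normal ℚ F := normalClosure.normal ℚ F₁ (AlgebraicClosure ℚ)
  have hle : F₁ ≤ F := IntermediateField.le_normalClosure F₁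
  have hF₀ : F₀ ≤ F := (le_sup_left.trans le_sup_left).trans hle
  have hLF : L ≤ F := (le_sup_right.trans le_sup_left).trans hle
  have hRF : rootsField (p ^ (n + 1)) ≤ F := le_sup_right.trans hle
  obtain ⟨q, hq, hqB, A, hA, φ, hφ, hz⟩ :=
    @Density.exists_frobenius_zpowers_restrictNormal F (inferInstance : FiniteDimensional ℚ F)
      (normalClosure.normal ℚ F₁ (AlgebraicClosure ℚ) : Normal ℚ F) σ B
  obtain ⟨i, hi⟩ := exists_zpow_eqOn (F := F) hz
  obtain ⟨j, hj⟩ := exists_zpow_eqOn (F := F) hz.symm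
  have hqp : ¬ q ∣ p ^ (n + 1) := fun h =>
    hqB (((Nat.prime_dvd_prime_iff_eq hq Fact.out).1 (hq.dvd_of_dvd_pow h)) ▸ hpB)
  have hcyc : p ^ (n + 1) ∣ q - 1 := by
    obtain ⟨ζ, hζ⟩ := HasEnoughRootsOfUnity.exists_primitiveRoot (AlgebraicClosure ℚ) (p ^ (n + 1))
    have h1 : φ ζ = ζ ^ q :=
      Galois.isFrobeniusAt_apply_rootOfUnity hA hq hφ hqp hζ.pow_eq_one
    have hfix : ∀ i : ℤ, (σ ^ i) ζ = ζ := fun i => by
      have h3 : σ ∈ MulAction.stabilizer Γℚ ζ :=
        MulAction.mem_stabilizer_iff.2 (hμ ζ hζ.pow_eq_one)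
      exact MulAction.mem_stabilizer_iff.1 (Subgroup.zpow_mem _ h3 i)
    have h2 : φ ζ = ζ :=
      (hi ζ (hRF (apply_mem_rootsField hζ.pow_eq_one))).symm.trans (hfix i)
    have hζ0 : ζ ≠ 0 := hζ.ne_zero (NeZero.ne _)
    refine hζ.dvd_of_pow_eq_one _ (mul_right_cancel₀ hζ0 ?_)
    rw [← pow_succ, Nat.sub_add_cancel hq.one_le, one_mul, ← h1, h2]
  obtain ⟨j', hj'⟩ : ∃ j' : ℕ, ρbar.ρ (φ ^ j') = ρbar.ρ σ := by
    let u : Γℚ →* (Module.End k ρbar.V)ˣ := ρbar.ρ.toHomUnits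
    haveI : Finite ρbar.V := Module.finite_of_finite k
    haveI : Finite (Module.End k ρbar.V) :=
      Finite.of_injective (fun f => (f : ρbar.V → ρbar.V)) DFunLike.coe_injective
    have h1 : u σ ∈ Subgroup.zpowers (u φ) := ⟨j, by
      refine (map_zpow u φ j).symm.trans (Units.ext ?_)
      exact rho_eq_of_fix ρbar hρL fun x hx => hj x (hLF hx)⟩
    obtain ⟨j', hj'⟩ :=
      Submonoid.mem_powers_iff _ _ |>.1 ((isOfFinOrder_of_finite (u φ)).mem_powers_iff_mem_zpowers.2 h1)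
    exact ⟨j', congrArg Units.val ((map_pow u φ j').trans hj')⟩
  refine ⟨q, ⟨hq, hqB, hcyc, fun P hP ψ hψ => ?_⟩, A, hA, φ ^ j,
    zpow_mem hφ.mem_decompositionSubgroup j, fun x hx => hj x (hF₀ hx)⟩
  rw [charpoly_frobenius_eq ρbar q hq (hB q hq hqB) A P hA hP φ ψ hφ hψ]
  obtain ⟨α, β, hαβ⟩ := H.split φ
  obtain ⟨α', β', hne, hσ'⟩ := hσ
  rw [← hj', show ρbar.ρ (φ ^ j') = ρbar.ρ φ ^ j' from map_pow ρbar.ρ φ j'] at hσ'
  exact ⟨α, β, ne_of_pow_distinct _ j' hαβ hσ' hne, hαβ⟩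

/-- A prime detecting a given nonzero class. -/
theorem exists_prime_detect (H : Hyp ρbar p) (n : ℕ) (B : Finset ℕ) (hpB : p ∈ B)
    (hB : ∀ q : ℕ, q.Prime → q ∉ B → ρbar.IsUnramifiedAt q)
    (x : H1 (ad0Tw ρbar p)) (hx : x ∈ continuousH1 (MonoidHom.id Γℚ) (ad0Tw ρbar p))
    (hne : x ≠ 0) :
    ∃ q, IsGoodPrime ρbar p n B q ∧
      ∀ hq : q.Prime, locPrime ⟨q, hq⟩ (ad0Tw ρbar p) x ≠ 0 := by
  obtain ⟨c, hc, rfl⟩ := (mem_continuousH1_iff _ _ x).1 hx
  obtain ⟨σ, hμ, hσ, hdet⟩ := exists_detecting_element p H.ne_two ρbar H.absIrr H.det H.split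
    H.tw c hc hne n
  obtain ⟨Fc, hFc, hcF⟩ := hc
  obtain ⟨L, hL, hρL⟩ := ρbar.factorsThroughFiniteLevel
  haveI := hFc
  haveI := hL
  haveI : NeZero p := ⟨(Fact.out : p.Prime).ne_zero⟩
  haveI := finiteDimensional_rootsField p
  obtain ⟨q, hgood, A, hA, y, hy, hyF⟩ :=
    exists_prime_of_element ρbar p H n B hpB hB (Fc ⊔ L ⊔ rootsField p) σ hμ hσ
  refine ⟨q, hgood, fun hq h0 => ?_⟩
  haveI : Fact q.Prime := ⟨hq⟩
  set q' : Nat.Primes := ⟨q, hq⟩ with hq'
  unfold locPrime at h0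
  rw [Transfer.map_H1π, H1π_eq_zero_iff] at h0
  obtain ⟨m, hm⟩ := h0
  let M := ad0Tw ρbar p
  obtain ⟨g, hg⟩ := Galois.exists_smul_eq hA (Galois.padicPlace_liesOverPrime q) hq
  have hy' : g * y * g⁻¹ ∈ (padicPlace q).decompositionSubgroup ℚ := by
    rw [← hg, Galois.mem_decomposition_smul_iff]
    simpa [mul_assoc] using hy
  rw [← Galois.localGaloisToGlobal_range] at hy'
  obtain ⟨τ, hτ⟩ := hy'
  have hcm : c (g * y * g⁻¹) = M.ρ (g * y * g⁻¹) m - m := by
    rw [← hτ]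
    exact (congrFun hm τ).symm
  have hmul := (mem_cocycles₁_iff c.1).1 c.2
  have hy2 : c y = M.ρ y (M.ρ g⁻¹ (c g + m)) - M.ρ g⁻¹ (c g + m) := by
    have e1 : c (g * y) = M.ρ g (c y) + c g := hmul g y
    have e2 : c (g * y * g⁻¹ * g) = M.ρ (g * y * g⁻¹) (c g) + c (g * y * g⁻¹) := hmul _ g
    rw [inv_mul_cancel_right, e1, hcm] at e2
    have e3 : M.ρ g (c y) = M.ρ (g * y * g⁻¹) (c g + m) - (c g + m) := by
      rw [map_add, eq_sub_of_add_eq e2]
      abel
    have e4 := congrArg (M.ρ g⁻¹) e3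
    rw [map_sub, ← Module.End.mul_apply, ← map_mul, inv_mul_cancel, map_one, Module.End.one_apply,
      ← Module.End.mul_apply, ← map_mul,
      show g⁻¹ * (g * y * g⁻¹) = y * g⁻¹ by group, map_mul, Module.End.mul_apply] at e4
    exact e4
  have hfix : ∀ z ∈ Fc ⊔ L ⊔ rootsField p, (σ⁻¹ * y) z = z := fun z hz =>
    (IntermediateField.mem_fixingSubgroup_iff _ _).1
      (inv_mul_mem_fixingSubgroup (fun x hx => (hyF x hx).symm)) z hz
  have hcy : c y = c σ := by
    have := hcF σ (σ⁻¹ * y) ((IntermediateField.mem_fixingSubgroup_iff _ _).2 fun z hz =>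
      hfix z ((le_sup_left.trans le_sup_left : Fc ≤ Fc ⊔ L ⊔ rootsField p) hz))
    rwa [mul_inv_cancel_left] at this
  have hρy : ∀ v : M, M.ρ y v = M.ρ σ v := by
    intro v
    have hLfix : ∀ z ∈ L, (σ⁻¹ * y) z = z := fun z hz =>
      hfix z ((le_sup_right.trans le_sup_left : L ≤ Fc ⊔ L ⊔ rootsField p) hz)
    have hLfix' : ∀ z ∈ L, (σ⁻¹ * y)⁻¹ z = z := fun z hz => by
      conv_lhs => rw [← hLfix z hz]
      exact (σ⁻¹ * y).symm_apply_apply z
    have h1 : M.ρ (σ⁻¹ * y) v = v := by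
      refine Subtype.ext ?_
      show ((cycloK (k := k) p (σ⁻¹ * y) : kˣ) : k) •
          (ρbar.ρ (σ⁻¹ * y) * ((v : adZeroSpace ρbar).1 * ρbar.ρ (σ⁻¹ * y)⁻¹)) = _
      rw [hρL _ hLfix, hρL _ hLfix', one_mul, mul_one, cycloK_eq_one p fun μ hμ =>
        hfix μ ((le_sup_right : rootsField p ≤ Fc ⊔ L ⊔ rootsField p) (apply_mem_rootsField hμ)),
        Units.val_one, one_smul]
    calc M.ρ y v = M.ρ (σ * (σ⁻¹ * y)) v := by rw [mul_inv_cancel_left]
      _ = M.ρ σ v := by rw [map_mul, Module.End.mul_apply, h1]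
  exact hdet (M.ρ g⁻¹ (c g + m)) (by rw [← hcy, hy2, hρy])

/-- Taylor–Wiles primes killing a finite-dimensional space of classes. -/
theorem exists_taylorWiles_primes (H : Hyp ρbar p) (n : ℕ) :
    ∀ (r : ℕ) (W : Submodule k (H1 (ad0Tw ρbar p))) [FiniteDimensional k W],
      W ≤ continuousH1 (MonoidHom.id Γℚ) (ad0Tw ρbar p) → finrank k W ≤ r →
      ∀ (B : Finset ℕ), p ∈ B → (∀ q : ℕ, q.Prime → q ∉ B → ρbar.IsUnramifiedAt q) →
      ∃ qv : Fin r → ℕ, Function.Injective qv ∧ (∀ i, IsGoodPrime ρbar p n B (qv i)) ∧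
        ∀ y ∈ W, (∀ i, ∀ hq : (qv i).Prime, locPrime ⟨qv i, hq⟩ (ad0Tw ρbar p) y = 0) → y = 0 := by
  intro r
  induction r with
  | zero =>
    intro W _ _ hW B _ _
    have hbot : W = ⊥ := Submodule.finrank_eq_zero.1 (Nat.le_zero.1 hW)
    refine ⟨fun i => i.elim0, fun i => i.elim0, fun i => i.elim0, fun y hy _ => ?_⟩
    rw [hbot] at hy
    exact (Submodule.mem_bot k).1 hy
  | succ r ih =>
    intro W _ hWc hW B hpB hB
    obtain ⟨q, hgood, hdrop⟩ : ∃ q, IsGoodPrime ρbar p n B q ∧ ∀ hq : q.Prime,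
        finrank k ↥(W ⊓ LinearMap.ker (locPrime ⟨q, hq⟩ (ad0Tw ρbar p))) ≤ r := by
      by_cases hbot : W = ⊥
      · obtain ⟨σ, hμ, hσ⟩ := exists_taylorWiles_element p H.ne_two ρbar H.absIrr H.det H.split
          H.tw n
        obtain ⟨q, hq, -⟩ := exists_prime_of_element ρbar p H n B hpB hB ⊥ σ hμ hσ
        refine ⟨q, hq, fun _ => ?_⟩
        subst hbot
        rw [bot_inf_eq, finrank_bot]
        exact Nat.zero_le r
      · obtain ⟨x, hxW, hx0⟩ := (Submodule.ne_bot_iff W).1 hbot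
        obtain ⟨q, hq, hloc⟩ := exists_prime_detect ρbar p H n B hpB hB x (hWc hxW) hx0
        refine ⟨q, hq, fun hq' => ?_⟩
        have hlt : W ⊓ LinearMap.ker (locPrime ⟨q, hq'⟩ (ad0Tw ρbar p)) < W :=
          lt_of_le_of_ne inf_le_left fun he => hloc hq'
            (LinearMap.mem_ker.1 (inf_eq_left.1 he hxW))
        have := Submodule.finrank_lt_finrank_of_lt hlt
        omega
    haveI : FiniteDimensional k
        ↥(W ⊓ LinearMap.ker (locPrime ⟨q, hgood.1⟩ (ad0Tw ρbar p))) :=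
      Submodule.finiteDimensional_inf_left _ _
    obtain ⟨qv, hinj, hall, hkill⟩ := ih (W ⊓ LinearMap.ker (locPrime ⟨q, hgood.1⟩ (ad0Tw ρbar p)))
      (inf_le_left.trans hWc) (hdrop hgood.1) (insert q B) (Finset.mem_insert_of_mem hpB)
      (fun l hl hlB => hB l hl fun h => hlB (Finset.mem_insert_of_mem h))
    refine ⟨Fin.cons q qv, Fin.cons_injective_iff.2 ⟨?_, hinj⟩, ?_, fun y hy hloc => ?_⟩
    · rintro ⟨i, hi⟩
      exact (hall i).2.1 (hi ▸ Finset.mem_insert_self q B)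
    · intro i
      refine Fin.cases ?_ (fun i => ?_) i
      · exact hgood
      · exact ⟨(hall i).1, fun h => (hall i).2.1 (Finset.mem_insert_of_mem h), (hall i).2.2⟩
    · refine hkill y ⟨hy, LinearMap.mem_ker.2 (hloc 0 hgood.1)⟩ fun i hq => hloc i.succ hq

end Fermat.Agent.TW.Killing
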