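import Fermat.Agent.TW.SelmerBound

/-!
# Taylor–Wiles primes relative to a set of locally trivial primes

Primes killing the dual classes that are unrestricted at a finite set `Sg` where `ρbar` is locally
scalar; the classes trivial at `Sg` then span at most `r - 3 |Sg|` dimensions.
-/

set_option autoImplicit false
set_option linter.style.haveILetI false

noncomputable section

open CategoryTheory groupCohomology ExtCitation Polynomial IsLocalRing Module

namespace Fermat.Agent.TW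

local notation "Γℚ" => (AlgebraicClosure ℚ ≃ₐ[ℚ] AlgebraicClosure ℚ)

variable {𝒪 : Type} [CommRing 𝒪] [IsDomain 𝒪] [IsDiscreteValuationRing 𝒪]
  [IsAdicComplete (maximalIdeal 𝒪) 𝒪] [Finite (ResidueField 𝒪)]

theorem finrank_ad0_eq_three {k : Type} [Field k] (ρbar : ResidualGaloisRep k) (h2 : (2 : k) ≠ 0) :
    finrank k (ad0 ρbar) = 3 := by
  show finrank k (LinearMap.ker (LinearMap.trace k ρbar.V)) = 3
  have h := LinearMap.finrank_range_add_finrank_ker (LinearMap.trace k ρbar.V)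
  have hsurj : LinearMap.range (LinearMap.trace k ρbar.V) = ⊤ := by
    refine LinearMap.range_eq_top.2 fun t => ⟨(t / 2) • LinearMap.id, ?_⟩
    rw [map_smul, LinearMap.trace_id, ρbar.finrank_eq, smul_eq_mul, Nat.cast_ofNat,
      div_mul_cancel₀ _ h2]
  rw [hsurj, finrank_top, Module.finrank_self, Module.finrank_linearMap, ρbar.finrank_eq] at h
  omega

theorem invariants_eq_top_of_trivial {k : Type} [Field k] (ρbar : ResidualGaloisRep k)
    {H : Type} [Group H] (f : H →* Γℚ) (h : ∀ τ, (ad0 ρbar).ρ (f τ) = 1) :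
    (Rep.res f (ad0 ρbar)).ρ.invariants = ⊤ :=
  eq_top_iff.2 fun m _ τ => by
    show (ad0 ρbar).ρ (f τ) m = m
    rw [h τ]
    rfl

set_option maxHeartbeats 800000 in
theorem exists_taylorWilesPrimes_relaxed
    (p : ℕ) [Fact p.Prime] (hp2 : p ≠ 2) (hp𝒪 : (p : 𝒪) ∈ maximalIdeal 𝒪)
    (ρbar : ResidualGaloisRep (ResidueField 𝒪))
    (habs : ρbar.IsAbsolutelyIrreducible)
    (hdet : (GaloisRepAdic.ofResidualGaloisRep ρbar).DetIsCyclotomic p)
    (hsplit : ∀ σ : Γℚ,
      ∃ α β : ResidueField 𝒪, LinearMap.charpoly (ρbar.ρ σ) = (X - C α) * (X - C β))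
    (hTW : ∀ (K : Type) [Field K] [Algebra (ResidueField 𝒪) K] (G : Subgroup Γℚ), G.index = 2 →
      ∀ V : Submodule K (ρbar.baseChange K).V,
        (∀ σ ∈ G, ∀ x ∈ V, (ρbar.baseChange K).ρ σ x ∈ V) → V = ⊥ ∨ V = ⊤)
    (S Smin : Finset ℕ) (hpSmin : p ∈ Smin) (hSmin : Smin ⊆ S)
    (hmin : ∀ q : ℕ, q.Prime → q ≠ p → (q ∈ Smin ↔ ¬ ρbar.IsUnramifiedAt q))
    (Sg : Finset ℕ) (hSg : Sg ⊆ S) (hSgp : ∀ r ∈ Sg, r.Prime) (hdisj : Disjoint Sg Smin)
    (hscal : ∀ q : Nat.Primes, (q : ℕ) ∈ Sg → ∀ τ : primeLocalGaloisGroup q,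
      (ad0 ρbar).ρ (primeLocalToGlobal q τ) = 1)
    (Pp : ∀ ⦃A : Type⦄ [CommRing A] [IsLocalRing A], GaloisRepAdic A → Prop)
    (hloc : ∀ [CharP (ResidueField 𝒪) p], Pp (GaloisRepAdic.ofResidualGaloisRep ρbar) →
      ∃ L : Submodule (ResidueField 𝒪) (H1 (Rep.res (primeLocalToGlobal (pPrime p)) (ad0 ρbar))),
        L ≤ continuousH1 (primeLocalToGlobal (pPrime p))
          (Rep.res (primeLocalToGlobal (pPrime p)) (ad0 ρbar)) ∧
        FiniteDimensional (ResidueField 𝒪) L ∧
        finrank (ResidueField 𝒪) L ≤ finrank (ResidueField 𝒪)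
          (Rep.res (primeLocalToGlobal (pPrime p)) (ad0 ρbar)).ρ.invariants + 1 ∧
        ∀ (c : cocycles₁ (ad0 ρbar)) (hc : IsLevelConstant₁ (MonoidHom.id Γℚ) c),
          (adLift ρbar c hc).DetIsCyclotomic p → Pp (adLift ρbar c hc) →
          locPrime (pPrime p) (ad0 ρbar) ((H1π (ad0 ρbar)).hom c) ∈ L) :
    ∃ r : ℕ, 3 * Sg.card ≤ r ∧ ∀ n : ℕ, ∃ qv : Fin r → ℕ, Function.Injective qv ∧
      (∀ i, (qv i).Prime ∧ qv i ∉ S ∧ p ^ (n + 1) ∣ qv i - 1) ∧
      (∀ i, ∀ P : ValuationSubring (AlgebraicClosure ℚ), P.LiesOverPrime (qv i) →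
        ∀ φ : Γℚ, P.IsFrobeniusAt φ (qv i) →
          ∃ α β : ResidueField 𝒪, α ≠ β ∧ LinearMap.charpoly (ρbar.ρ φ) = (X - C α) * (X - C β)) ∧
      (Pp (GaloisRepAdic.ofResidualGaloisRep ρbar) →
        (∀ q ∈ Smin, q.Prime → q ≠ p →
          (GaloisRepAdic.ofResidualGaloisRep ρbar).IsUnipotentOnInertiaAt q) →
        ∃ (Sel : Submodule (ResidueField 𝒪) (H1 (ad0 ρbar)))
          (_ : FiniteDimensional (ResidueField 𝒪) Sel),
          finrank (ResidueField 𝒪) Sel + 3 * Sg.card ≤ r ∧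
          ∀ (c : cocycles₁ (ad0 ρbar)) (hc : IsLevelConstant₁ (MonoidHom.id Γℚ) c),
            (adLift ρbar c hc).DetIsCyclotomic p → Pp (adLift ρbar c hc) →
            (∀ q : ℕ, q.Prime → q ∉ Smin ∪ Sg ∪ Finset.univ.image qv →
              (adLift ρbar c hc).IsUnramifiedAt q) →
            (∀ q ∈ Smin, q.Prime → q ≠ p → (adLift ρbar c hc).IsUnipotentOnInertiaAt q) →
            (∀ q : Nat.Primes, (q : ℕ) ∈ Sg → ∀ τ : primeLocalGaloisGroup q,
              c (primeLocalToGlobal q τ) = 0) →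
            (H1π (ad0 ρbar)).hom c ∈ Sel) := by
  classical
  haveI := charP_residueField (𝒪 := 𝒪) p hp𝒪
  have hp : p.Prime := Fact.out
  have h2k : (2 : ResidueField 𝒪) ≠ 0 := by
    intro h
    have h' : ((2 : ℕ) : ResidueField 𝒪) = 0 := by exact_mod_cast h
    rw [CharP.cast_eq_zero_iff (ResidueField 𝒪) p 2] at h'
    exact hp2 ((Nat.prime_dvd_prime_iff_eq hp Nat.prime_two).1 h')
  -- the space to be killed
  set Sm := primesIn (Smin ∪ Sg) with hSm
  have hpSm : pPrime p ∈ Sm := mem_primesIn.2 (Finset.mem_union_left _ hpSmin)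
  have hur : ∀ q : Nat.Primes, q ∉ Sm → ρbar.IsUnramifiedAt q := fun q hq => by
    have hqp : (q : ℕ) ≠ p := fun h =>
      hq (mem_primesIn.2 (Finset.mem_union_left _ (h ▸ hpSmin)))
    by_contra hn
    exact hq (mem_primesIn.2 (Finset.mem_union_left _ ((hmin q q.2 hqp).2 hn)))
  have hSmS : Smin ∪ Sg ⊆ S := Finset.union_subset hSmin hSg
  have hadUr : ∀ q : Nat.Primes, q ∉ Sm → ∀ A : ValuationSubring (AlgebraicClosure ℚ),
      A.LiesOverPrime (q : ℕ) → ∀ g ∈ A.inertiaSubgroupIn ℚ, (ad0 ρbar).ρ g = 1 :=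
    fun q hq A hA g hg => ad0_rho_eq_one ρbar (hur q hq A hA g hg)
  have htwUr : ∀ q : Nat.Primes, q ∉ Sm → ∀ A : ValuationSubring (AlgebraicClosure ℚ),
      A.LiesOverPrime (q : ℕ) → ∀ g ∈ A.inertiaSubgroupIn ℚ, (ad0Tw ρbar p).ρ g = 1 :=
    fun q hq A hA g hg => ad0Tw_rho_eq_one p ρbar (hur q hq A hA g hg)
      (inertia_fixes_roots p
        (fun h => hq (mem_primesIn.2 (Finset.mem_union_left _ (h ▸ hpSmin)))) hA hg)
  have htwsm : ∀ m : ad0Tw ρbar p, ∃ F : IntermediateField ℚ (AlgebraicClosure ℚ),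
      FiniteDimensional ℚ F ∧ ∀ s ∈ F.fixingSubgroup, (ad0Tw ρbar p).ρ s m = m := by
    intro m
    obtain ⟨L, hL, hρ⟩ := ρbar.factorsThroughFiniteLevel
    haveI := hL
    haveI : NeZero p := ⟨hp.ne_zero⟩
    haveI := Killing.finiteDimensional_rootsField p
    refine ⟨L ⊔ Killing.rootsField p, IntermediateField.finiteDimensional_sup _ _, fun s hs => ?_⟩
    rw [IntermediateField.fixingSubgroup_sup] at hs
    rw [ad0Tw_rho_eq_one p ρbar (hρ s ((IntermediateField.mem_fixingSubgroup_iff _ _).1 hs.1))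
      fun μ hμ => (IntermediateField.mem_fixingSubgroup_iff _ _).1 hs.2 μ
        (Killing.apply_mem_rootsField hμ)]
    rfl
  haveI : Finite (ad0 ρbar) := inferInstanceAs (Finite (adZeroSpace ρbar))
  haveI : Finite (ad0Tw ρbar p) := inferInstanceAs (Finite (adZeroSpace ρbar))
  haveI : Finite (continuousH1S Sm (ad0Tw ρbar p)) :=
    CFT.finite_continuousH1S_of_smooth _ Sm htwsm htwUr
  set W := continuousH1S Sm (ad0Tw ρbar p) with hW
  set r := max (finrank (ResidueField 𝒪) W) (3 * Sg.card) with hr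
  refine ⟨r, le_max_right _ _, fun n => ?_⟩
  obtain ⟨qv, hinj, hgood, hkill⟩ := Killing.exists_taylorWiles_primes ρbar p
    ⟨hp2, habs, hdet, hsplit, hTW⟩ n r W
    (continuousH1S_le_continuousH1 Sm _) (le_max_left _ _) S (hSmin hpSmin)
    (fun q hq hqS => hur ⟨q, hq⟩ fun h => hqS (hSmS (mem_primesIn.1 h)))
  refine ⟨qv, hinj, fun i => ⟨(hgood i).1, (hgood i).2.1, (hgood i).2.2.1⟩,
    fun i => (hgood i).2.2.2, fun hbarP hbarU => ?_⟩
  have hprime : ∀ i, (qv i).Prime := fun i => (hgood i).1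
  -- the places
  set T : Finset Nat.Primes :=
    Finset.univ.image (fun i => (⟨qv i, hprime i⟩ : Nat.Primes)) with hT
  set Sx := Sm ∪ T with hSx
  have hTnot : ∀ q ∈ T, q ∉ Sm ∧ q ≠ pPrime p ∧ ∃ i, qv i = (q : ℕ) := by
    intro q hq
    obtain ⟨i, -, rfl⟩ := Finset.mem_image.1 hq
    refine ⟨fun h => (hgood i).2.1 (hSmS (mem_primesIn.1 h)), fun h => ?_, i, rfl⟩
    exact (hgood i).2.1 (hSmin (by
      have h' : qv i = p := congrArg Subtype.val h
      rw [h']
      exact hpSmin))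
  have hTcard : T.card = r := by
    have hf : Function.Injective (fun i => (⟨qv i, hprime i⟩ : Nat.Primes)) :=
      fun i j h => hinj (congrArg Subtype.val h)
    exact (Finset.card_image_of_injective _ hf).trans
      (Finset.card_univ.trans (Fintype.card_fin _))
  let a : Nat.Primes → ℕ := fun q => (if q = pPrime p then 1 else 0) + (if q ∈ T then 1 else 0)
  let Good : cocycles₁ (ad0 ρbar) → Prop := fun c => ∃ hc : IsLevelConstant₁ (MonoidHom.id Γℚ) c,
    (adLift ρbar c hc).DetIsCyclotomic p ∧ Pp (adLift ρbar c hc) ∧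
    (∀ q : ℕ, q.Prime → q ∉ Smin ∪ Sg ∪ Finset.univ.image qv →
      (adLift ρbar c hc).IsUnramifiedAt q) ∧
    (∀ q ∈ Smin, q.Prime → q ≠ p → (adLift ρbar c hc).IsUnipotentOnInertiaAt q) ∧
    ∀ q : Nat.Primes, (q : ℕ) ∈ Sg → ∀ τ : primeLocalGaloisGroup q,
      c (primeLocalToGlobal q τ) = 0
  let bS : Nat.Primes → ℕ := fun q => if (q : ℕ) ∈ Sg then 3 else 0
  have hex : ∀ q : ↥Sx,
      ∃ L : Submodule (ResidueField 𝒪) (H1 (Rep.res (primeLocalToGlobal q.1) (ad0 ρbar))),
        L ≤ continuousH1 (primeLocalToGlobal q.1) (Rep.res (primeLocalToGlobal q.1) (ad0 ρbar)) ∧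
        FiniteDimensional (ResidueField 𝒪) L ∧
        finrank (ResidueField 𝒪) L + bS q.1 ≤ finrank (ResidueField 𝒪)
          (Rep.res (primeLocalToGlobal q.1) (ad0 ρbar)).ρ.invariants + a q.1 ∧
        (q.1 ∈ T → continuousH1 (primeLocalToGlobal q.1)
          (Rep.res (primeLocalToGlobal q.1) (ad0 ρbar)) ≤ L) ∧
        ∀ c, Good c → locPrime q.1 (ad0 ρbar) ((H1π (ad0 ρbar)).hom c) ∈ L := by
    rintro ⟨q, hq⟩
    by_cases hqT : q ∈ T
    · obtain ⟨hqSm, hqp, i, hi⟩ := hTnot q hqT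
      obtain ⟨hfd, hle⟩ := finrank_continuousH1_taylorWiles p hp2 ρbar hdet q
        ((dvd_pow_self p (Nat.succ_ne_zero n)).trans (hi ▸ (hgood i).2.2.1)) (hur q hqSm)
        (hi ▸ (hgood i).2.2.2)
      refine ⟨_, le_rfl, hfd, ?_, fun _ => le_rfl, fun c ⟨hc, _⟩ => ?_⟩
      · have hnS : ¬ (q : ℕ) ∈ Sg := fun h =>
          hqSm (mem_primesIn.2 (Finset.mem_union_right _ h))
        simp only [a, bS, if_neg hqp, if_pos hqT, if_neg hnS, zero_add, add_zero]
        exact hle
      · unfold locPrime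
        rw [Transfer.map_H1π]
        exact H1π_mem_continuousH1 _ _ (c := Transfer.cocRes (primeLocalToGlobal q) (ad0 ρbar) c)
          (IsLevelConstant₁.precomp (primeLocalToGlobal q) (fun _ => rfl) hc)
    · by_cases hqp : q = pPrime p
      · subst hqp
        obtain ⟨L, h1, h2, h3, h4⟩ := hloc hbarP
        refine ⟨L, h1, h2, ?_, fun h => absurd h hqT, fun c ⟨hc, hd, hP, _⟩ => h4 c hc hd hP⟩
        have hnS : ¬ ((pPrime p : Nat.Primes) : ℕ) ∈ Sg := fun h =>
          Finset.disjoint_left.1 hdisj h hpSmin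
        simp only [a, bS, if_pos, if_neg hqT, add_zero]
        rw [if_neg hnS, add_zero]
        exact h3
      · have hqSm : q ∈ Sm := (Finset.mem_union.1 hq).resolve_right hqT
        have hqne : (q : ℕ) ≠ p := fun h => hqp (Subtype.ext h)
        by_cases hqS : (q : ℕ) ∈ Sg
        · refine ⟨⊥, bot_le, inferInstance, ?_, fun h => absurd h hqT,
            fun c ⟨hc, _, _, _, _, hz⟩ => ?_⟩
          · simp only [a, bS, if_pos hqS, if_neg hqp, if_neg hqT, finrank_bot, zero_add, add_zero]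
            rw [invariants_eq_top_of_trivial ρbar _ (hscal q hqS), finrank_top,
              finrank_ad0_eq_three ρbar h2k]
          · rw [Submodule.mem_bot]
            unfold locPrime
            rw [Transfer.map_H1π]
            have h0 : Transfer.cocRes (primeLocalToGlobal q) (ad0 ρbar) c = 0 :=
              Subtype.ext (funext fun τ => hz q hqS τ)
            rw [h0, map_zero]
        · have hqmin : (q : ℕ) ∈ Smin :=
            (Finset.mem_union.1 (mem_primesIn.1 hqSm)).resolve_right hqS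
          obtain ⟨L, h1, h2, h3, h4⟩ := exists_unipotent_local p hp2 ρbar hdet q hqne
            ((hmin q q.2 hqne).1 hqmin) (hbarU q hqmin q.2 hqne)
          refine ⟨L, h1, h2, ?_, fun h => absurd h hqT,
            fun c ⟨hc, hd, _, _, hu, _⟩ => h4 c hc hd (hu q hqmin q.2 hqne)⟩
          simp only [a, bS, if_neg hqp, if_neg hqT, if_neg hqS, add_zero]
          exact h3
  choose Lq hLcont hLfd hLle hLT hLmem using hex
  let L : ∀ v : extArithIndex Sx,
      Submodule (ResidueField 𝒪) (H1 (Rep.res (extArithLoc Sx v) (ad0 ρbar)))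
    | Sum.inl _ => ⊥
    | Sum.inr q => Lq q
  have hadUr' : ∀ q : Nat.Primes, q ∉ Sx → ρbar.IsUnramifiedAt q :=
    fun q hq => hur q fun h => hq (Finset.mem_union_left _ h)
  haveI : Finite (continuousH1S Sx (ad0 ρbar)) :=
    CFT.finite_continuousH1S_of_smooth _ Sx (ad0_smooth ρbar)
      fun q hq => hadUr q fun h => hq (Finset.mem_union_left _ h)
  have hH1 : FiniteDimensional (ResidueField 𝒪) (continuousH1S Sx (ad0 ρbar)) :=
    Module.Finite.of_finite
  haveI := hH1
  have hkill' : ∀ y ∈ continuousH1S Sx (ad0Tw ρbar p),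
      (∀ q ∈ T, locPrime q (ad0Tw ρbar p) y = 0) → y = 0 := by
    intro y hy hloc0
    obtain ⟨c, hc, rfl⟩ := (mem_continuousH1S_iff _ _ _).1 hy
    haveI : Module.Finite (ResidueField 𝒪) (ad0Tw ρbar p) := Module.Finite.of_finite
    refine hkill _ ?_ fun i hi => hloc0 ⟨qv i, hi⟩
      (Finset.mem_image.2 ⟨i, Finset.mem_univ i, rfl⟩)
    refine H1π_mem_continuousH1S_of_inertia _ Sm htwsm htwUr c hc.isLevelConstant₁ ?_
    intro q hq A hA g hg
    by_cases hqT : q ∈ T
    · exact eq_zero_on_inertia_of_locPrime_eq_zero _ q c (hloc0 q hqT) (htwUr q hq) A hA g hg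
    · obtain ⟨F, hF, hcF⟩ := hc
      have h1 : c (1 * g) = c 1 := hcF 1 g (hF.2 q (fun h => (Finset.mem_union.1 h).elim hq hqT)
        A hA hg)
      simpa [cocycles₁_map_one] using h1
  have key := greenbergWiles_bound_ad0 ρbar p hp2 Sx T (Finset.mem_union_left _ hpSm)
    Finset.subset_union_right hadUr' L
    (fun v => match v with
      | Sum.inl _ => inferInstanceAs (FiniteDimensional (ResidueField 𝒪)
          (⊥ : Submodule (ResidueField 𝒪) (H1 (Rep.res archimedeanLoc (ad0 ρbar)))))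
      | Sum.inr q => hLfd q)
    (fun v => match v with
      | Sum.inl _ => bot_le
      | Sum.inr q => hLcont q)
    (by rintro v ⟨q, hqT, rfl⟩; exact hLT q hqT)
    hH1 hkill'
  haveI : FiniteDimensional (ResidueField 𝒪)
      (selmerAdm (extArithLoc Sx) (ad0 ρbar) L (continuousH1S Sx (ad0 ρbar))) :=
    groupCohomology.finiteDimensional_selmerAdm_of_adm _ _ _ _
  refine ⟨selmerAdm (extArithLoc Sx) (ad0 ρbar) L (continuousH1S Sx (ad0 ρbar)), inferInstance, ?_,
    fun c hc hd hP hu hun hz => ?_⟩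
  rotate_left
  · have hGood : Good c := ⟨hc, hd, hP, hu, hun, hz⟩
    refine (mem_selmerAdm_iff _ _ _ _ _).2 ⟨?_, ?_⟩
    · rintro (u | q)
      · exact (Submodule.mem_bot _).2
          (map_archimedeanLoc_eq_zero _ (Ne.isUnit h2k) c)
      · exact hLmem q c hGood
    · haveI : Module.Finite (ResidueField 𝒪) (ad0 ρbar) := Module.Finite.of_finite
      refine H1π_mem_continuousH1S_of_inertia _ Sx (ad0_smooth ρbar)
        (fun q hq => hadUr q fun h => hq (Finset.mem_union_left _ h)) c hc ?_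
      intro q hq A hA g hg
      refine cocycle_eq_zero_of_adLiftEnd_eq_one ρbar c (hadUr' q hq A hA g hg)
        (hu q q.2 ?_ A hA g hg)
      intro hmem
      rcases Finset.mem_union.1 hmem with h | h
      · exact hq (Finset.mem_union_left _ (mem_primesIn.2 h))
      · obtain ⟨i, -, hi⟩ := Finset.mem_image.1 h
        exact hq (Finset.mem_union_right _
          (Finset.mem_image.2 ⟨i, Finset.mem_univ i, Subtype.ext hi⟩))
  · rw [invariants_ad0_eq_bot ρbar habs h2k, finrank_bot, zero_add] at key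
    have hinf := one_le_finrank_invariants_archimedean ρbar h2k (det_complexConjugation p ρbar hdet)
    have e1 : ∑ v, finrank (ResidueField 𝒪) (L v)
        = ∑ q : ↥Sx, finrank (ResidueField 𝒪) (Lq q) := by
      show (∑ v : Unit ⊕ ↥Sx, finrank (ResidueField 𝒪) (L v)) = _
      rw [Fintype.sum_sum_type]
      simp only [L, finrank_bot, Finset.sum_const_zero, zero_add]
      rfl
    have e2 : ∑ v, finrank (ResidueField 𝒪) (Rep.res (extArithLoc Sx v) (ad0 ρbar)).ρ.invariants
        = finrank (ResidueField 𝒪) (Rep.res archimedeanLoc (ad0 ρbar)).ρ.invariants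
          + ∑ q : ↥Sx, finrank (ResidueField 𝒪)
              (Rep.res (primeLocalToGlobal q.1) (ad0 ρbar)).ρ.invariants := by
      show (∑ v : Unit ⊕ ↥Sx, _) = _
      rw [Fintype.sum_sum_type]
      rfl
    have hsumS : ∑ q : ↥Sx, bS q.1 = 3 * Sg.card := by
      rw [Finset.sum_coe_sort Sx bS]
      simp only [bS]
      rw [← Finset.sum_filter, Finset.sum_const, smul_eq_mul, mul_comm]
      congr 1
      refine Finset.card_nbij (fun q => (q : ℕ)) (fun q hq => (Finset.mem_filter.1 hq).2)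
        (fun _ _ _ _ h => Subtype.ext h) fun x hx => ⟨⟨x, hSgp x hx⟩, ?_, rfl⟩
      exact Finset.mem_coe.2 (Finset.mem_filter.2 ⟨Finset.mem_union_left _
        (mem_primesIn.2 (Finset.mem_union_right _ hx)), hx⟩)
    have hsum : ∑ q : ↥Sx, a q.1 = 1 + r := by
      rw [Finset.sum_coe_sort Sx a, Finset.sum_add_distrib, Finset.sum_ite_eq',
        if_pos (Finset.mem_union_left _ hpSm), Finset.sum_ite_mem,
        Finset.inter_eq_right.2 Finset.subset_union_right, Finset.sum_const, smul_eq_mul, mul_one,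
        hTcard]
    have e3 := Finset.sum_le_sum (s := (Finset.univ : Finset ↥Sx)) fun q _ => hLle q
    rw [Finset.sum_add_distrib, Finset.sum_add_distrib, hsum, hsumS] at e3
    rw [e1, e2] at key
    omega

end Fermat.Agent.TW
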