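import Fermat.Agent.TW.Transfer
import Fermat.Agent.CFT.HermiteS
import Fermat.Agent.Galois.PadicPlace
import Fermat.Agent.Galois.Cyclotomic

/-!
# Classes unramified outside a set, the archimedean place, and global invariants of `ad⁰`
-/

set_option autoImplicit false
set_option linter.style.haveILetI false

noncomputable section

open CategoryTheory groupCohomology ExtCitation Module
open scoped Pointwise TensorProduct

namespace Fermat.Agent.TW

local notation "Γℚ" => (AlgebraicClosure ℚ ≃ₐ[ℚ] AlgebraicClosure ℚ)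

section General

variable {R : Type} [CommRing R] (M : Rep.{0} R Γℚ) (S : Finset Nat.Primes)

/-- A level-constant cocycle vanishing on inertia outside `S` gives an `S`-ramified class. -/
theorem H1π_mem_continuousH1S_of_inertia [Module.Finite R M]
    (hsm : ∀ m : M, ∃ F : IntermediateField ℚ (AlgebraicClosure ℚ), FiniteDimensional ℚ F ∧
      ∀ s ∈ F.fixingSubgroup, M.ρ s m = m)
    (hMur : ∀ q : Nat.Primes, q ∉ S → ∀ A : ValuationSubring (AlgebraicClosure ℚ),
      A.LiesOverPrime (q : ℕ) → ∀ g ∈ A.inertiaSubgroupIn ℚ, M.ρ g = 1)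
    (c : cocycles₁ M) (hc : IsLevelConstant₁ (MonoidHom.id Γℚ) c)
    (h0 : ∀ q : Nat.Primes, q ∉ S → ∀ A : ValuationSubring (AlgebraicClosure ℚ),
      A.LiesOverPrime (q : ℕ) → ∀ g ∈ A.inertiaSubgroupIn ℚ, c g = 0) :
    (H1π M).hom c ∈ continuousH1S S M := by
  obtain ⟨F₀, hF₀u, hF₀⟩ := CFT.exists_unramifiedOutside_trivial M S hsm hMur
  obtain ⟨Fc, hFc, hcF⟩ := hc
  haveI := hFc
  haveI := hF₀u.1
  have hmul : ∀ g h, c (g * h) = M.ρ g (c h) + c g := (mem_cocycles₁_iff c.1).1 c.2
  let H : Subgroup Γℚ :=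
    { carrier := {g | g ∈ F₀.fixingSubgroup ∧ c g = 0}
      one_mem' := ⟨one_mem _, cocycles₁_map_one c⟩
      mul_mem' := fun {a b} ha hb => ⟨mul_mem ha.1 hb.1, by rw [hmul, ha.2, hb.2, map_zero, add_zero]⟩
      inv_mem' := fun {a} ha => ⟨inv_mem ha.1, by
        have h := hmul a⁻¹ a
        rw [inv_mul_cancel, cocycles₁_map_one, ha.2, map_zero, zero_add] at h
        exact h.symm⟩ }
  haveI : FiniteDimensional ℚ ↥(F₀ ⊔ Fc) := IntermediateField.finiteDimensional_sup F₀ Fc
  have hle : (F₀ ⊔ Fc).fixingSubgroup ≤ H := fun s hs => by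
    rw [IntermediateField.fixingSubgroup_sup] at hs
    refine ⟨hs.1, ?_⟩
    have h1 : c (1 * s) = c 1 := hcF 1 s hs.2
    simpa [cocycles₁_map_one] using h1
  have hfix := CFT.fixingSubgroup_fixedField_of_le hle
  refine (mem_continuousH1S_iff S M _).2 ⟨c, ⟨IntermediateField.fixedField H, ⟨?_, ?_⟩, ?_⟩, rfl⟩
  · exact FiniteDimensional.of_injective
      (IntermediateField.inclusion (CFT.fixedField_le_of_le hle)).toLinearMap
      (IntermediateField.inclusion_injective (CFT.fixedField_le_of_le hle))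
  · intro q hq A hA g hg
    rw [hfix]
    exact ⟨hF₀u.2 q hq A hA hg, h0 q hq A hA g hg⟩
  · intro g s hs
    rw [hfix] at hs
    rw [hmul g s, hs.2, map_zero, zero_add]

/-- A cocycle which is a coboundary at `q` vanishes on all inertia groups over `q` acting
trivially. -/
theorem eq_zero_on_inertia_of_locPrime_eq_zero (q : Nat.Primes) (c : cocycles₁ M)
    (h0 : locPrime q M ((H1π M).hom c) = 0)
    (hur : ∀ A : ValuationSubring (AlgebraicClosure ℚ),
      A.LiesOverPrime (q : ℕ) → ∀ g ∈ A.inertiaSubgroupIn ℚ, M.ρ g = 1)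
    (A : ValuationSubring (AlgebraicClosure ℚ)) (hA : A.LiesOverPrime (q : ℕ))
    (y : Γℚ) (hy : y ∈ A.inertiaSubgroupIn ℚ) : c y = 0 := by
  haveI : Fact (q : ℕ).Prime := ⟨q.2⟩
  unfold locPrime at h0
  rw [Transfer.map_H1π, H1π_eq_zero_iff] at h0
  obtain ⟨m, hm⟩ := h0
  obtain ⟨g, hg⟩ := Galois.exists_smul_eq hA (Galois.padicPlace_liesOverPrime (q : ℕ)) q.2
  have hyI : g * y * g⁻¹ ∈ (padicPlace (q : ℕ)).inertiaSubgroupIn ℚ := by
    rw [← hg, Galois.mem_inertia_smul_iff]
    simpa [mul_assoc] using hy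
  obtain ⟨τ, hτ⟩ : g * y * g⁻¹ ∈ (localGaloisToGlobal (q : ℕ)).range := by
    rw [Galois.localGaloisToGlobal_range]
    exact Galois.inertia_le_decomposition _ hyI
  have hcm : c (g * y * g⁻¹) = 0 := by
    have h := (congrFun hm τ).symm
    rw [← hτ]
    refine h.trans ?_
    show M.ρ (localGaloisToGlobal (q : ℕ) τ) m - m = 0
    rw [hτ, hur _ (Galois.padicPlace_liesOverPrime (q : ℕ)) _ hyI, Module.End.one_apply, sub_self]
  have hmul : ∀ g h, c (g * h) = M.ρ g (c h) + c g := (mem_cocycles₁_iff c.1).1 c.2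
  have e := hmul (g * y * g⁻¹) g
  rw [inv_mul_cancel_right, hmul g y, hcm, add_zero,
    hur _ (Galois.padicPlace_liesOverPrime (q : ℕ)) _ hyI, Module.End.one_apply, add_eq_right] at e
  have := congrArg (M.ρ g⁻¹) e
  rwa [← Module.End.mul_apply, ← map_mul, inv_mul_cancel, map_one, Module.End.one_apply,
    map_zero] at this

/-- If `2` is invertible, classes are trivial at the archimedean place. -/
theorem map_archimedeanLoc_eq_zero (h2 : IsUnit (2 : R)) (c : cocycles₁ M) :
    (groupCohomology.map archimedeanLoc (𝟙 (Rep.res archimedeanLoc M)) 1).hom ((H1π M).hom c)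
      = 0 := by
  rw [Transfer.map_H1π, H1π_eq_zero_iff]
  have hmul : ∀ g h, c (g * h) = M.ρ g (c h) + c g := (mem_cocycles₁_iff c.1).1 c.2
  obtain ⟨u, hu⟩ := h2
  set x := c complexConjugation with hx
  have hcx : M.ρ complexConjugation x + x = 0 := by
    rw [hx, ← hmul, complexConjugation_mul_self, cocycles₁_map_one]
  refine ⟨-((u⁻¹ : Rˣ) : R) • x, funext fun g => ?_⟩
  have hgen : (g : Γℚ) = 1 ∨ (g : Γℚ) = complexConjugation := by
    obtain ⟨i, hi⟩ := Subgroup.mem_zpowers_iff.1 g.2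
    rw [← hi]
    rcases Int.even_or_odd i with ⟨j, hj⟩ | ⟨j, hj⟩
    · left; rw [hj, zpow_add, ← (Commute.refl complexConjugation).mul_zpow, complexConjugation_mul_self, one_zpow]
    · right; rw [hj, zpow_add_one, zpow_mul, zpow_two, complexConjugation_mul_self, one_zpow,
        one_mul]
  show M.ρ (g : Γℚ) (-((u⁻¹ : Rˣ) : R) • x) - (-((u⁻¹ : Rˣ) : R) • x) = c (g : Γℚ)
  rcases hgen with h | h <;> rw [h]
  · rw [map_one, Module.End.one_apply, sub_self, cocycles₁_map_one]
  · rw [← hx, map_smul, eq_neg_of_add_eq_zero_left hcx, smul_neg, neg_smul, neg_neg, sub_neg_eq_add,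
      ← two_smul R, smul_smul, ← hu, Units.mul_inv, one_smul]

end General

section Ad

variable {k : Type} [Field k] (ρbar : ResidualGaloisRep k)

theorem ad0_smooth (m : ad0 ρbar) :
    ∃ F : IntermediateField ℚ (AlgebraicClosure ℚ), FiniteDimensional ℚ F ∧
      ∀ s ∈ F.fixingSubgroup, (ad0 ρbar).ρ s m = m := by
  obtain ⟨F, hF, hρ⟩ := ρbar.factorsThroughFiniteLevel
  refine ⟨F, hF, fun s hs => Subtype.ext ?_⟩
  rw [ad0_rho_coe, hρ s ((IntermediateField.mem_fixingSubgroup_iff _ _).1 hs),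
    hρ _ ((IntermediateField.mem_fixingSubgroup_iff _ _).1 (inv_mem hs)), one_mul, mul_one]

theorem ad0_rho_eq_one {g : Γℚ} (hg : ρbar.ρ g = 1) : (ad0 ρbar).ρ g = 1 := by
  refine LinearMap.ext fun m => Subtype.ext ?_
  have h : ρbar.ρ g⁻¹ = 1 := by
    calc ρbar.ρ g⁻¹ = ρbar.ρ g⁻¹ * ρbar.ρ g := by rw [hg, mul_one]
      _ = 1 := by rw [← map_mul, inv_mul_cancel, map_one]
  rw [ad0_rho_coe, hg, h, one_mul, mul_one]
  rfl

/-- If the lift is unramified at inertia element `g`, the cocycle vanishes there. -/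
theorem cocycle_eq_zero_of_adLiftEnd_eq_one (c : cocycles₁ (ad0 ρbar)) {g : Γℚ}
    (hg : ρbar.ρ g = 1) (h : adLiftEnd ρbar c g = 1) : c g = 0 := by
  refine Subtype.ext (LinearMap.ext fun v => ?_)
  have h1 := LinearMap.congr_fun h ((1 : DualNumber k) ⊗ₜ[k] v)
  rw [adLiftEnd_tmul, hg, Module.End.one_apply, Module.End.one_apply, add_eq_left, mul_one] at h1
  have h2 := congrArg (fun x => TensorProduct.lid k ρbar.V
    ((TrivSqZeroExt.sndHom k k).rTensor ρbar.V x)) h1
  simpa using h2

/-- Absolute irreducibility and odd `p`: `ad⁰` has no invariants. -/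
theorem invariants_ad0_eq_bot (habs : ρbar.IsAbsolutelyIrreducible) (h2 : (2 : k) ≠ 0) :
    (ad0 ρbar).ρ.invariants = ⊥ := by
  refine (Submodule.eq_bot_iff _).2 fun X hX => ?_
  set K := AlgebraicClosure k
  set Y : Module.End K (K ⊗[k] ρbar.V) := (X : adZeroSpace ρbar).1.baseChange K with hY
  haveI : Nontrivial (K ⊗[k] ρbar.V) := by
    refine Module.nontrivial_of_finrank_pos (R := K) ?_
    rw [Module.finrank_baseChange, ρbar.finrank_eq]
    norm_num
  obtain ⟨μ, hμ⟩ := Module.End.exists_eigenvalue Y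
  have hcomm : ∀ σ, ρbar.ρ σ * (X : adZeroSpace ρbar).1 = (X : adZeroSpace ρbar).1 * ρbar.ρ σ := by
    intro σ
    have h := congrArg Subtype.val (hX σ)
    rw [ad0_rho_coe] at h
    calc ρbar.ρ σ * (X : adZeroSpace ρbar).1
        = ρbar.ρ σ * ((X : adZeroSpace ρbar).1 * ρbar.ρ σ⁻¹) * ρbar.ρ σ := by
          rw [← mul_assoc, mul_assoc (ρbar.ρ σ * _), rhoInvMul, mul_one]
      _ = (X : adZeroSpace ρbar).1 * ρbar.ρ σ := by rw [h]
  have hinv : ∀ (σ : Γℚ), ∀ x ∈ Y.eigenspace μ,
      (ρbar.ρ σ).baseChange K x ∈ Y.eigenspace μ := by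
    intro σ x hx
    rw [Module.End.mem_eigenspace_iff] at hx ⊢
    show Y ((ρbar.ρ σ).baseChange K x) = μ • (ρbar.ρ σ).baseChange K x
    rw [← map_smul, ← hx, hY, ← Module.End.mul_apply, ← LinearMap.baseChange_mul, ← hcomm,
    LinearMap.baseChange_mul, Module.End.mul_apply]
  rcases habs (Y.eigenspace μ) hinv with hbot | htop
  · exact absurd hbot hμ
  · have hscal : Y = μ • 1 := by
      refine LinearMap.ext fun x => ?_
      have : x ∈ Y.eigenspace μ := by rw [htop]; exact Submodule.mem_top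
      simpa using Module.End.mem_eigenspace_iff.1 this
    have htr : LinearMap.trace K _ Y = 0 := by
      rw [hY, LinearMap.trace_baseChange, LinearMap.mem_ker.1 (X : adZeroSpace ρbar).2, map_zero]
    rw [hscal, map_smul, LinearMap.trace_one, Module.finrank_baseChange, ρbar.finrank_eq,
      smul_eq_mul] at htr
    have h2K : ((2 : ℕ) : K) ≠ 0 := by
      rw [← map_natCast (algebraMap k K)]
      exact (map_ne_zero _).2 (by exact_mod_cast h2)
    have hY0 : Y = 0 := by
      rw [hscal, (mul_eq_zero.1 htr).resolve_right h2K, zero_smul]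
    refine Subtype.ext (LinearMap.ext fun v => ?_)
    have hv : (1 : K) ⊗ₜ[k] ((X : adZeroSpace ρbar).1 v) = 0 := by
      rw [← LinearMap.baseChange_tmul, ← hY, hY0, LinearMap.zero_apply]
    let b := Module.finBasisOfFinrankEq k ρbar.V ρbar.finrank_eq
    refine b.repr.injective (Finsupp.ext fun i => (algebraMap k K).injective ?_)
    have h := congrArg (fun z => (b.baseChange K).repr z i) hv
    simpa [Module.Basis.baseChange_repr_tmul, Algebra.smul_def] using h

/-- Complex conjugation gives a nonzero invariant at the archimedean place. -/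
theorem one_le_finrank_invariants_archimedean (h2 : (2 : k) ≠ 0)
    (hc : LinearMap.det (ρbar.ρ complexConjugation) = -1) :
    1 ≤ finrank k (Rep.res archimedeanLoc (ad0 ρbar)).ρ.invariants := by
  set C := ρbar.ρ complexConjugation with hC
  have hCC : C * C = 1 := by rw [hC, ← map_mul, complexConjugation_mul_self, map_one]
  let b := Module.finBasisOfFinrankEq k ρbar.V ρbar.finrank_eq
  set A := LinearMap.toMatrix b b C with hA
  have hAA : A * A = 1 := by rw [hA, ← LinearMap.toMatrix_mul, hCC, LinearMap.toMatrix_one]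
  have hdetA : A.det = -1 := by rw [hA, LinearMap.det_toMatrix, hc]
  have hne : C ≠ 0 := by
    intro h
    have h1 : A = 0 := by rw [hA, h, map_zero]
    rw [h1, Matrix.det_fin_two] at hdetA
    simp at hdetA
  have htr : C ∈ adZeroSpace ρbar := by
    rw [LinearMap.mem_ker, LinearMap.trace_eq_matrix_trace k b, ← hA, Matrix.trace_fin_two]
    have e00 := congrFun (congrFun hAA 0) 0
    have e01 := congrFun (congrFun hAA 0) 1
    have e10 := congrFun (congrFun hAA 1) 0
    have e11 := congrFun (congrFun hAA 1) 1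
    simp [Matrix.mul_apply, Fin.sum_univ_two] at e00 e01 e10 e11
    rw [Matrix.det_fin_two] at hdetA
    by_contra hs
    have ha : A 0 0 = 0 := mul_right_cancel₀ hs (by linear_combination e00 + hdetA)
    have hd : A 1 1 = 0 := mul_right_cancel₀ hs (by linear_combination e11 + hdetA)
    exact hs (by rw [ha, hd, add_zero])
  have hinv : ∀ g : archimedeanDecomposition,
      (Rep.res archimedeanLoc (ad0 ρbar)).ρ g (⟨C, htr⟩ : adZeroSpace ρbar) = ⟨C, htr⟩ := by
    intro g
    obtain ⟨i, hi⟩ := Subgroup.mem_zpowers_iff.1 g.2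
    have hcomm : (g : Γℚ) * complexConjugation = complexConjugation * (g : Γℚ) := by
      rw [← hi]
      exact (Commute.self_zpow complexConjugation i).eq.symm
    refine Subtype.ext ?_
    show ρbar.ρ (g : Γℚ) * (C * ρbar.ρ (g : Γℚ)⁻¹) = C
    rw [← mul_assoc, hC, ← map_mul, hcomm, map_mul, mul_assoc, rhoMulInv, mul_one]
  refine Submodule.one_le_finrank_iff.2 fun hbot => hne ?_
  have hmem : (⟨C, htr⟩ : adZeroSpace ρbar) ∈
      (Rep.res archimedeanLoc (ad0 ρbar)).ρ.invariants := hinv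
  exact congrArg Subtype.val ((Submodule.eq_bot_iff _).1 hbot _ hmem)

end Ad

end Fermat.Agent.TW
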