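import Fermat.Agent.TW.Ad
import Fermat.Agent.CFT.Interface.GlobalEuler
import Fermat.Agent.CFT.Interface.GlobalPerm
import Fermat.Agent.CFT.GlobalPerm.Kummer
import Fermat.Agent.CFT.Sha.Counting
import Fermat.Agent.CFT.Sha.UniversalExt

/-!
# The Greenberg–Wiles bound when the dual Selmer group is killed by the primes in `T`
-/

set_option autoImplicit false
set_option linter.style.haveILetI false

noncomputable section

open CategoryTheory groupCohomology ExtCitation Module

namespace Fermat.Agent.TW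

open Fermat.Agent.CFT Fermat.Agent.CFT.Sha

variable {p : ℕ} [Fact p.Prime]

theorem cycloChar_complexConjugation :
    (cycloChar p complexConjugation : ZMod p) = -1 := by
  have h1 : muInc p (1 : ZMod p) ^ p = 1 := muInc_pow_eq_one 1
  have h := gal_muInc (p := p) complexConjugation 1
  rw [mul_one] at h
  have h2 : muInc p (cycloChar p complexConjugation : ZMod p) = muInc p (-1) := by
    apply Units.ext
    rw [← h, show (-1 : ZMod p) = 0 - 1 from (zero_sub _).symm, muInc_sub, muInc_zero, one_div,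
      Units.val_inv_eq_inv_val]
    apply complexEmbedding.toRingHom.injective
    show complexEmbedding _ = complexEmbedding _
    rw [complexEmbedding_complexConjugation, map_inv₀, Complex.inv_eq_conj]
    refine Complex.norm_eq_one_of_pow_eq_one (n := p) ?_ (Fact.out : p.Prime).ne_zero
    rw [← map_pow, ← Units.val_pow_eq_pow_val, h1, Units.val_one, map_one]
  exact muInc_injective h2

/-- Smoothness of the twisted dual at level `S`. -/
theorem isSmoothRep_dualTwist {S : Finset Nat.Primes} (hpS : pPrime p ∈ S)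
    (M : Rep.{0} (ZMod p) GQ) [FiniteDimensional (ZMod p) M]
    (hM : IsSmoothRep (Levels.unr S) (MonoidHom.id GQ) M) :
    IsSmoothRep (Levels.unr S) (MonoidHom.id GQ) (M.dualTwist (cycloChar p)) := by
  intro f
  haveI : Finite M := Module.finite_of_finite (ZMod p)
  obtain ⟨F, hF, hfix⟩ := IsSmoothRep.exists_fix hM (Set.finite_range (id : M → M))
  obtain ⟨F', hF', hfix'⟩ := isSmoothRep_muRep_of_unr (p := p) hpS (1 : ZMod p)
  refine ⟨F ⊔ F', hF.sup hF', fun s hs => ?_⟩
  have h1 : (cycloChar p s : ZMod p) = 1 := by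
    have := hfix' s (IntermediateField.fixingSubgroup_antitone le_sup_right hs)
    rwa [muRep_apply, mul_one] at this
  have hs' : s⁻¹ ∈ F.fixingSubgroup :=
    inv_mem (IntermediateField.fixingSubgroup_antitone le_sup_left hs)
  change ((cycloChar p s : ZMod p) • ((f : Module.Dual (ZMod p) M) ∘ₗ M.ρ s⁻¹)) = f
  rw [h1, one_smul]
  exact LinearMap.ext fun m => congrArg (f : Module.Dual (ZMod p) M) (hfix s⁻¹ hs' m)

/-- `h⁰(ℝ, M^∨(1)) + h⁰(ℝ, M) ≤ dim M`. -/
theorem invariants_archimedean_add_le (hp2 : p ≠ 2) (M : Rep.{0} (ZMod p) GQ)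
    [FiniteDimensional (ZMod p) M] :
    finrank (ZMod p) (Rep.res archimedeanLoc (M.dualTwist (cycloChar p))).ρ.invariants +
      finrank (ZMod p) (Rep.res archimedeanLoc M).ρ.invariants ≤ finrank (ZMod p) M := by
  have hle : ((Rep.res archimedeanLoc (M.dualTwist (cycloChar p))).ρ.invariants :
      Submodule (ZMod p) (Module.Dual (ZMod p) M)) ≤
      ((Rep.res archimedeanLoc M).ρ.invariants : Submodule (ZMod p) M).dualAnnihilator := by
    intro f hf
    rw [Submodule.mem_dualAnnihilator]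
    intro m hm
    have e1 : ((cycloChar p complexConjugation : ZMod p) •
        ((f : Module.Dual (ZMod p) M) ∘ₗ M.ρ complexConjugation⁻¹)) = f := hf archimedeanGen
    have e2 : M.ρ complexConjugation m = m := hm archimedeanGen
    have e3 := LinearMap.congr_fun e1 m
    rw [LinearMap.smul_apply, LinearMap.comp_apply, complexConjugation_inv, e2,
      cycloChar_complexConjugation, neg_smul, one_smul] at e3
    have e4 : (2 : ZMod p) * f m = 0 := by linear_combination -e3
    refine (mul_eq_zero.1 e4).resolve_left fun h2 => ?_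
    have h2' : ((2 : ℕ) : ZMod p) = 0 := by exact_mod_cast h2
    exact hp2 ((Nat.prime_dvd_prime_iff_eq (Fact.out : p.Prime) Nat.prime_two).1
      ((CharP.cast_eq_zero_iff (ZMod p) p 2).1 h2'))
  have h := Submodule.finrank_mono hle
  have h' := Subspace.finrank_add_finrank_dualAnnihilator_eq
    ((Rep.res archimedeanLoc M).ρ.invariants : Submodule (ZMod p) M)
  change finrank (ZMod p) ((Rep.res archimedeanLoc M).ρ.invariants : Submodule (ZMod p) M) + _ = _ at h'
  calc _ ≤ _ + _ := Nat.add_le_add_right h _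
    _ = finrank (ZMod p) M := (Nat.add_comm _ _).trans h'

/-- The Selmer group against the dual Tate–Shafarevich count. -/
theorem finrank_selmer_add_le (hp2 : p ≠ 2) (S T : Finset Nat.Primes) (hpS : pPrime p ∈ S)
    (hTS : T ⊆ S) (M : Rep.{0} (ZMod p) GQ) [FiniteDimensional (ZMod p) M]
    (hM : IsSmoothRep (Levels.unr S) (MonoidHom.id GQ) M)
    (hA : IsSmoothRep (Levels.unr S) (MonoidHom.id GQ) (M.dualTwist (cycloChar p)))
    (L : ∀ q : ↥S, Submodule (ZMod p) (Lo1 q.1 M))
    (hLT : ∀ q : ↥S, q.1 ∈ T → L q = ⊤)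
    (hkill : ∀ y ∈ G1 S (M.dualTwist (cycloChar p)),
      (∀ q ∈ T, locH1 q (M.dualTwist (cycloChar p)) y = 0) → y = 0)
    (Sel : Submodule (ZMod p) (G1 S M))
    (hSel : ∀ x ∈ Sel, ∀ q : ↥S, loc1 S q.1 M x ∈ L q) :
    finrank (ZMod p) Sel + finrank (ZMod p) (G1 S (M.dualTwist (cycloChar p))) ≤
      finrank (ZMod p) (Sha1 S M) + ∑ q : ↥S, finrank (ZMod p) (L q) := by
  classical
  set A := M.dualTwist (cycloChar p) with hAdef
  haveI : FiniteDimensional (ZMod p) A :=
    inferInstanceAs (FiniteDimensional (ZMod p) (Module.Dual (ZMod p) M))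
  haveI := finite_H1c_unr S hpS M hM
  haveI := finite_H1c_unr S hpS A hA
  haveI : ∀ q : ↥S, FiniteDimensional (ZMod p) (Lo1 q.1 M) := fun q => by
    haveI : FiniteDimensional (ZMod p) (MLoc q.1 M) := ‹FiniteDimensional (ZMod p) M›
    exact finite_H1c hp2 q.1 (isSmoothRep_loc hM q.1)
  let P := evalPair M
  let Φ : Sel →ₗ[ZMod p] ∀ q : ↥S, L q :=
    LinearMap.pi fun q => ((loc1 S q.1 M).comp Sel.subtype).codRestrict (L q)
      fun x => hSel x.1 x.2 q
  let Ψ : G1 S A →ₗ[ZMod p] Dual (ZMod p) (∀ q : ↥S, L q) :=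
    ∑ q : ↥S, (LinearMap.lcomp (ZMod p) (ZMod p) ((L q).subtype.comp (LinearMap.proj q))).comp
      ((pairLoc P hM q.1).comp (loc1 S q.1 A))
  have hΨ : ∀ y m, Ψ y m = ∑ q : ↥S, pairLoc P hM q.1 (loc1 S q.1 A y) (m q : Lo1 q.1 M) :=
    fun y m => by simp [Ψ, LinearMap.sum_apply]
  have hinj : Function.Injective Ψ := by
    refine (injective_iff_map_eq_zero _).2 fun y hy => Subtype.ext (hkill y.1 y.2 fun q hq => ?_)
    have h0 : loc1 S q A y = 0 := by
      refine pairLoc_injective hp2 hA hM P q ?_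
      rw [map_zero]
      refine LinearMap.ext fun m => ?_
      have hm : m ∈ L ⟨q, hTS hq⟩ := by rw [hLT ⟨q, hTS hq⟩ hq]; exact Submodule.mem_top
      have e := LinearMap.congr_fun hy (Pi.single (⟨q, hTS hq⟩ : ↥S) ⟨m, hm⟩)
      rw [hΨ, Finset.sum_eq_single (⟨q, hTS hq⟩ : ↥S) (fun q' _ hne => by
        rw [Pi.single_eq_of_ne hne, ZeroMemClass.coe_zero, map_zero])
        (fun h => absurd (Finset.mem_univ _) h), Pi.single_eq_same] at e
      simpa using e
    exact congrArg Subtype.val h0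
  have hle : LinearMap.range Ψ ≤ (LinearMap.range Φ).dualAnnihilator := by
    rintro _ ⟨y, rfl⟩
    rw [Submodule.mem_dualAnnihilator]
    rintro _ ⟨x, rfl⟩
    rw [hΨ]
    exact sum_pairLoc_eq_zero hp2 hpS hM P y x.1
  have hk : (LinearMap.ker Φ).map Sel.subtype ≤ Sha1 S M := by
    rintro _ ⟨x, hx, rfl⟩
    refine LinearMap.mem_ker.2 (funext fun q => ?_)
    exact congrArg Subtype.val (congrFun (LinearMap.mem_ker.1 hx) q)
  have h1 := LinearMap.finrank_range_add_finrank_ker Φ
  have h2 := LinearMap.finrank_range_of_inj hinj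
  have h3 := Submodule.finrank_mono hle
  have h4 := Subspace.finrank_add_finrank_dualAnnihilator_eq (LinearMap.range Φ)
  have h5 := Submodule.finrank_mono hk
  rw [Submodule.finrank_map_subtype_eq] at h5
  have h6 : finrank (ZMod p) (∀ q : ↥S, L q) = ∑ q : ↥S, finrank (ZMod p) (L q) :=
    Module.finrank_pi_fintype (ZMod p)
  omega

/-- The Greenberg–Wiles bound when the dual Selmer group has been killed by the primes in `T`. -/
theorem greenbergWiles_bound {p : ℕ} [Fact p.Prime] (hp2 : p ≠ 2)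
    (S T : Finset Nat.Primes) (hpS : pPrime p ∈ S) (hTS : T ⊆ S)
    (M : Rep (ZMod p) GQ) [FiniteDimensional (ZMod p) M]
    (hsm : ∀ m : M, ∃ F : IntermediateField ℚ (AlgebraicClosure ℚ), FiniteDimensional ℚ F ∧
      ∀ s ∈ F.fixingSubgroup, M.ρ s m = m)
    (hMur : ∀ q : Nat.Primes, q ∉ S → ∀ A : ValuationSubring (AlgebraicClosure ℚ),
      A.LiesOverPrime (q : ℕ) → ∀ g ∈ A.inertiaSubgroupIn ℚ, M.ρ g = 1)
    (L : ∀ v : extArithIndex S, Submodule (ZMod p) (H1 (Rep.res (extArithLoc S v) M)))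
    (hLfin : ∀ v, FiniteDimensional (ZMod p) (L v))
    (hLcont : ∀ v, L v ≤ continuousH1 (extArithLoc S v) (Rep.res (extArithLoc S v) M))
    (hLT : ∀ v : extArithIndex S, (∃ q : ↥S, q.1 ∈ T ∧ v = Sum.inr q) →
      continuousH1 (extArithLoc S v) (Rep.res (extArithLoc S v) M) ≤ L v)
    (hkill : ∀ y ∈ continuousH1S S (M.dualTwist (cycloChar p)),
      (∀ q ∈ T, locPrime q (M.dualTwist (cycloChar p)) y = 0) → y = 0) :
    finrank (ZMod p) (selmerAdm (extArithLoc S) M L (continuousH1S S M))
        + finrank (ZMod p) (M.dualTwist (cycloChar p)).ρ.invariants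
        + ∑ v, finrank (ZMod p) (Rep.res (extArithLoc S v) M).ρ.invariants
      ≤ finrank (ZMod p) M.ρ.invariants + ∑ v, finrank (ZMod p) (L v) := by
  classical
  have hM := isSmoothRep_unr S M hsm hMur
  have hA := isSmoothRep_dualTwist hpS M hM
  haveI : FiniteDimensional (ZMod p) (M.dualTwist (cycloChar p)) :=
    inferInstanceAs (FiniteDimensional (ZMod p) (Module.Dual (ZMod p) M))
  haveI := finite_H2c_unr hp2 S hpS (M.dualTwist (cycloChar p)) hA
  haveI := finite_H1c_unr S hpS M hM
  let L' : ∀ q : ↥S, Submodule (ZMod p) (Lo1 q.1 M) := fun q =>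
    Submodule.comap (Lo1 q.1 M).subtype (L (Sum.inr q))
  have eL : ∀ q : ↥S, finrank (ZMod p) (L' q) = finrank (ZMod p) (L (Sum.inr q)) := fun q =>
    (Submodule.comapSubtypeEquivOfLe (hLcont (Sum.inr q))).finrank_eq
  have hSel' : selmerAdm (extArithLoc S) M L (continuousH1S S M) ≤ G1 S M :=
    selmerAdm_le_adm _ _ _ _
  have key := finrank_selmer_add_le hp2 S T hpS hTS M hM hA L'
    (fun q hq => eq_top_iff.2 fun x _ => hLT (Sum.inr q) ⟨q, hq, rfl⟩ x.2)
    hkill
    ((selmerAdm (extArithLoc S) M L (continuousH1S S M)).comap (G1 S M).subtype)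
    (fun x hx q => ((mem_selmerAdm_iff _ M L _ _).1 hx).1 (Sum.inr q))
  rw [(Submodule.comapSubtypeEquivOfLe hSel').finrank_eq,
    Finset.sum_congr rfl fun q _ => eL q] at key
  have hsha := finrank_sha1_le hp2 hpS hM hA (evalPair M).swap
  have hG2 := finrank_G2_add hp2 hpS hM hA (evalPair M).swap
    (exact_H2 hp2 hpS hM hA (evalPair M).swap)
  have hE := global_euler_le hp2 S hpS (M.dualTwist (cycloChar p)) hA
  have hinf := invariants_archimedean_add_le hp2 M
  have hd : finrank (ZMod p) (M.dualTwist (cycloChar p)) = finrank (ZMod p) M :=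
    Rep.finrank_dualTwist (ZMod p) M (cycloChar p)
  have s1 : ∑ v, finrank (ZMod p) (Rep.res (extArithLoc S v) M).ρ.invariants =
      finrank (ZMod p) (Rep.res archimedeanLoc M).ρ.invariants +
        ∑ q : ↥S, finrank (ZMod p) (MLoc q.1 M).ρ.invariants :=
    (Fintype.sum_sum_type _).trans (congrArg (· + _) (Fintype.sum_unique _))
  have s2 : ∑ v, finrank (ZMod p) (L v) =
      finrank (ZMod p) (L (Sum.inl ())) + ∑ q : ↥S, finrank (ZMod p) (L (Sum.inr q)) :=
    (Fintype.sum_sum_type _).trans (congrArg (· + _) (Fintype.sum_unique _))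
  omega

end Fermat.Agent.TW
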