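import Fermat.Agent.TW.Transfer
import Fermat.Agent.TW.GWBound

/-!
# The Greenberg–Wiles bound for `ad⁰ ρbar`, counted over `k`

`ad⁰ ρbar` is regarded as an `𝔽_p`-module; its Tate dual is identified with `ad⁰ ρbar (1)` through
the trace form, and `𝔽_p`-dimensions are converted to `k`-dimensions by counting points.
-/

set_option autoImplicit false
set_option linter.style.haveILetI false

noncomputable section

open CategoryTheory groupCohomology ExtCitation Module
open Fermat.Agent.TW.Transfer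

namespace Fermat.Agent.TW

local notation "Γℚ" => (AlgebraicClosure ℚ ≃ₐ[ℚ] AlgebraicClosure ℚ)

variable {k : Type} [Field k] [Finite k] (ρbar : ResidualGaloisRep k)
variable (p : ℕ) [Fact p.Prime] [CharP k p]

instance finiteAdZeroSpace : Finite (adZeroSpace ρbar) := Module.finite_of_finite k

/-- `ad⁰` as a vector space over `ZMod p`. -/
@[reducible] def adFpModule : Module (ZMod p) (adZeroSpace ρbar) :=
  Module.compHom _ (ZMod.castHom dvd_rfl k : ZMod p →+* k)

/-- `ad⁰ ρbar` as an `𝔽_p`-representation. -/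
def adFpRep :
    letI := adFpModule ρbar p
    Representation (ZMod p) Γℚ (adZeroSpace ρbar) :=
  letI := adFpModule ρbar p
  { toFun := fun σ =>
      { toFun := fun X => adZeroRep ρbar σ X
        map_add' := fun X Y => map_add _ X Y
        map_smul' := fun a X => map_smul (adZeroRep ρbar σ) (ZMod.castHom dvd_rfl k a : k) X }
    map_one' := LinearMap.ext fun X => by
      show adZeroRep ρbar 1 X = X
      rw [map_one, Module.End.one_apply]
    map_mul' := fun σ τ => LinearMap.ext fun X => by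
      show adZeroRep ρbar (σ * τ) X = adZeroRep ρbar σ (adZeroRep ρbar τ X)
      rw [map_mul, Module.End.mul_apply] }

/-- `ad⁰ ρbar` in `Rep (ZMod p)`. -/
def ad0Fp : Rep (ZMod p) Γℚ :=
  letI := adFpModule ρbar p
  Rep.of (adFpRep ρbar p)

/-- The identity `ad⁰ → ad⁰`. -/
def fpEquiv : ad0 ρbar ≃+ ad0Fp ρbar p := AddEquiv.refl _

theorem fpEquiv_comm (σ : Γℚ) (a : ad0 ρbar) :
    fpEquiv ρbar p ((ad0 ρbar).ρ σ a) = (ad0Fp ρbar p).ρ σ (fpEquiv ρbar p a) := rfl

instance finiteDimensionalAd0Fp : FiniteDimensional (ZMod p) (ad0Fp ρbar p) :=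
  haveI : Finite (ad0Fp ρbar p) := finiteAdZeroSpace ρbar
  Module.Finite.of_finite

/-- `x ↦ τ (tr (X ·))` into the Tate dual. -/
def dualPair (X : ad0Tw ρbar p) : (ad0Fp ρbar p).dualTwist (cycloChar p) :=
  letI : Algebra (ZMod p) k := ZMod.algebra k p
  letI := adFpModule ρbar p
  ((
    { toFun := fun Y : adZeroSpace ρbar =>
        Algebra.trace (ZMod p) k (LinearMap.trace k ρbar.V ((X : adZeroSpace ρbar).1 * Y.1))
      map_zero' := by simp
      map_add' := fun Y Z => by simp [mul_add] } : adZeroSpace ρbar →+ ZMod p).toZModLinearMap p)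

theorem dualPair_apply (X : ad0Tw ρbar p) (Y : adZeroSpace ρbar) :
    letI : Algebra (ZMod p) k := ZMod.algebra k p
    dualPair ρbar p X Y
      = Algebra.trace (ZMod p) k (LinearMap.trace k ρbar.V ((X : adZeroSpace ρbar).1 * Y.1)) :=
  rfl

theorem dualPair_injective (hp2 : p ≠ 2) : Function.Injective (dualPair ρbar p) := by
  letI : Algebra (ZMod p) k := ZMod.algebra k p
  intro X X' hXX
  set D : Module.End k ρbar.V := (X : adZeroSpace ρbar).1 - (X' : adZeroSpace ρbar).1 with hD
  have hτ : ∀ Y : adZeroSpace ρbar, LinearMap.trace k ρbar.V (D * Y.1) = 0 := by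
    intro Y
    by_contra hne
    obtain ⟨a, ha⟩ : ∃ a : k, Algebra.trace (ZMod p) k a ≠ 0 := by
      obtain ⟨a, ha⟩ := Algebra.trace_surjective (ZMod p) k 1
      exact ⟨a, by rw [ha]; exact one_ne_zero⟩
    set t : k := LinearMap.trace k ρbar.V (D * Y.1) with ht
    have h1 : Algebra.trace (ZMod p) k (LinearMap.trace k ρbar.V
          ((X : adZeroSpace ρbar).1 * (((a / t) • Y : adZeroSpace ρbar)).1))
        = Algebra.trace (ZMod p) k (LinearMap.trace k ρbar.V
          ((X' : adZeroSpace ρbar).1 * (((a / t) • Y : adZeroSpace ρbar)).1)) :=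
      DFunLike.congr_fun hXX ((a / t) • Y)
    rw [← sub_eq_zero, ← map_sub, ← map_sub, ← sub_mul, ← hD, SetLike.val_smul, mul_smul_comm,
      map_smul, smul_eq_mul, ← ht, div_mul_cancel₀ a hne] at h1
    exact ha h1
  have h2 : (2 : k) ≠ 0 := by
    intro h
    have h' : ((2 : ℕ) : k) = 0 := by exact_mod_cast h
    rw [CharP.cast_eq_zero_iff k p 2] at h'
    exact hp2 ((Nat.prime_dvd_prime_iff_eq (Fact.out) Nat.prime_two).1 h')
  have hDtr : LinearMap.trace k ρbar.V D = 0 := by
    rw [hD, map_sub, LinearMap.mem_ker.1 (X : adZeroSpace ρbar).2,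
      LinearMap.mem_ker.1 (X' : adZeroSpace ρbar).2, sub_zero]
  have hall : ∀ Z : Module.End k ρbar.V, LinearMap.trace k ρbar.V (D * Z) = 0 := by
    intro Z
    have hZ : Z - (LinearMap.trace k ρbar.V Z / 2) • (1 : Module.End k ρbar.V)
        ∈ adZeroSpace ρbar := by
      rw [LinearMap.mem_ker, map_sub, map_smul, LinearMap.trace_one, ρbar.finrank_eq, smul_eq_mul,
        Nat.cast_two, div_mul_cancel₀ _ h2, sub_self]
    have := hτ ⟨_, hZ⟩
    rwa [mul_sub, map_sub, mul_smul_comm, mul_one, map_smul, hDtr, smul_zero, sub_zero] at this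
  have hD0 : D = 0 := by
    refine LinearMap.ext fun v => ?_
    rw [LinearMap.zero_apply, ← Module.forall_dual_apply_eq_zero_iff k]
    intro f
    have := hall (f.smulRight v)
    rw [show D * f.smulRight v = f.smulRight (D v) from
      LinearMap.ext fun w => by simp [LinearMap.smulRight_apply], LinearMap.trace_smulRight] at this
    exact this
  exact Subtype.ext (sub_eq_zero.1 hD0)

theorem natCard_zmod_dual {V : Type} [AddCommGroup V] [Module (ZMod p) V] [Finite V] :
    Nat.card (Module.Dual (ZMod p) V) = Nat.card V := by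
  haveI : Module.Finite (ZMod p) V := Module.Finite.of_finite
  rw [Module.natCard_eq_pow_finrank (K := ZMod p), Module.natCard_eq_pow_finrank (K := ZMod p) (V := V),
    Subspace.dual_finrank_eq]

theorem dualPair_bijective (hp2 : p ≠ 2) : Function.Bijective (dualPair ρbar p) := by
  letI := adFpModule ρbar p
  haveI : Finite ((ad0Fp ρbar p).dualTwist (cycloChar p)) :=
    show Finite (Module.Dual (ZMod p) (adZeroSpace ρbar)) from Nat.finite_of_card_ne_zero
      (by rw [natCard_zmod_dual p]; exact Nat.card_pos.ne')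
  refine (dualPair_injective ρbar p hp2).bijective_of_nat_card_le ?_
  show Nat.card (Module.Dual (ZMod p) (adZeroSpace ρbar)) ≤ Nat.card (adZeroSpace ρbar)
  rw [natCard_zmod_dual p]

/-- The trace-form identification of `ad⁰(1)` with the Tate dual of `ad⁰`. -/
def dualEquiv (hp2 : p ≠ 2) : ad0Tw ρbar p ≃+ (ad0Fp ρbar p).dualTwist (cycloChar p) :=
  AddEquiv.ofBijective
    ({ toFun := dualPair ρbar p
       map_zero' := by
         letI : Algebra (ZMod p) k := ZMod.algebra k p
         refine LinearMap.ext fun (Y : adZeroSpace ρbar) => ?_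
         show Algebra.trace (ZMod p) k (LinearMap.trace k ρbar.V
           ((0 : adZeroSpace ρbar).1 * Y.1)) = 0
         simp
       map_add' := fun X Y => by
         letI : Algebra (ZMod p) k := ZMod.algebra k p
         refine LinearMap.ext fun (Z : adZeroSpace ρbar) => ?_
         show Algebra.trace (ZMod p) k (LinearMap.trace k ρbar.V
             (((X : adZeroSpace ρbar) + (Y : adZeroSpace ρbar)).1 * Z.1))
           = Algebra.trace (ZMod p) k (LinearMap.trace k ρbar.V ((X : adZeroSpace ρbar).1 * Z.1))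
             + Algebra.trace (ZMod p) k (LinearMap.trace k ρbar.V ((Y : adZeroSpace ρbar).1 * Z.1))
         simp [add_mul] } : ad0Tw ρbar p →+ _)
    (dualPair_bijective ρbar p hp2)

theorem dualEquiv_comm (hp2 : p ≠ 2) (σ : Γℚ) (X : ad0Tw ρbar p) :
    dualEquiv ρbar p hp2 ((ad0Tw ρbar p).ρ σ X)
      = ((ad0Fp ρbar p).dualTwist (cycloChar p)).ρ σ (dualEquiv ρbar p hp2 X) := by
  letI : Algebra (ZMod p) k := ZMod.algebra k p
  letI := adFpModule ρbar p
  refine LinearMap.ext fun (Y : adZeroSpace ρbar) => ?_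
  show Algebra.trace (ZMod p) k (LinearMap.trace k ρbar.V
      ((((cycloK (k := k) p σ : kˣ) : k) • adZeroRep ρbar σ X).1 * Y.1))
    = ((cycloChar p σ : (ZMod p)ˣ) : ZMod p) • Algebra.trace (ZMod p) k
        (LinearMap.trace k ρbar.V ((X : adZeroSpace ρbar).1 * (adZeroRep ρbar σ⁻¹ Y).1))
  have h1 : ((cycloK (k := k) p σ : kˣ) : k)
      = algebraMap (ZMod p) k ((cycloChar p σ : (ZMod p)ˣ) : ZMod p) := rfl
  rw [SetLike.val_smul, smul_mul_assoc, map_smul, smul_eq_mul, h1, ← Algebra.smul_def, map_smul]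
  congr 2
  show LinearMap.trace k ρbar.V (ρbar.ρ σ * ((X : adZeroSpace ρbar).1 * ρbar.ρ σ⁻¹) * Y.1)
    = LinearMap.trace k ρbar.V
        ((X : adZeroSpace ρbar).1 * (ρbar.ρ σ⁻¹ * (Y.1 * ρbar.ρ σ⁻¹⁻¹)))
  rw [inv_inv, mul_assoc, LinearMap.trace_mul_comm]
  simp only [mul_assoc]

variable {p}

theorem finrank_zmod_of_natCard_eq {V W : Type} [AddCommGroup V] [Module k V]
    [FiniteDimensional k V] [AddCommGroup W] [Module (ZMod p) W]
    (h : Nat.card W = Nat.card V) :
    letI : Algebra (ZMod p) k := ZMod.algebra k p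
    finrank (ZMod p) W = finrank (ZMod p) k * finrank k V := by
  letI : Algebra (ZMod p) k := ZMod.algebra k p
  haveI : Finite V := Module.finite_of_finite k
  haveI : Finite W := Nat.finite_of_card_ne_zero (by rw [h]; exact Nat.card_pos.ne')
  haveI : Module.Finite (ZMod p) W := Module.Finite.of_finite
  haveI : Module.Finite (ZMod p) k := Module.Finite.of_finite
  rw [Module.natCard_eq_pow_finrank (K := ZMod p), Module.natCard_eq_pow_finrank (K := k) (V := V),
    Module.natCard_eq_pow_finrank (K := ZMod p) (V := k), ← pow_mul, Nat.card_zmod] at h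
  exact Nat.pow_right_injective (Fact.out : p.Prime).two_le h

variable (p)

/-- The transported subspace. -/
def fpImage {H : Type} [Group H] (f : H →* Γℚ) (L : Submodule k (H1 (Rep.res f (ad0 ρbar)))) :
    Submodule (ZMod p) (H1 (Rep.res f (ad0Fp ρbar p))) :=
  AddSubgroup.toZModSubmodule p (L.toAddSubgroup.map
    (h1Equiv (A := Rep.res f (ad0 ρbar)) (B := Rep.res f (ad0Fp ρbar p)) (fpEquiv ρbar p)
      (he_res (fpEquiv ρbar p) (fpEquiv_comm ρbar p) f)).toAddMonoidHom)

theorem subEq_fpImage {H : Type} [Group H] (f : H →* Γℚ)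
    (L : Submodule k (H1 (Rep.res f (ad0 ρbar)))) :
    SubEq (A := Rep.res f (ad0 ρbar)) (B := Rep.res f (ad0Fp ρbar p)) (fpEquiv ρbar p)
      (he_res (fpEquiv ρbar p) (fpEquiv_comm ρbar p) f) L (fpImage ρbar p f L) := by
  intro x
  simp [fpImage]

theorem finrank_invariants_fp {H : Type} [Group H] (f : H →* Γℚ) :
    letI : Algebra (ZMod p) k := ZMod.algebra k p
    finrank (ZMod p) (Rep.res f (ad0Fp ρbar p)).ρ.invariants
      = finrank (ZMod p) k * finrank k (Rep.res f (ad0 ρbar)).ρ.invariants := by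
  refine finrank_zmod_of_natCard_eq ?_
  refine Nat.card_congr (Equiv.subtypeEquiv (Equiv.refl _) fun X => ?_)
  exact Iff.rfl

/-- The Greenberg–Wiles bound for `ad⁰ ρbar`. -/
theorem greenbergWiles_bound_ad0 (hp2 : p ≠ 2)
    (S T : Finset Nat.Primes) (hpS : pPrime p ∈ S) (hTS : T ⊆ S)
    (hMur : ∀ q : Nat.Primes, q ∉ S → ρbar.IsUnramifiedAt q)
    (L : ∀ v : extArithIndex S, Submodule k (H1 (Rep.res (extArithLoc S v) (ad0 ρbar))))
    (hLfin : ∀ v, FiniteDimensional k (L v))
    (hLcont : ∀ v, L v ≤ continuousH1 (extArithLoc S v) (Rep.res (extArithLoc S v) (ad0 ρbar)))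
    (hLT : ∀ v : extArithIndex S, (∃ q : ↥S, q.1 ∈ T ∧ v = Sum.inr q) →
      continuousH1 (extArithLoc S v) (Rep.res (extArithLoc S v) (ad0 ρbar)) ≤ L v)
    (hH1 : FiniteDimensional k (continuousH1S S (ad0 ρbar)))
    (hkill : ∀ y ∈ continuousH1S S (ad0Tw ρbar p),
      (∀ q ∈ T, locPrime q (ad0Tw ρbar p) y = 0) → y = 0) :
    finrank k (selmerAdm (extArithLoc S) (ad0 ρbar) L (continuousH1S S (ad0 ρbar)))
        + ∑ v, finrank k (Rep.res (extArithLoc S v) (ad0 ρbar)).ρ.invariants
      ≤ finrank k (ad0 ρbar).ρ.invariants + ∑ v, finrank k (L v) := by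
  classical
  letI : Algebra (ZMod p) k := ZMod.algebra k p
  haveI : Module.Finite (ZMod p) k := Module.Finite.of_finite
  set M := ad0Fp ρbar p with hM
  have hsm : ∀ m : M, ∃ F : IntermediateField ℚ (AlgebraicClosure ℚ), FiniteDimensional ℚ F ∧
      ∀ s ∈ F.fixingSubgroup, M.ρ s m = m := by
    intro m
    obtain ⟨F, hF, hρ⟩ := ρbar.factorsThroughFiniteLevel
    refine ⟨F, hF, fun s hs => ?_⟩
    have h1 : ρbar.ρ s = 1 := hρ s ((IntermediateField.mem_fixingSubgroup_iff _ _).1 hs)
    have h2 : ρbar.ρ s⁻¹ = 1 :=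
      hρ _ ((IntermediateField.mem_fixingSubgroup_iff _ _).1 (inv_mem hs))
    refine Subtype.ext ?_
    show ρbar.ρ s * ((m : adZeroSpace ρbar).1 * ρbar.ρ s⁻¹) = (m : adZeroSpace ρbar).1
    rw [h1, h2, one_mul, mul_one]
  have hMur' : ∀ q : Nat.Primes, q ∉ S → ∀ A : ValuationSubring (AlgebraicClosure ℚ),
      A.LiesOverPrime (q : ℕ) → ∀ g ∈ A.inertiaSubgroupIn ℚ, M.ρ g = 1 := by
    intro q hq A hA g hg
    have h1 : ρbar.ρ g = 1 := hMur q hq A hA g hg
    have h2 : ρbar.ρ g⁻¹ = 1 := hMur q hq A hA _ (inv_mem hg)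
    refine LinearMap.ext fun m => Subtype.ext ?_
    show ρbar.ρ g * ((m : adZeroSpace ρbar).1 * ρbar.ρ g⁻¹) = (m : adZeroSpace ρbar).1
    rw [h1, h2, one_mul, mul_one]
  set L' : ∀ v : extArithIndex S, Submodule (ZMod p) (H1 (Rep.res (extArithLoc S v) M)) :=
    fun v => fpImage ρbar p (extArithLoc S v) (L v) with hL'
  have hcard : ∀ v, finrank (ZMod p) (L' v) = finrank (ZMod p) k * finrank k (L v) := fun v =>
    haveI := hLfin v
    finrank_zmod_of_natCard_eq (natCard_eq_of_subEq _ _ (subEq_fpImage ρbar p _ (L v)))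
  have hfin' : ∀ v, FiniteDimensional (ZMod p) (L' v) := fun v => by
    haveI := hLfin v
    haveI : Finite (L v) := Module.finite_of_finite k
    haveI : Finite (L' v) := Nat.finite_of_card_ne_zero (by
      rw [natCard_eq_of_subEq _ _ (subEq_fpImage ρbar p _ (L v))]
      exact Nat.card_pos.ne')
    exact Module.Finite.of_finite
  have hcont' : ∀ v, L' v ≤ continuousH1 (extArithLoc S v) (Rep.res (extArithLoc S v) M) := by
    intro v y hy
    obtain ⟨x, hx, rfl⟩ := hy
    exact (mem_continuousH1_iff_transfer _ _ _ x).2 (hLcont v hx)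
  have hT' : ∀ v : extArithIndex S, (∃ q : ↥S, q.1 ∈ T ∧ v = Sum.inr q) →
      continuousH1 (extArithLoc S v) (Rep.res (extArithLoc S v) M) ≤ L' v := by
    intro v hv y hy
    obtain ⟨x, rfl⟩ := (h1Equiv (A := Rep.res (extArithLoc S v) (ad0 ρbar))
      (B := Rep.res (extArithLoc S v) M) (fpEquiv ρbar p)
      (he_res (fpEquiv ρbar p) (fpEquiv_comm ρbar p) (extArithLoc S v))).surjective y
    exact (subEq_fpImage ρbar p _ (L v) x).2 (hLT v hv ((mem_continuousH1_iff_transfer _ _ _ x).1 hy))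
  have hkill' : ∀ y ∈ continuousH1S S (M.dualTwist (cycloChar p)),
      (∀ q ∈ T, locPrime q (M.dualTwist (cycloChar p)) y = 0) → y = 0 := by
    intro y hy hloc
    obtain ⟨x, rfl⟩ := (h1Equiv (dualEquiv ρbar p hp2) (dualEquiv_comm ρbar p hp2)).surjective y
    have hx := (mem_continuousH1S_iff_transfer _ _ S x).1 hy
    rw [hkill x hx fun q hq => ?_, map_zero]
    have := hloc q hq
    rw [locPrime, ← h1Equiv_map (dualEquiv ρbar p hp2) (dualEquiv_comm ρbar p hp2)] at this
    exact (AddEquiv.map_eq_zero_iff _).1 this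
  have key := greenbergWiles_bound hp2 S T hpS hTS M hsm hMur' L' hfin' hcont' hT' hkill'
  have hsel : finrank (ZMod p) (selmerAdm (extArithLoc S) M L' (continuousH1S S M))
      = finrank (ZMod p) k
        * finrank k (selmerAdm (extArithLoc S) (ad0 ρbar) L (continuousH1S S (ad0 ρbar))) := by
    refine finrank_zmod_of_natCard_eq
      (natCard_eq_of_subEq (fpEquiv ρbar p) (fpEquiv_comm ρbar p) fun x => ?_)
    rw [mem_selmerAdm_iff, mem_selmerAdm_iff,
      mem_continuousH1S_iff_transfer (fpEquiv ρbar p) (fpEquiv_comm ρbar p)]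
    refine and_congr (forall_congr' fun v => ?_) Iff.rfl
    rw [locRes, ← h1Equiv_map (fpEquiv ρbar p) (fpEquiv_comm ρbar p)]
    exact subEq_fpImage ρbar p _ (L v) _
  have hinv : finrank (ZMod p) M.ρ.invariants
      = finrank (ZMod p) k * finrank k (ad0 ρbar).ρ.invariants :=
    finrank_invariants_fp ρbar p (MonoidHom.id _)
  rw [hsel, hinv, Finset.sum_congr rfl fun v _ => hcard v,
    Finset.sum_congr rfl fun v _ => finrank_invariants_fp ρbar p (extArithLoc S v),
    ← Finset.mul_sum, ← Finset.mul_sum] at key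
  have hf : 0 < finrank (ZMod p) k := finrank_pos
  refine Nat.le_of_mul_le_mul_left ?_ hf
  rw [Nat.mul_add, Nat.mul_add]
  omega

end Fermat.Agent.TW
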