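import Fermat.Agent.TW.LocalTame

/-!
# The local conditions on `ad⁰` at primes `q ≠ p`
-/

set_option autoImplicit false

noncomputable section

open CategoryTheory groupCohomology ExtCitation Module Polynomial

namespace Fermat.Agent.TW

local notation "Γℚ" => (AlgebraicClosure ℚ ≃ₐ[ℚ] AlgebraicClosure ℚ)

variable {k : Type} [Field k] (ρ : ResidualGaloisRep k) (q : Nat.Primes)

/-- `ad⁰` restricted to a local group has a finite level. -/
theorem exists_level_ad0 :
    ∃ F : IntermediateField ℚ (AlgebraicClosure ℚ), FiniteDimensional ℚ F ∧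
      (∀ τ, primeLocalToGlobal q τ ∈ F.fixingSubgroup → ρ.ρ (primeLocalToGlobal q τ) = 1) ∧
      ∀ τ, primeLocalToGlobal q τ ∈ F.fixingSubgroup →
        ∀ m, (Rep.res (primeLocalToGlobal q) (ad0 ρ)).ρ τ m = m := by
  obtain ⟨F, hF, hρ⟩ := ρ.factorsThroughFiniteLevel
  have h1 : ∀ σ ∈ F.fixingSubgroup, ρ.ρ σ = 1 := fun σ hσ =>
    hρ σ fun x hx => (IntermediateField.mem_fixingSubgroup_iff _ _).1 hσ x hx
  refine ⟨F, hF, fun τ h => h1 _ h, fun τ h m => Subtype.ext ?_⟩
  show ρ.ρ (primeLocalToGlobal q τ) * (m.1 * ρ.ρ (primeLocalToGlobal q τ)⁻¹) = m.1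
  rw [h1 _ h, h1 _ (inv_mem h), one_mul, mul_one]

/-- A monic `(X - 1) ^ 2` characteristic polynomial forces trace `2`. -/
theorem trace_eq_two_of_charpoly {R : Type} [CommRing R] [Nontrivial R] {V : Type}
    [AddCommGroup V] [Module R V] [Module.Free R V] [Module.Finite R V]
    (hV : finrank R V = 2) {f : Module.End R V} (hf : LinearMap.charpoly f = (X - 1) ^ 2) :
    LinearMap.trace R V f = 2 := by
  classical
  let b := Module.finBasisOfFinrankEq R V hV
  rw [LinearMap.trace_eq_matrix_trace R b, Matrix.trace_eq_neg_charpoly_coeff,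
    LinearMap.charpoly_toMatrix, hf, Fintype.card_fin]
  simp [sub_sq, coeff_X_pow, coeff_one, mul_comm (2 : R[X]) X]

/-- A trace-zero endomorphism commuting with a regular semisimple one lies on a fixed line. -/
theorem finrank_centralizer_le_one (A : Module.End k ρ.V) {α β : k} (hne : α ≠ β)
    (hA : LinearMap.charpoly A = (X - C α) * (X - C β)) (W : Submodule k (adZeroSpace ρ))
    (hW : ∀ X ∈ W, A * X.1 = X.1 * A) : finrank k W ≤ 1 := by
  have hev : ∀ γ, (LinearMap.charpoly A).IsRoot γ → ∃ v, v ≠ 0 ∧ A v = γ • v := by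
    intro γ h
    obtain ⟨v, hv⟩ := ((Module.End.hasEigenvalue_iff_isRoot_charpoly A γ).2 h).exists_hasEigenvector
    exact ⟨v, hv.2, hv.apply_eq_smul⟩
  obtain ⟨u, hu0, hu⟩ := hev α (by simp [hA])
  obtain ⟨w, hw0, hw⟩ := hev β (by simp [hA])
  have hli : LinearIndependent k ![u, w] := by
    rw [linearIndependent_fin2]
    refine ⟨hw0, fun a h => ?_⟩
    simp only [Matrix.cons_val_zero, Matrix.cons_val_one] at h
    have h1 := congrArg A h
    rw [map_smul, hw, hu, ← h, smul_smul, smul_smul] at h1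
    rcases eq_or_ne a 0 with rfl | ha
    · exact hu0 (by simpa using h.symm)
    · exact hne (mul_left_cancel₀ ha (by
        rw [smul_left_injective k hw0 h1, mul_comm])).symm
  let B : Basis (Fin 2) k ρ.V := basisOfLinearIndependentOfCardEqFinrank hli
    (by rw [Fintype.card_fin, ρ.finrank_eq])
  have hB0 : B 0 = u := by simp [B]
  have hB1 : B 1 = w := by simp [B]
  have coords : ∀ y : ρ.V, B.repr (A y) 0 = α * B.repr y 0 ∧ B.repr (A y) 1 = β * B.repr y 1 := by
    intro y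
    conv_lhs => rw [← B.sum_repr y]
    conv_rhs => rw [← B.sum_repr y]
    rw [Fin.sum_univ_two, map_add, map_smul, map_smul, hB0, hB1, hu, hw, ← hB0, ← hB1]
    simp [mul_comm]
  have diag : ∀ X ∈ W, B.repr (X.1 u) 1 = 0 ∧ B.repr (X.1 w) 0 = 0 := by
    intro X hX
    have e0 := LinearMap.congr_fun (hW X hX) u
    have e1 := LinearMap.congr_fun (hW X hX) w
    rw [Module.End.mul_apply, Module.End.mul_apply, hu, map_smul] at e0
    rw [Module.End.mul_apply, Module.End.mul_apply, hw, map_smul] at e1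
    constructor
    · by_contra hz
      have h := (coords (X.1 u)).2
      rw [e0, map_smul, Finsupp.smul_apply, smul_eq_mul] at h
      exact hne (mul_right_cancel₀ hz h)
    · by_contra hz
      have h := (coords (X.1 w)).1
      rw [e1, map_smul, Finsupp.smul_apply, smul_eq_mul] at h
      exact hne (mul_right_cancel₀ hz h).symm
  have hzero : ∀ X ∈ W, B.repr (X.1 u) 0 = 0 → X = 0 := by
    intro X hX h0
    have hXu : X.1 u = 0 := by
      conv_lhs => rw [← B.sum_repr (X.1 u)]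
      rw [Fin.sum_univ_two, (diag X hX).1, h0, zero_smul, zero_smul, add_zero]
    have htr : LinearMap.trace k ρ.V X.1 = B.repr (X.1 w) 1 := by
      classical
      rw [LinearMap.trace_eq_matrix_trace k B, Matrix.trace_fin_two, LinearMap.toMatrix_apply,
        LinearMap.toMatrix_apply, hB0, hB1, hXu]
      simp only [map_zero, Finsupp.zero_apply, zero_add]
    rw [LinearMap.mem_ker.1 X.2] at htr
    refine Subtype.ext (B.ext fun i => ?_)
    fin_cases i
    · show X.1 (B 0) = 0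
      rw [hB0, hXu]
    · show X.1 (B 1) = 0
      rw [hB1, ← B.sum_repr (X.1 w), Fin.sum_univ_two, (diag X hX).2, ← htr, zero_smul,
        zero_smul, add_zero]
  let φ : W →ₗ[k] k :=
    { toFun := fun X => B.repr (X.1.1 u) 0
      map_add' := fun X Y => by simp
      map_smul' := fun t X => by simp }
  have hinj : Function.Injective φ := fun X Y h =>
    Subtype.ext (sub_eq_zero.1 (hzero (X.1 - Y.1) (W.sub_mem X.2 Y.2) (by
      change B.repr (X.1.1 u) 0 = B.repr (Y.1.1 u) 0 at h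
      simp [h])))
  simpa using LinearMap.finrank_le_finrank_of_injective hinj

/-- At a prime `q ≡ 1 (mod p)` unramified for `ρ` with distinct Frobenius eigenvalues, all
continuous classes form a space of dimension at most one more than the invariants. -/
theorem taylorWiles_local_bound (p : ℕ) [Fact p.Prime] [CharP k p]
    (hq1 : p ∣ (q : ℕ) - 1) (hur : ρ.IsUnramifiedAt q)
    (heig : ∀ P : ValuationSubring (AlgebraicClosure ℚ), P.LiesOverPrime (q : ℕ) →
      ∀ φ : Γℚ, P.IsFrobeniusAt φ (q : ℕ) →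
        ∃ α β : k, α ≠ β ∧ LinearMap.charpoly (ρ.ρ φ) = (X - C α) * (X - C β)) :
    FiniteDimensional k
        (continuousH1 (primeLocalToGlobal q) (Rep.res (primeLocalToGlobal q) (ad0 ρ))) ∧
      finrank k (continuousH1 (primeLocalToGlobal q) (Rep.res (primeLocalToGlobal q) (ad0 ρ))) ≤
        finrank k (Rep.res (primeLocalToGlobal q) (ad0 ρ)).ρ.invariants + 1 := by
  obtain ⟨F, hF, -, hM⟩ := exists_level_ad0 ρ q
  obtain ⟨τ₀, hτ₀⟩ := exists_local_frobenius q
  refine finrank_continuousH1_le_of_unramified (M := Rep.res (primeLocalToGlobal q) (ad0 ρ))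
    ⟨F, hF, hM⟩ (fun i hi m => ?_) ?_ ?_
  · refine Subtype.ext ?_
    show ρ.ρ (primeLocalToGlobal q i) * (m.1 * ρ.ρ (primeLocalToGlobal q i)⁻¹) = m.1
    rw [hur _ (primeLocalPlace_liesOverPrime q) _ hi,
      hur _ (primeLocalPlace_liesOverPrime q) _ (inv_mem hi), one_mul, mul_one]
  · have h : (((q : ℕ) - 1 : ℕ) : k) = 0 := (CharP.cast_eq_zero_iff k p _).2 hq1
    rwa [Nat.cast_sub q.2.one_le, Nat.cast_one, sub_eq_zero] at h
  · obtain ⟨α, β, hne, hcp⟩ := heig _ (primeLocalPlace_liesOverPrime q) _ hτ₀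
    refine finrank_centralizer_le_one ρ (ρ.ρ (primeLocalToGlobal q τ₀)) hne hcp
      (Rep.res (primeLocalToGlobal q) (ad0 ρ)).ρ.invariants fun X hX => ?_
    have h : ρ.ρ (primeLocalToGlobal q τ₀) * (X.1 * ρ.ρ (primeLocalToGlobal q τ₀)⁻¹) = X.1 :=
      congrArg Subtype.val (hX τ₀)
    conv_rhs => rw [← h]
    rw [mul_assoc, mul_assoc, rhoInvMul, mul_one]

/-- At a prime of unipotent nontrivial inertia, the unipotent classes are unramified. -/
theorem unipotent_local_bound (p : ℕ) [Fact p.Prime] [CharP k p] (hp2 : p ≠ 2)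
    (hqp : (q : ℕ) ≠ p) (hram : ¬ ρ.IsUnramifiedAt q)
    (huni : (GaloisRepAdic.ofResidualGaloisRep ρ).IsUnipotentOnInertiaAt q) :
    ∃ L : Submodule k (H1 (Rep.res (primeLocalToGlobal q) (ad0 ρ))),
      L ≤ continuousH1 (primeLocalToGlobal q) (Rep.res (primeLocalToGlobal q) (ad0 ρ)) ∧
      FiniteDimensional k L ∧
      finrank k L ≤ finrank k (Rep.res (primeLocalToGlobal q) (ad0 ρ)).ρ.invariants ∧
      ∀ (c : cocycles₁ (ad0 ρ)) (hc : IsLevelConstant₁ (MonoidHom.id Γℚ) c),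
        (adLift ρ c hc).IsUnipotentOnInertiaAt q →
        locPrime q (ad0 ρ) ((H1π (ad0 ρ)).hom c) ∈ L := by
  classical
  set r := primeLocalToGlobal q
  set M := Rep.res r (ad0 ρ)
  obtain ⟨F, hF, hρF, hM⟩ := exists_level_ad0 ρ q
  obtain ⟨L, hL1, hL2, hL3, hL4⟩ := exists_unramified_classes (M := M) ⟨F, hF, hM⟩
  refine ⟨L, hL1, hL2, hL3, fun c hc hu => ?_⟩
  have hqk : ((q : ℕ) : k) ≠ 0 := fun h => hqp
    ((Nat.prime_dvd_prime_iff_eq (Fact.out : p.Prime) q.2).1 ((CharP.cast_eq_zero_iff k p _).1 h)).symm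
  have h2 : (2 : k) ≠ 0 := Ring.two_ne_zero (by rw [ringChar.eq k p]; exact hp2)
  have hA := primeLocalPlace_liesOverPrime q
  -- nilpotence on inertia
  have hnil : ∀ i ∈ localInertia q, (ρ.ρ (r i) - 1) * (ρ.ρ (r i) - 1) = 0 := by
    intro i hi
    have h := huni _ hA _ hi
    change LinearMap.charpoly (ρ.ρ (r i)) = _ at h
    have hc := LinearMap.aeval_self_charpoly (ρ.ρ (r i))
    rw [h, map_pow, map_sub, map_one, aeval_X, pow_two] at hc
    exact hc
  -- a ramified element in local inertia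
  obtain ⟨i₁, hi₁, hne₁⟩ : ∃ i ∈ localInertia q, ρ.ρ (r i) ≠ 1 := by
    by_contra! hall
    refine hram fun P hP σ hσ => ?_
    obtain ⟨g, hg⟩ := Galois.exists_smul_eq hA hP q.2
    rw [← hg, Galois.mem_inertia_smul_iff] at hσ
    obtain ⟨i, hi⟩ := exists_local_preimage q (Galois.inertia_le_decomposition _ hσ)
    have h1 := hall i ((mem_localInertia q).2 (hi ▸ hσ))
    rw [show r i = g⁻¹ * σ * g from hi] at h1
    calc ρ.ρ σ = ρ.ρ g * ρ.ρ (g⁻¹ * σ * g) * ρ.ρ g⁻¹ := by
          rw [← map_mul, ← map_mul]; congr 1; group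
      _ = 1 := by rw [h1, mul_one, rhoMulInv]
  -- a generator at the level of `ρ` and `c`
  obtain ⟨Fc, hFc, hcF⟩ := hc
  have hFF : FiniteDimensional ℚ (F ⊔ Fc : IntermediateField ℚ (AlgebraicClosure ℚ)) :=
    IntermediateField.finiteDimensional_sup F Fc
  obtain ⟨j, hj, hjgen, -⟩ := exists_local_tame_generator q (F ⊔ Fc) hFF
  have hqN : ∀ (N : ℕ), ((((q : ℕ) ^ N : ℕ)) : k) ≠ 0 := fun N => by
    rw [Nat.cast_pow]; exact pow_ne_zero _ hqk
  have hw1 : ∀ w ∈ localInertia q, ∀ N : ℕ,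
      r (w ^ (q : ℕ) ^ N) ∈ (F ⊔ Fc).fixingSubgroup → ρ.ρ (r w) = 1 := by
    intro w hw N hN
    have h1 := hρF (w ^ (q : ℕ) ^ N) (IntermediateField.fixingSubgroup_antitone le_sup_left hN)
    have hpow : ∀ m : ℕ, ρ.ρ (r w) ^ m = 1 + (m : k) • (ρ.ρ (r w) - 1) := by
      intro m
      induction m with
      | zero => simp
      | succ m ih =>
        have hsq : (ρ.ρ (r w) - 1) * ρ.ρ (r w) = ρ.ρ (r w) - 1 := by
          have := hnil w hw
          rwa [mul_sub, mul_one, sub_eq_zero] at this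
        rw [pow_succ, ih, add_mul, one_mul, smul_mul_assoc, hsq, Nat.cast_succ, add_smul, one_smul]
        abel
    rw [map_pow, map_pow, hpow, add_eq_left, smul_eq_zero] at h1
    exact sub_eq_zero.1 (h1.resolve_left (hqN N))
  have hne : ρ.ρ (r j) ≠ 1 := by
    intro hj1
    refine hne₁ ?_
    obtain ⟨n, N, hN⟩ := hjgen i₁ hi₁
    have hw := hw1 _ (mul_mem (inv_mem (zpow_mem hj n)) hi₁) N hN
    have hn : ρ.ρ (r (j ^ n)) = 1 := by
      let u : localInertia q →* (Module.End k ρ.V)ˣ :=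
        ((ρ.ρ.comp r).comp (localInertia q).subtype).toHomUnits
      have : u ⟨j, hj⟩ = 1 := Units.ext hj1
      have h' : u (⟨j, hj⟩ ^ n) = 1 := by rw [map_zpow, this, one_zpow]
      exact congrArg Units.val h'
    rw [show i₁ = j ^ n * ((j ^ n)⁻¹ * i₁) by group, map_mul, map_mul, hn, hw, one_mul]
  -- coordinates adapted to `N := ρ(j) - 1`
  set N := ρ.ρ (r j) - 1 with hN
  have hN0 : N ≠ 0 := sub_ne_zero.2 hne
  obtain ⟨v₁, hv₁⟩ : ∃ v, N v ≠ 0 := by
    by_contra! h
    exact hN0 (LinearMap.ext fun v => h v)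
  set v₀ := N v₁ with hv₀
  have hNv₀ : N v₀ = 0 := by
    rw [hv₀, ← Module.End.mul_apply, hN, hnil j hj, LinearMap.zero_apply]
  have hli : LinearIndependent k ![v₀, v₁] := by
    rw [linearIndependent_fin2]
    refine ⟨fun h => hv₁ (by rw [hv₀, show v₁ = 0 from h, map_zero]), fun a h => ?_⟩
    simp only [Matrix.cons_val_zero, Matrix.cons_val_one] at h
    have := congrArg N h
    rw [map_smul, ← hv₀, hNv₀, smul_eq_zero] at this
    rcases this with rfl | h0
    · exact hv₁ (by simpa [zero_smul] using h.symm)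
    · exact hv₁ h0
  let B : Basis (Fin 2) k ρ.V := basisOfLinearIndependentOfCardEqFinrank hli
    (by rw [Fintype.card_fin, ρ.finrank_eq])
  have hB0 : B 0 = v₀ := by simp [B]
  have hB1 : B 1 = v₁ := by simp [B]
  set Xc := cocycleEnd ρ c (r j) with hXc
  -- the trace condition
  have htr : LinearMap.trace k ρ.V (Xc * ρ.ρ (r j)) = 0 := by
    have h := trace_eq_two_of_charpoly (adLift ρ c ⟨Fc, hFc, hcF⟩).finrank_eq (hu _ hA _ hj)
    change LinearMap.trace (DualNumber k) _ (adLiftEnd ρ c (r j)) = 2 at h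
    rw [adLiftEnd, map_add, map_smul, LinearMap.trace_baseChange, LinearMap.trace_baseChange] at h
    have h' := congrArg TrivSqZeroExt.snd h
    simp [TrivSqZeroExt.algebraMap_eq_inl] at h'
    exact h'
  have hX00 : B.repr (Xc v₁) 1 = -B.repr (Xc v₀) 0 := by
    have h := LinearMap.mem_ker.1 (c (r j) : adZeroSpace ρ).2
    change LinearMap.trace k ρ.V Xc = 0 at h
    rw [LinearMap.trace_eq_matrix_trace k B, Matrix.trace_fin_two, LinearMap.toMatrix_apply,
      LinearMap.toMatrix_apply, hB0, hB1] at h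
    linear_combination h
  have hX10 : B.repr (Xc v₀) 1 = 0 := by
    have hsplit : Xc * ρ.ρ (r j) = Xc + Xc * N := by rw [hN, mul_sub, mul_one]; abel
    rw [hsplit, map_add, LinearMap.mem_ker.1 (c (r j) : adZeroSpace ρ).2, zero_add,
      LinearMap.trace_eq_matrix_trace k B, Matrix.trace_fin_two, LinearMap.toMatrix_apply,
      LinearMap.toMatrix_apply, hB0, hB1, Module.End.mul_apply, Module.End.mul_apply, hNv₀] at htr
    simp only [map_zero, Finsupp.zero_apply, zero_add] at htr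
    exact htr
  set x := B.repr (Xc v₀) 0
  set y := B.repr (Xc v₁) 0
  have hXv₀ : Xc v₀ = x • v₀ := by
    conv_lhs => rw [← B.sum_repr (Xc v₀)]
    rw [Fin.sum_univ_two, hB0, hB1, hX10, zero_smul, add_zero]
  have hXv₁ : Xc v₁ = y • v₀ + (-x) • v₁ := by
    conv_lhs => rw [← B.sum_repr (Xc v₁)]
    rw [Fin.sum_univ_two, hB0, hB1, hX00]
  set t := (x + y) / 2
  -- the coboundary killing `c` at `j`
  let T₀ : Module.End k ρ.V := B.constr k ![t • v₀ + (-x) • v₁, (-t) • v₁]
  have hT0 : T₀ v₀ = t • v₀ + (-x) • v₁ := by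
    conv_lhs => rw [← hB0]
    exact B.constr_basis k _ 0
  have hT1 : T₀ v₁ = (-t) • v₁ := by
    conv_lhs => rw [← hB1]
    exact B.constr_basis k _ 1
  have hT : T₀ ∈ adZeroSpace ρ := by
    rw [LinearMap.mem_ker, LinearMap.trace_eq_matrix_trace k B, Matrix.trace_fin_two,
      LinearMap.toMatrix_apply, LinearMap.toMatrix_apply, hB0, hB1, hT0, hT1, map_add, map_smul,
      map_smul, map_smul, ← hB0, ← hB1, Basis.repr_self, Basis.repr_self]
    simp
  let cl : cocycles₁ M := mapCocycles₁ r (𝟙 M) c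
  have hcl : ∀ τ, (cl : primeLocalGaloisGroup q → M) τ = c (r τ) := fun τ => rfl
  have hclev : IsLevelConstant₁ r cl :=
    ⟨Fc, hFc, fun a s hs => by rw [hcl, hcl, map_mul]; exact hcF _ _ hs⟩
  have key : locPrime q (ad0 ρ) ((H1π (ad0 ρ)).hom c) = (H1π M).hom cl :=
    H1π_comp_map_apply r (𝟙 M) c
  rw [key]
  refine hL4 cl hclev ⟨(⟨T₀, hT⟩ : adZeroSpace ρ), ?_⟩
  set d : cocycles₁ M := cl + localCoboundary M (⟨T₀, hT⟩ : adZeroSpace ρ)
  have hd : ∀ i, (d : primeLocalGaloisGroup q → M) i =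
      cl i + (M.ρ i (⟨T₀, hT⟩ : adZeroSpace ρ) - (⟨T₀, hT⟩ : adZeroSpace ρ)) := fun i => by
    show cl i + (localCoboundary M _ : primeLocalGaloisGroup q → M) i = _
    rw [localCoboundary_apply]
  -- `d` vanishes at `j`
  have hρv₀ : ρ.ρ (r j) v₀ = v₀ := by
    have h := hNv₀
    rw [hN, LinearMap.sub_apply, Module.End.one_apply, sub_eq_zero] at h
    exact h
  have hρv₁ : ρ.ρ (r j) v₁ = v₁ + v₀ := by
    have h : N v₁ = v₀ := hv₀.symm
    rw [hN, LinearMap.sub_apply, Module.End.one_apply, sub_eq_iff_eq_add'] at h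
    exact h
  have hρi₀ : ρ.ρ (r j)⁻¹ v₀ = v₀ := by
    conv_lhs => rw [← hρv₀]
    rw [← Module.End.mul_apply, rhoInvMul, Module.End.one_apply]
  have hρi₁ : ρ.ρ (r j)⁻¹ v₁ = v₁ - v₀ := by
    apply ρ_injective ρ (r j)
    rw [← Module.End.mul_apply, rhoMulInv, Module.End.one_apply, map_sub, hρv₀, hρv₁,
      add_sub_cancel_right]
  have hdj : d j = 0 := by
    refine Subtype.ext (B.ext fun i => ?_)
    show ((d : primeLocalGaloisGroup q → M) j : adZeroSpace ρ).1 (B i) = 0
    rw [hd, hcl]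
    show Xc (B i) + (ρ.ρ (r j) (T₀ (ρ.ρ (r j)⁻¹ (B i))) - T₀ (B i)) = 0
    fin_cases i
    · show Xc (B 0) + (ρ.ρ (r j) (T₀ (ρ.ρ (r j)⁻¹ (B 0))) - T₀ (B 0)) = 0
      rw [hB0, hXv₀, hρi₀, hT0, map_add, map_smul, map_smul, hρv₀, hρv₁]
      module
    · show Xc (B 1) + (ρ.ρ (r j) (T₀ (ρ.ρ (r j)⁻¹ (B 1))) - T₀ (B 1)) = 0
      rw [hB1, hXv₁, hρi₁, map_sub, hT0, hT1, map_sub, map_smul, map_add, map_smul, map_smul, hρv₀,
        hρv₁]
      have ht : t * 2 = x + y := div_mul_cancel₀ _ h2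
      linear_combination (norm := module) (-1 : k) • congrArg (· • v₀) ht
  intro i hi
  rw [← hd]
  obtain ⟨n, N', hN'⟩ := hjgen i hi
  have hwI : (j ^ n)⁻¹ * i ∈ localInertia q := mul_mem (inv_mem (zpow_mem hj n)) hi
  have hwρ := hw1 _ hwI N' hN'
  have hwfix : ∀ m : M, M.ρ ((j ^ n)⁻¹ * i) m = m := fun m => by
    refine Subtype.ext ?_
    show ρ.ρ (r ((j ^ n)⁻¹ * i)) * (m.1 * ρ.ρ (r ((j ^ n)⁻¹ * i))⁻¹) = m.1
    have hinv : ρ.ρ (r ((j ^ n)⁻¹ * i))⁻¹ = 1 := by
      have := rhoInvMul ρ (r ((j ^ n)⁻¹ * i))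
      rwa [hwρ, mul_one] at this
    rw [hwρ, hinv, one_mul, mul_one]
  have hw0 : d ((j ^ n)⁻¹ * i) = 0 := by
    set w := (j ^ n)⁻¹ * i
    have hfix := IntermediateField.fixingSubgroup_antitone le_sup_left hN'
    have h1 : d (w ^ (q : ℕ) ^ N') = 0 := by
      show (d : primeLocalGaloisGroup q → M) _ = 0
      rw [hd, hM _ hfix, sub_self, add_zero, hcl]
      have := hcF 1 (r (w ^ (q : ℕ) ^ N'))
        (IntermediateField.fixingSubgroup_antitone le_sup_right hN')
      rw [one_mul, cocycles₁_map_one] at this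
      exact this
    rw [localCocycle_pow hwfix, ← Nat.cast_smul_eq_nsmul k, smul_eq_zero] at h1
    exact h1.resolve_left (hqN N')
  show d i = 0
  rw [show i = j ^ n * ((j ^ n)⁻¹ * i) by group, localCocycle_mul, hw0, map_zero, zero_add,
    localCocycle_zpow_eq_zero hdj]

end Fermat.Agent.TW
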