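import Fermat.Agent.TW.LocalKummer
import Fermat.Agent.TW.OrdinaryLine
import Fermat.Agent.Galois.Cyclotomic
import Fermat.Agent.Galois.PadicPlace

/-!
# The strict ordinary local condition at `p`
-/

set_option autoImplicit false

noncomputable section

open CategoryTheory groupCohomology ExtCitation Module

namespace Fermat.Agent.TW

local notation "Γℚ" => (AlgebraicClosure ℚ ≃ₐ[ℚ] AlgebraicClosure ℚ)

/-- A global level pulls back to a finite level over `ℚ_[q]`. -/
theorem exists_padic_level (q : ℕ) [Fact q.Prime] (F : IntermediateField ℚ (AlgebraicClosure ℚ))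
    (hF : FiniteDimensional ℚ F) :
    ∃ E : IntermediateField ℚ_[q] (PadicAlgCl q), FiniteDimensional ℚ_[q] E ∧
      ∀ τ ∈ E.fixingSubgroup, localGaloisToGlobal q τ ∈ F.fixingSubgroup := by
  let b := Module.finBasis ℚ F
  let S : Set (PadicAlgCl q) := Set.range fun i => padicEmbedding q (b i : AlgebraicClosure ℚ)
  have : Finite S := Set.finite_range _
  refine ⟨IntermediateField.adjoin ℚ_[q] S,
    IntermediateField.finiteDimensional_adjoin fun x _ =>
      (Algebra.IsAlgebraic.isAlgebraic x).isIntegral, fun τ hτ => ?_⟩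
  rw [IntermediateField.mem_fixingSubgroup_iff] at hτ ⊢
  have hfix : ∀ i, localGaloisToGlobal q τ (b i : AlgebraicClosure ℚ) = b i := by
    intro i
    apply (padicEmbedding q).injective
    show padicEmbedding q _ = padicEmbedding q _
    rw [padicEmbedding_localGaloisToGlobal]
    exact hτ _ (IntermediateField.subset_adjoin _ _ ⟨i, rfl⟩)
  intro x hx
  have h : (localGaloisToGlobal q τ).toLinearMap.comp F.val.toLinearMap = F.val.toLinearMap :=
    b.ext fun i => hfix i
  exact LinearMap.congr_fun h ⟨x, hx⟩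

section Cyclotomic

variable (p : ℕ) [hp : Fact p.Prime] (k : Type) [Field k] [CharP k p]

/-- The cyclotomic character is determined by any exponent on the `p`-th roots of unity. -/
theorem cycK_eq_of_forall_root (σ : Γℚ) (a : ℕ)
    (h : ∀ μ : AlgebraicClosure ℚ, μ ^ p = 1 → σ μ = μ ^ a) : cycK p k σ = (a : k) := by
  have : NeZero p := ⟨hp.out.ne_zero⟩
  obtain ⟨ζ, hζ⟩ := HasEnoughRootsOfUnity.exists_primitiveRoot (AlgebraicClosure ℚ) p
  have h1 : ζ ^ ExtCitation.cycloExp p σ = ζ ^ a := by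
    rw [← apply_root_eq_pow_cycloExp p σ ζ hζ.pow_eq_one, h ζ hζ.pow_eq_one]
  have h2 : ExtCitation.cycloExp p σ % p = a % p := by
    refine hζ.pow_inj (Nat.mod_lt _ hp.out.pos) (Nat.mod_lt _ hp.out.pos) ?_
    rwa [← pow_eq_pow_mod _ hζ.pow_eq_one, ← pow_eq_pow_mod _ hζ.pow_eq_one]
  unfold cycK
  rw [CharP.natCast_eq_natCast k p]
  exact h2

theorem cycK_localGaloisToGlobal_eq (τ : Gal(PadicAlgCl p/ℚ_[p])) (a : ℕ)
    (h : ∀ μ : PadicAlgCl p, μ ^ p = 1 → τ μ = μ ^ a) :
    cycK p k (localGaloisToGlobal p τ) = (a : k) := by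
  refine cycK_eq_of_forall_root p k _ a fun μ hμ => ?_
  apply (padicEmbedding p).injective
  show padicEmbedding p _ = padicEmbedding p _
  rw [padicEmbedding_localGaloisToGlobal, map_pow,
    h _ (by rw [← map_pow, hμ, map_one])]

/-- Some inertia element at `p` is moved by the mod `p` cyclotomic character. -/
theorem exists_inertia_cycK_ne_one (hp2 : p ≠ 2) :
    ∃ σ ∈ (padicPlace p).inertiaSubgroupIn ℚ, cycK p k σ ≠ 1 := by
  have : NeZero (p ^ 1) := ⟨by rw [pow_one]; exact hp.out.ne_zero⟩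
  have hn : Nat.card (rootsOfUnity (p ^ 1) (AlgebraicClosure ℚ)) = p ^ 1 :=
    IsAlgClosed.card_rootsOfUnity_eq _ _
  obtain ⟨σ, hσ, hu⟩ := Galois.exists_inertia_modularCyclotomicCharacter_eq
    (Galois.padicPlace_liesOverPrime p) hp.out 1 hn (-1)
  refine ⟨σ, hσ, ?_⟩
  have hroot : ∀ μ : AlgebraicClosure ℚ, μ ^ p = 1 → σ μ = μ ^ (p - 1) := by
    intro μ hμ
    have hμ' : μ ^ (p ^ 1) = 1 := by rwa [pow_one]
    have h := modularCyclotomicCharacter.spec _ hn (σ : AlgebraicClosure ℚ ≃+* AlgebraicClosure ℚ)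
      (rootsOfUnity.mkOfPowEq μ hμ').2
    rw [hu, Units.val_neg, Units.val_one] at h
    have hlt : 1 < p ^ 1 := by rw [pow_one]; exact hp.out.one_lt
    have : Fact (1 < p ^ 1) := ⟨hlt⟩
    have hval : (-1 : ZMod (p ^ 1)).val = p - 1 := by
      rw [ZMod.neg_val, if_neg one_ne_zero, ZMod.val_one, pow_one]
    rw [hval] at h
    exact h
  rw [cycK_eq_of_forall_root p k σ (p - 1) hroot,
    Nat.cast_sub hp.out.one_le, CharP.cast_eq_zero k p, Nat.cast_one, zero_sub]
  exact fun h => Ring.two_ne_zero (R := k) (by rw [ringChar.eq k p]; exact hp2)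
    (by linear_combination -h)

end Cyclotomic

/-- Rank bound for the image of a space containing a given piece of the kernel. -/
theorem finrank_map_add_le {k : Type} [Field k] {U V W : Type} [AddCommGroup U] [Module k U]
    [AddCommGroup V] [Module k V] [AddCommGroup W] [Module k W] [FiniteDimensional k U]
    (f : V →ₗ[k] W) (g : U →ₗ[k] V) (Z : Submodule k V) [FiniteDimensional k Z]
    (hg : ∀ u, g u ∈ Z) (hfg : ∀ u, f (g u) = 0) :
    finrank k (Z.map f) + finrank k U ≤ finrank k Z + finrank k (LinearMap.ker g) := by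
  let Φ : Z →ₗ[k] W := f.comp Z.subtype
  let D : U →ₗ[k] LinearMap.ker Φ :=
    LinearMap.codRestrict _ (LinearMap.codRestrict Z g hg) fun u => LinearMap.mem_ker.2 (hfg u)
  have h1 := Φ.finrank_range_add_finrank_ker
  have h2 := D.finrank_range_add_finrank_ker
  have h3 := Submodule.finrank_le (LinearMap.range D)
  have h4 : LinearMap.ker D = LinearMap.ker g := by
    ext u
    simp [D, LinearMap.mem_ker]
  have h5 : LinearMap.range Φ = Z.map f := by
    rw [LinearMap.range_comp, Submodule.range_subtype]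
  rw [h4] at h2
  rw [h5] at h1
  omega

variable {k : Type} [Field k] [Finite k] (p : ℕ) [hp : Fact p.Prime] [CharP k p]
variable (ρ : ResidualGaloisRep k)

set_option synthInstance.maxHeartbeats 400000 in
-- nested submodules of cochains make instance search slow
/-- The local classes with values in the endomorphisms killing and landing in a strict ordinary
line have dimension at most one more than the invariants. -/
theorem exists_local_line_classes (hp2 : p ≠ 2) {v₀ : ρ.V} (hv : IsOrdLine ρ p v₀) :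
    ∃ L : Submodule k (H1 (Rep.res (primeLocalToGlobal (pPrime p)) (ad0 ρ))),
      L ≤ continuousH1 (primeLocalToGlobal (pPrime p))
          (Rep.res (primeLocalToGlobal (pPrime p)) (ad0 ρ)) ∧
      FiniteDimensional k L ∧
      finrank k L ≤
        finrank k (Rep.res (primeLocalToGlobal (pPrime p)) (ad0 ρ)).ρ.invariants + 1 ∧
      ∀ (c : cocycles₁ (ad0 ρ)), IsLevelConstant₁ (MonoidHom.id Γℚ) c → ∀ T : ad0 ρ,
        (∀ σ ∈ (padicPlace p).decompositionSubgroup ℚ,
          (c σ + ((ad0 ρ).ρ σ T - T)).1 v₀ = 0 ∧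
          ∀ u, (c σ + ((ad0 ρ).ρ σ T - T)).1 u ∈ Submodule.span k {v₀}) →
        locPrime (pPrime p) (ad0 ρ) ((H1π (ad0 ρ)).hom c) ∈ L := by
  classical
  let := ZMod.algebra k p
  set r := primeLocalToGlobal (pPrime p)
  set M := Rep.res r (ad0 ρ)
  have hrD : ∀ τ, r τ ∈ (padicPlace p).decompositionSubgroup ℚ := fun τ =>
    localGaloisToGlobal_mem_decompositionSubgroup p τ
  -- a basis `v₀, v₁` and its dual functionals
  obtain ⟨v₁, hv₁⟩ : ∃ v₁, v₁ ∉ Submodule.span k {v₀} := by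
    by_contra! h
    have h1 := finrank_span_singleton (K := k) hv.ne_zero
    rw [Submodule.eq_top_iff'.2 h, finrank_top, ρ.finrank_eq] at h1
    omega
  have hli : LinearIndependent k ![v₀, v₁] := by
    rw [linearIndependent_fin2]
    refine ⟨fun h => hv₁ ?_, fun a h => ?_⟩
    · rw [show v₁ = 0 from h]; exact Submodule.zero_mem _
    · have ha : a ≠ 0 := fun h0 => hv.ne_zero (by simpa [h0] using h.symm)
      refine hv₁ (Submodule.mem_span_singleton.2 ⟨a⁻¹, ?_⟩)
      rw [show v₀ = a • v₁ from h.symm, inv_smul_smul₀ ha]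
  let B : Basis (Fin 2) k ρ.V := basisOfLinearIndependentOfCardEqFinrank hli
    (by rw [Fintype.card_fin, ρ.finrank_eq])
  have hB0 : B 0 = v₀ := by simp [B]
  have hB1 : B 1 = v₁ := by simp [B]
  set φ₀ : Module.Dual k ρ.V := B.coord 0
  set φ₁ : Module.Dual k ρ.V := B.coord 1
  have h00 : φ₀ v₀ = 1 := by simp [φ₀, ← hB0]
  have h01 : φ₀ v₁ = 0 := by simp [φ₀, ← hB1]
  have h10 : φ₁ v₀ = 0 := by simp [φ₁, ← hB0]
  have h11 : φ₁ v₁ = 1 := by simp [φ₁, ← hB1]
  have hdec : ∀ v, v = φ₀ v • v₀ + φ₁ v • v₁ := by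
    intro v
    conv_lhs => rw [← B.sum_repr v]
    rw [Fin.sum_univ_two, hB0, hB1]
    rfl
  have hker : ∀ v, φ₁ v = 0 → v ∈ Submodule.span k {v₀} := fun v h =>
    Submodule.mem_span_singleton.2 ⟨φ₀ v, by conv_rhs => rw [hdec v, h, zero_smul, add_zero]⟩
  have hφ₁ : ∀ σ ∈ (padicPlace p).decompositionSubgroup ℚ, ∃ z : k, z ≠ 0 ∧
      ρ.ρ σ v₀ = (cycK p k σ * z) • v₀ ∧ ∀ v, φ₁ (ρ.ρ σ v) = z * φ₁ v := by
    intro σ hσ
    obtain ⟨z, hz, hx, hq⟩ := hv.decomposition σ hσ
    refine ⟨z, hz, hx, fun v => ?_⟩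
    obtain ⟨t, ht⟩ := Submodule.mem_span_singleton.1 (hq v)
    have := congrArg φ₁ ht
    rw [map_smul, h10, smul_zero, map_sub, map_smul, smul_eq_mul, eq_comm, sub_eq_zero] at this
    exact this
  -- the nilpotent `N` and the semisimple `H`
  have hN : φ₁.smulRight v₀ ∈ adZeroSpace ρ := by
    rw [LinearMap.mem_ker, LinearMap.trace_smulRight, h10]
  have hH : φ₀.smulRight v₀ - φ₁.smulRight v₁ ∈ adZeroSpace ρ := by
    rw [LinearMap.mem_ker, map_sub, LinearMap.trace_smulRight, LinearMap.trace_smulRight, h00,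
      h11, sub_self]
  let N : M := (⟨φ₁.smulRight v₀, hN⟩ : adZeroSpace ρ)
  let H : M := (⟨φ₀.smulRight v₀ - φ₁.smulRight v₁, hH⟩ : adZeroSpace ρ)
  have hN1 : N.1 v₁ = v₀ := by
    show φ₁ v₁ • v₀ = v₀
    rw [h11, one_smul]
  have hN0 : N.1 v₀ = 0 := by
    show φ₁ v₀ • v₀ = 0
    rw [h10, zero_smul]
  let Ψ : (primeLocalGaloisGroup (pPrime p) → k) →ₗ[k]
      (primeLocalGaloisGroup (pPrime p) → M) :=
    LinearMap.pi fun τ => (LinearMap.toSpanSingleton k M N).comp (LinearMap.proj τ)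
  have hΨ : ∀ g τ, Ψ g τ = g τ • N := fun g τ => rfl
  have hNinj : ∀ a b : k, a • N = b • N → a = b := by
    intro a b h
    have := congrArg (fun X : M => φ₀ (X.1 v₁)) h
    change φ₀ (a • N.1 v₁) = φ₀ (b • N.1 v₁) at this
    simpa [hN1, h00] using this
  have hmulN : ∀ X : M, X.1 v₀ = 0 → (∀ u, X.1 u ∈ Submodule.span k {v₀}) →
      X = φ₀ (X.1 v₁) • N := by
    intro X h0 hr
    refine Subtype.ext (B.ext fun i => ?_)
    fin_cases i
    · show X.1 (B 0) = φ₀ (X.1 v₁) • N.1 (B 0)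
      rw [hB0, h0, hN0, smul_zero]
    · show X.1 (B 1) = φ₀ (X.1 v₁) • N.1 (B 1)
      obtain ⟨t, ht⟩ := Submodule.mem_span_singleton.1 (hr v₁)
      rw [hB1, hN1, ← ht, map_smul, h00, smul_eq_mul, mul_one]
  have hρinv : ∀ σ ∈ (padicPlace p).decompositionSubgroup ℚ, ∀ z : k,
      ρ.ρ σ v₀ = z • v₀ → z ≠ 0 ∧ ρ.ρ σ⁻¹ v₀ = z⁻¹ • v₀ := by
    intro σ _ z h
    have hz : z ≠ 0 := by
      intro h0; rw [h0, zero_smul] at h
      exact hv.ne_zero (ρ_injective ρ σ (h.trans (map_zero _).symm))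
    refine ⟨hz, ρ_injective ρ σ ?_⟩
    rw [← Module.End.mul_apply, rhoMulInv, Module.End.one_apply, map_smul, h, inv_smul_smul₀ hz]
  have hρN : ∀ τ, M.ρ τ N = cycK p k (r τ) • N := by
    intro τ
    obtain ⟨z, hz, hx, hq⟩ := hφ₁ _ (hrD τ)
    obtain ⟨hxz, hi⟩ := hρinv _ (hrD τ) _ hx
    have hv1 : φ₁ (ρ.ρ (r τ)⁻¹ v₁) = z⁻¹ := by
      have := hq (ρ.ρ (r τ)⁻¹ v₁)
      rw [← Module.End.mul_apply, rhoMulInv, Module.End.one_apply, h11] at this
      exact eq_inv_of_mul_eq_one_right this.symm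
    refine Subtype.ext (B.ext fun i => ?_)
    show ρ.ρ (r τ) (φ₁ (ρ.ρ (r τ)⁻¹ (B i)) • v₀) = cycK p k (r τ) • φ₁ (B i) • v₀
    fin_cases i
    · show ρ.ρ (r τ) (φ₁ (ρ.ρ (r τ)⁻¹ (B 0)) • v₀) = cycK p k (r τ) • φ₁ (B 0) • v₀
      rw [hB0, hi, map_smul φ₁, h10]
      simp
    · show ρ.ρ (r τ) (φ₁ (ρ.ρ (r τ)⁻¹ (B 1)) • v₀) = cycK p k (r τ) • φ₁ (B 1) • v₀
      rw [hB1, hv1, map_smul (ρ.ρ (r τ)), hx, h11, smul_smul, one_smul,
        mul_comm (cycK p k (r τ)), ← mul_assoc, inv_mul_cancel₀ hz, one_mul]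
  -- the three candidate functions
  obtain ⟨κ₀, κ₁, hκ⟩ := exists_two_generators_cyclotomic_cocycles (p := p) hp2
  let fs : Fin 3 → (primeLocalGaloisGroup (pPrime p) → k) :=
    ![fun τ => algebraMap (ZMod p) k (κ₀ τ), fun τ => algebraMap (ZMod p) k (κ₁ τ),
      fun τ => cycK p k (r τ) - 1]
  set W : Submodule k (primeLocalGaloisGroup (pPrime p) → k) :=
    Submodule.span k (Set.range fs) with hW
  have : FiniteDimensional k W := FiniteDimensional.span_of_finite k (Set.finite_range _)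
  have hW3 : finrank k W ≤ 3 := (finrank_range_le_card (R := k) fs).trans (by simp)
  let Z : Submodule k (cocycles₁ M) :=
    levelCocycles₁ r M ⊓ (LinearMap.range Ψ).comap (cocycles₁ M).subtype
  have hZW : Z.map (cocycles₁ M).subtype ≤ W.map Ψ := by
    rintro _ ⟨c, ⟨hcl, g, hg⟩, rfl⟩
    refine ⟨g, ?_, hg⟩
    obtain ⟨F, hF, hcF⟩ := (mem_levelCocycles₁_iff r M c).1 hcl
    obtain ⟨E, hE, hEF⟩ := exists_padic_level p F hF
    have hval : ∀ τ, c.1 τ = g τ • N := fun τ => by
      rw [← hΨ, hg]; rfl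
    obtain ⟨x, y, z, hxyz⟩ := hκ k (fun τ => cycK p k (r τ))
      (fun τ a h => cycK_localGaloisToGlobal_eq p k τ a h) g (fun (s t : primeLocalGaloisGroup (pPrime p)) => by
        apply hNinj
        have h := (mem_cocycles₁_iff c.1).1 c.2 s t
        rw [hval, hval, hval, map_smul, hρN, smul_smul] at h
        refine h.trans ?_
        rw [add_smul, mul_comm (g t), add_comm]) E hE
      (fun a s hs => hNinj _ _ ((hval _).symm.trans ((hcF a s (hEF s hs)).trans (hval a))))
    have : g = x • fs 0 + y • fs 1 + z • fs 2 := by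
      funext τ
      simp only [fs, Pi.add_apply, Pi.smul_apply, smul_eq_mul, Matrix.cons_val_zero,
        Matrix.cons_val_one, Matrix.cons_val_two, Matrix.tail_cons, Matrix.head_cons, hxyz τ]
      ring
    rw [this]
    exact Submodule.add_mem _ (Submodule.add_mem _ (Submodule.smul_mem _ _
      (Submodule.subset_span ⟨0, rfl⟩)) (Submodule.smul_mem _ _ (Submodule.subset_span ⟨1, rfl⟩)))
      (Submodule.smul_mem _ _ (Submodule.subset_span ⟨2, rfl⟩))
  let e : Z ≃ₗ[k] Z.map (cocycles₁ M).subtype :=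
    Submodule.equivMapOfInjective _ (cocycles₁ M).subtype_injective Z
  have : FiniteDimensional k (Z.map (cocycles₁ M).subtype) :=
    Submodule.finiteDimensional_of_le hZW
  have : Module.Finite k Z := Module.Finite.equiv e.symm
  have hZ3 : finrank k Z ≤ 3 := by
    rw [e.finrank_eq]
    exact (Submodule.finrank_mono hZW).trans ((Submodule.finrank_map_le Ψ W).trans hW3)
  -- coboundaries in `Z`
  have hlev : ∀ X : M, IsLevelConstant₁ r fun τ => M.ρ τ X - X := by
    intro X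
    obtain ⟨F, hF, hρF⟩ := ρ.factorsThroughFiniteLevel
    refine ⟨F, hF, fun g s hs => ?_⟩
    have h1 : M.ρ s X = X := by
      refine Subtype.ext ?_
      show ρ.ρ (r s) * (X.1 * ρ.ρ (r s)⁻¹) = X.1
      rw [hρF _ fun x hx => (IntermediateField.mem_fixingSubgroup_iff _ _).1 hs x hx,
        hρF _ fun x hx => (IntermediateField.mem_fixingSubgroup_iff _ _).1 (inv_mem hs) x hx,
        one_mul, mul_one]
    show M.ρ (g * s) X - X = M.ρ g X - X
    rw [map_mul, Module.End.mul_apply, h1]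
  let cob : M →ₗ[k] cocycles₁ M := LinearMap.codRestrict (cocycles₁ M) (d₀₁ M).hom
    fun X => coboundaries₁_le_cocycles₁ M ⟨X, rfl⟩
  have hcob : ∀ X τ, (cob X : primeLocalGaloisGroup (pPrime p) → M) τ = M.ρ τ X - X :=
    fun X τ => d₀₁_hom_apply M X τ
  let two : (Fin 2 → k) →ₗ[k] M := Fintype.linearCombination k ![N, H]
  have hinj : Function.Injective two := by
    rw [← LinearMap.ker_eq_bot, LinearMap.ker_eq_bot']
    intro a ha
    simp only [two, Fintype.linearCombination_apply, Fin.sum_univ_two, Matrix.cons_val_zero,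
      Matrix.cons_val_one] at ha
    have e0 := congrArg (fun X : M => φ₀ (X.1 v₀)) ha
    have e1 := congrArg (fun X : M => φ₀ (X.1 v₁)) ha
    change φ₀ (a 0 • φ₁ v₀ • v₀ + a 1 • (φ₀ v₀ • v₀ - φ₁ v₀ • v₁)) = φ₀ 0 at e0
    change φ₀ (a 0 • φ₁ v₁ • v₀ + a 1 • (φ₀ v₁ • v₀ - φ₁ v₁ • v₁)) = φ₀ 0 at e1
    simp [h00, h01, h10, h11] at e0 e1
    funext i
    fin_cases i <;> assumption
  have hcobZ : ∀ a, cob (two a) ∈ Z := by
    intro a
    refine ⟨(mem_levelCocycles₁_iff r M _).2 ?_, ?_⟩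
    · have : ((cob (two a) : cocycles₁ M) : primeLocalGaloisGroup (pPrime p) → M) =
          fun τ => M.ρ τ (two a) - two a := funext fun τ => hcob _ τ
      rw [this]; exact hlev _
    · show (cob (two a)).1 ∈ LinearMap.range Ψ
      refine ⟨fun τ => φ₀ ((M.ρ τ (two a) - two a).1 v₁), funext fun τ => ?_⟩
      rw [hΨ]
      show _ = (cob (two a) : primeLocalGaloisGroup (pPrime p) → M) τ
      rw [hcob]
      obtain ⟨z, hz, hx, hq⟩ := hφ₁ _ (hrD τ)
      obtain ⟨hxz, hi⟩ := hρinv _ (hrD τ) _ hx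
      have htwo : two a = a 0 • N + a 1 • H := by
        simp [two, Fintype.linearCombination_apply, Fin.sum_univ_two]
      have hH0 : H.1 v₀ = v₀ := by
        show φ₀ v₀ • v₀ - φ₁ v₀ • v₁ = v₀
        rw [h00, h10, one_smul, zero_smul, sub_zero]
      have hHφ : ∀ w, φ₁ (H.1 w) = -φ₁ w := fun w => by
        show φ₁ (φ₀ w • v₀ - φ₁ w • v₁) = _
        simp [h10, h11]
      have hHd : M.ρ τ H - H = φ₀ ((M.ρ τ H - H).1 v₁) • N := by
        refine hmulN _ ?_ fun u => hker _ ?_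
        · show ρ.ρ (r τ) (H.1 (ρ.ρ (r τ)⁻¹ v₀)) - H.1 v₀ = 0
          rw [hi, map_smul H.1, hH0, map_smul (ρ.ρ (r τ)), hx, inv_smul_smul₀ hxz, sub_self]
        · show φ₁ (ρ.ρ (r τ) (H.1 (ρ.ρ (r τ)⁻¹ u)) - H.1 u) = 0
          rw [map_sub, hq, hHφ, hHφ, mul_neg, ← hq, ← Module.End.mul_apply, rhoMulInv,
            Module.End.one_apply, sub_self]
      have key : M.ρ τ (two a) - two a =
          (a 0 * (cycK p k (r τ) - 1) + a 1 * φ₀ ((M.ρ τ H - H).1 v₁)) • N := by
        rw [htwo, map_add, map_smul, map_smul, hρN]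
        linear_combination (norm := module) a 1 • hHd
      symm
      rw [key]
      congr 1
      show _ = φ₀ (((a 0 * (cycK p k (r τ) - 1) + a 1 * φ₀ ((M.ρ τ H - H).1 v₁)) • N.1) v₁)
      rw [LinearMap.smul_apply, hN1, map_smul, h00, smul_eq_mul, mul_one]
  have hDker : finrank k (LinearMap.ker (cob.comp two)) ≤ finrank k M.ρ.invariants := by
    have : ∀ a ∈ LinearMap.ker (cob.comp two), two a ∈ M.ρ.invariants := by
      intro a ha τ
      have h := congrArg (fun x : cocycles₁ M =>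
        (x : primeLocalGaloisGroup (pPrime p) → M) τ) (LinearMap.mem_ker.1 ha)
      change (cob (two a) : primeLocalGaloisGroup (pPrime p) → M) τ = 0 at h
      rw [hcob, sub_eq_zero] at h
      exact h
    exact LinearMap.finrank_le_finrank_of_injective
      (f := ((two.domRestrict _).codRestrict _ fun a => this a.1 a.2))
      fun a b h => Subtype.ext (hinj (congrArg Subtype.val h))
  have hrange : finrank k (Z.map (H1π M).hom) ≤ finrank k M.ρ.invariants + 1 := by
    have h := finrank_map_add_le (H1π M).hom (cob.comp two) Z hcobZ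
      fun u => (H1π_eq_zero_iff _).2 ⟨two u, rfl⟩
    rw [Module.finrank_fin_fun] at h
    have h' : finrank k (Z.map (H1π M).hom) + 2 ≤ 3 + finrank k M.ρ.invariants :=
      le_trans h (Nat.add_le_add hZ3 hDker)
    omega
  refine ⟨Z.map (H1π M).hom, ?_, Module.Finite.map Z _, hrange, fun c hc T hcT => ?_⟩
  · rintro _ ⟨x, hx, rfl⟩
    exact H1π_mem_continuousH1 r M ((mem_levelCocycles₁_iff r M _).1 hx.1)
  · let cl : cocycles₁ M := mapCocycles₁ r (𝟙 M) c
    have hcl : ∀ τ, (cl : primeLocalGaloisGroup (pPrime p) → M) τ = c (r τ) := fun τ => rfl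
    have hmem : cl + cob T ∈ Z := by
      refine ⟨Submodule.add_mem _ ?_ ?_, ?_⟩
      · rw [mem_levelCocycles₁_iff]
        obtain ⟨F, hF, hcF⟩ := hc
        exact ⟨F, hF, fun g s hs => by
          rw [hcl, hcl, map_mul]; exact hcF (r g) (r s) hs⟩
      · rw [mem_levelCocycles₁_iff]
        have : ((cob T : cocycles₁ M) : primeLocalGaloisGroup (pPrime p) → M) =
            fun τ => M.ρ τ T - T := funext fun τ => hcob _ τ
        rw [this]; exact hlev _
      · refine ⟨fun τ => φ₀ ((c (r τ) + ((ad0 ρ).ρ (r τ) T - T)).1 v₁), funext fun τ => ?_⟩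
        rw [hΨ]
        show _ = (cl : primeLocalGaloisGroup (pPrime p) → M) τ + (cob T : _ → M) τ
        rw [hcl, hcob]
        exact (hmulN _ (hcT _ (hrD τ)).1 (hcT _ (hrD τ)).2).symm
    refine ⟨_, hmem, ?_⟩
    show (H1π M) (cl + cob T) = _
    rw [map_add, (H1π_eq_zero_iff (cob T)).2 ⟨T, rfl⟩, add_zero]
    exact (H1π_comp_map_apply r (𝟙 M) c).symm

/-- The strict ordinary local condition at `p`. -/
theorem strictOrdinary_local_bound (hp2 : p ≠ 2) :
    ∃ L : Submodule k (H1 (Rep.res (primeLocalToGlobal (pPrime p)) (ad0 ρ))),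
      L ≤ continuousH1 (primeLocalToGlobal (pPrime p))
          (Rep.res (primeLocalToGlobal (pPrime p)) (ad0 ρ)) ∧
      FiniteDimensional k L ∧
      finrank k L ≤
        finrank k (Rep.res (primeLocalToGlobal (pPrime p)) (ad0 ρ)).ρ.invariants + 1 ∧
      ∀ (c : cocycles₁ (ad0 ρ)) (hc : IsLevelConstant₁ (MonoidHom.id Γℚ) c),
        (adLift ρ c hc).IsStrictOrdinaryAt p →
        locPrime (pPrime p) (ad0 ρ) ((H1π (ad0 ρ)).hom c) ∈ L := by
  by_cases hex : ∃ v₀, IsOrdLine ρ p v₀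
  · obtain ⟨v₀, hv⟩ := hex
    obtain ⟨L, hL1, hL2, hL3, hL4⟩ := exists_local_line_classes p ρ hp2 hv
    refine ⟨L, hL1, hL2, hL3, fun c hc hord => ?_⟩
    obtain ⟨v₀', hv', T, hT⟩ := exists_ordLine_of_strictOrdinary ρ p hp2
      (Galois.padicPlace_liesOverPrime p) c hc hord
    have hmem : v₀' ∈ Submodule.span k {v₀} :=
      hv.mem_span ρ p (Galois.inertia_le_decomposition _) (exists_inertia_cycK_ne_one p k hp2) hv'
    obtain ⟨t, ht⟩ := Submodule.mem_span_singleton.1 hmem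
    have ht0 : t ≠ 0 := fun h => hv'.ne_zero (by rw [← ht, h, zero_smul])
    refine hL4 c hc T fun σ hσ => ⟨?_, fun u => ?_⟩
    · have h := (hT σ hσ).1
      rw [← ht, map_smul, smul_eq_zero] at h
      exact h.resolve_left ht0
    · have h := (hT σ hσ).2 u
      rwa [← ht, Submodule.span_singleton_smul_eq (IsUnit.mk0 t ht0)] at h
  · refine ⟨⊥, bot_le, inferInstance, by simp, fun c hc hord => absurd ?_ hex⟩
    obtain ⟨v₀, hv, -⟩ := exists_ordLine_of_strictOrdinary ρ p hp2
      (Galois.padicPlace_liesOverPrime p) c hc hord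
    exact ⟨v₀, hv⟩

end Fermat.Agent.TW
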