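import Fermat.Agent.TW.Ad
import Fermat.Agent.TW.LocalOrdinary
import Fermat.Agent.TW.LocalAway
import Fermat.Prelude.Def_GaloisRep_DeformationRingData
import Fermat.Prelude.Def_GaloisRep_StrictOrdinary
import Fermat.Prelude.Def_GaloisRep_Flat

set_option autoImplicit false

noncomputable section

open CategoryTheory groupCohomology ExtCitation Polynomial IsLocalRing Module

namespace Fermat.Agent.TW

local notation "Γℚ" => (AlgebraicClosure ℚ ≃ₐ[ℚ] AlgebraicClosure ℚ)

variable {k : Type} [Field k] [Finite k]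

/-- Owner helper80. The strict ordinary local condition at `p`. -/
theorem exists_strictOrdinary_local (p : ℕ) [Fact p.Prime] [CharP k p] (hp2 : p ≠ 2)
    (ρbar : ResidualGaloisRep k)
    (hdet : (GaloisRepAdic.ofResidualGaloisRep ρbar).DetIsCyclotomic p)
    (hord : (GaloisRepAdic.ofResidualGaloisRep ρbar).IsStrictOrdinaryAt p) :
    ∃ L : Submodule k (H1 (Rep.res (primeLocalToGlobal (pPrime p)) (ad0 ρbar))),
      L ≤ continuousH1 (primeLocalToGlobal (pPrime p)) (Rep.res (primeLocalToGlobal (pPrime p)) (ad0 ρbar)) ∧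
      FiniteDimensional k L ∧
      finrank k L ≤
        finrank k (Rep.res (primeLocalToGlobal (pPrime p)) (ad0 ρbar)).ρ.invariants + 1 ∧
      ∀ (c : cocycles₁ (ad0 ρbar)) (hc : IsLevelConstant₁ (MonoidHom.id Γℚ) c),
        (adLift ρbar c hc).DetIsCyclotomic p → (adLift ρbar c hc).IsStrictOrdinaryAt p →
        locPrime (pPrime p) (ad0 ρbar) ((H1π (ad0 ρbar)).hom c) ∈ L := by
  obtain ⟨L, h1, h2, h3, h4⟩ := strictOrdinary_local_bound p ρbar hp2
  exact ⟨L, h1, h2, h3, fun c hc _ h => h4 c hc h⟩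

/-- Owner helper80. The unipotent condition at a prime `q ≠ p` of ramification. -/
theorem exists_unipotent_local (p : ℕ) [Fact p.Prime] [CharP k p] (hp2 : p ≠ 2)
    (ρbar : ResidualGaloisRep k)
    (hdet : (GaloisRepAdic.ofResidualGaloisRep ρbar).DetIsCyclotomic p)
    (q : Nat.Primes) (hqp : (q : ℕ) ≠ p) (hram : ¬ ρbar.IsUnramifiedAt q)
    (huni : (GaloisRepAdic.ofResidualGaloisRep ρbar).IsUnipotentOnInertiaAt q) :
    ∃ L : Submodule k (H1 (Rep.res (primeLocalToGlobal q) (ad0 ρbar))),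
      L ≤ continuousH1 (primeLocalToGlobal q) (Rep.res (primeLocalToGlobal q) (ad0 ρbar)) ∧
      FiniteDimensional k L ∧
      finrank k L ≤ finrank k (Rep.res (primeLocalToGlobal q) (ad0 ρbar)).ρ.invariants ∧
      ∀ (c : cocycles₁ (ad0 ρbar)) (hc : IsLevelConstant₁ (MonoidHom.id Γℚ) c),
        (adLift ρbar c hc).DetIsCyclotomic p → (adLift ρbar c hc).IsUnipotentOnInertiaAt q →
        locPrime q (ad0 ρbar) ((H1π (ad0 ρbar)).hom c) ∈ L := by
  obtain ⟨L, h1, h2, h3, h4⟩ := unipotent_local_bound ρbar q p hp2 hqp hram huni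
  exact ⟨L, h1, h2, h3, fun c hc _ h => h4 c hc h⟩

/-- Owner helper80. At a Taylor–Wiles prime all continuous classes are allowed. -/
theorem finrank_continuousH1_taylorWiles (p : ℕ) [Fact p.Prime] [CharP k p] (hp2 : p ≠ 2)
    (ρbar : ResidualGaloisRep k)
    (hdet : (GaloisRepAdic.ofResidualGaloisRep ρbar).DetIsCyclotomic p)
    (q : Nat.Primes) (hq1 : p ∣ (q : ℕ) - 1) (hur : ρbar.IsUnramifiedAt q)
    (heig : ∀ P : ValuationSubring (AlgebraicClosure ℚ), P.LiesOverPrime (q : ℕ) →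
      ∀ φ : Γℚ, P.IsFrobeniusAt φ (q : ℕ) →
        ∃ α β : k, α ≠ β ∧ LinearMap.charpoly (ρbar.ρ φ) = (X - C α) * (X - C β)) :
    FiniteDimensional k
        (continuousH1 (primeLocalToGlobal q) (Rep.res (primeLocalToGlobal q) (ad0 ρbar))) ∧
      finrank k (continuousH1 (primeLocalToGlobal q) (Rep.res (primeLocalToGlobal q) (ad0 ρbar))) ≤
        finrank k (Rep.res (primeLocalToGlobal q) (ad0 ρbar)).ρ.invariants + 1 := by
  exact taylorWiles_local_bound ρbar q p hq1 hur heig

end Fermat.Agent.TW
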