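import Fermat.Agent.TW.LocalOrdinary
import Fermat.Agent.TWGal.Tame
import Fermat.Agent.Galois.PadicPlace
import Fermat.Prelude.Def_ExtEndgame_ProductionDatum
import Fermat.Prelude.Def_GroupCohomology_ContinuousH1

/-!
# Local cocycles at a prime `q` different from the residue characteristic

Unramified classes have dimension at most that of the invariants; when inertia acts trivially,
`q = 1` in the coefficients and the invariants are at most a line, all continuous classes together
have dimension at most one more.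
-/

set_option autoImplicit false

noncomputable section

open CategoryTheory groupCohomology ExtCitation Module

namespace Fermat.Agent.TW

variable (q : Nat.Primes)

/-- Inertia inside the local Galois group at `q`. -/
def localInertia : Subgroup (primeLocalGaloisGroup q) :=
  ((primeLocalPlace q).inertiaSubgroupIn ℚ).comap (primeLocalToGlobal q)

theorem mem_localInertia {τ : primeLocalGaloisGroup q} :
    τ ∈ localInertia q ↔ primeLocalToGlobal q τ ∈ (primeLocalPlace q).inertiaSubgroupIn ℚ :=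
  Iff.rfl

theorem primeLocalPlace_liesOverPrime : (primeLocalPlace q).LiesOverPrime (q : ℕ) :=
  haveI : Fact (q : ℕ).Prime := ⟨q.2⟩
  Galois.padicPlace_liesOverPrime (q : ℕ)

theorem primeLocalToGlobal_mem (τ : primeLocalGaloisGroup q) :
    primeLocalToGlobal q τ ∈ (primeLocalPlace q).decompositionSubgroup ℚ :=
  haveI : Fact (q : ℕ).Prime := ⟨q.2⟩
  localGaloisToGlobal_mem_decompositionSubgroup (q : ℕ) τ

theorem exists_local_preimage {σ : AlgebraicClosure ℚ ≃ₐ[ℚ] AlgebraicClosure ℚ}
    (hσ : σ ∈ (primeLocalPlace q).decompositionSubgroup ℚ) :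
    ∃ τ, primeLocalToGlobal q τ = σ := by
  have : Fact (q : ℕ).Prime := ⟨q.2⟩
  have h : σ ∈ (localGaloisToGlobal (q : ℕ)).range := by
    rw [Galois.localGaloisToGlobal_range]; exact hσ
  obtain ⟨τ, hτ⟩ := h
  exact ⟨τ, hτ⟩

theorem exists_local_frobenius :
    ∃ τ, (primeLocalPlace q).IsFrobeniusAt (primeLocalToGlobal q τ) (q : ℕ) := by
  obtain ⟨σ, hσ⟩ := Galois.exists_isFrobeniusAt (primeLocalPlace_liesOverPrime q) q.2
  obtain ⟨τ, hτ⟩ := exists_local_preimage q hσ.mem_decompositionSubgroup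
  exact ⟨τ, hτ.symm ▸ hσ⟩

variable {q} {τ₀ : primeLocalGaloisGroup q}

theorem exists_decomp_at_level
    (hτ₀ : (primeLocalPlace q).IsFrobeniusAt (primeLocalToGlobal q τ₀) (q : ℕ))
    (F : IntermediateField ℚ (AlgebraicClosure ℚ)) (hF : FiniteDimensional ℚ F)
    (τ : primeLocalGaloisGroup q) :
    ∃ (k : ℕ) (i : primeLocalGaloisGroup q), i ∈ localInertia q ∧
      primeLocalToGlobal q ((τ₀ ^ k * i)⁻¹ * τ) ∈ F.fixingSubgroup := by
  obtain ⟨k, i, hi, h⟩ := Galois.exists_pow_inertia_fixing (primeLocalPlace_liesOverPrime q) q.2 F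
    hτ₀ (primeLocalToGlobal_mem q τ)
  obtain ⟨i', hi'⟩ := exists_local_preimage q (Galois.inertia_le_decomposition _ hi)
  exact ⟨k, i', (mem_localInertia q).2 (hi' ▸ hi), by
    rw [map_mul, map_inv, map_mul, map_pow, hi']; exact h⟩

variable (q) in
/-- Inertia at a finite level is cyclic up to `q`-power torsion. -/
theorem exists_local_tame_generator (F : IntermediateField ℚ (AlgebraicClosure ℚ))
    (hF : FiniteDimensional ℚ F) :
    ∃ j ∈ localInertia q,
      (∀ i ∈ localInertia q, ∃ (n : ℤ) (N : ℕ),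
        primeLocalToGlobal q (((j ^ n)⁻¹ * i) ^ (q : ℕ) ^ N) ∈ F.fixingSubgroup) ∧
      ∀ τ, (primeLocalPlace q).IsFrobeniusAt (primeLocalToGlobal q τ) (q : ℕ) →
        ∀ i ∈ localInertia q, τ * i * τ⁻¹ ∈ localInertia q ∧ ∃ N : ℕ,
          primeLocalToGlobal q (((i ^ (q : ℕ))⁻¹ * (τ * i * τ⁻¹)) ^ (q : ℕ) ^ N)
            ∈ F.fixingSubgroup := by
  have hA := primeLocalPlace_liesOverPrime q
  obtain ⟨L, hL⟩ := TWGal.exists_tameLevel hA q.2 F
  obtain ⟨g, hg⟩ := L.exists_generator
  obtain ⟨j, hj⟩ := exists_local_preimage q (Galois.inertia_le_decomposition _ g.2)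
  let g' : ∀ i, i ∈ localInertia q → (primeLocalPlace q).inertiaSubgroupIn ℚ :=
    fun i hi => ⟨primeLocalToGlobal q i, hi⟩
  have hjI : j ∈ localInertia q := (mem_localInertia q).2 (hj ▸ g.2)
  have key : ∀ i, ∀ hi : i ∈ localInertia q, L.tameHom (g' i hi) = 1 →
      ∃ N : ℕ, primeLocalToGlobal q (i ^ (q : ℕ) ^ N) ∈ F.fixingSubgroup := by
    intro i hi h
    obtain ⟨N, hN⟩ := L.exists_pow_fix_of_tameHom hA q.2 _ h
    refine ⟨N, (IntermediateField.mem_fixingSubgroup_iff _ _).2 fun x hx => ?_⟩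
    rw [map_pow]
    exact hN x (hL hx)
  refine ⟨j, hjI, fun i hi => ?_, fun τ hτ i hi => ?_⟩
  · obtain ⟨n, hn⟩ := Subgroup.mem_zpowers_iff.1 (hg (g' i hi))
    have hmem : (j ^ n)⁻¹ * i ∈ localInertia q := mul_mem (inv_mem (zpow_mem hjI n)) hi
    obtain ⟨N, hN⟩ := key _ hmem (by
      have : g' _ hmem = (g ^ n)⁻¹ * g' i hi := Subtype.ext (by
        show primeLocalToGlobal q ((j ^ n)⁻¹ * i) = _
        rw [map_mul, map_inv, map_zpow, hj]; rfl)
      rw [this, map_mul, map_inv, map_zpow, hn, inv_mul_cancel])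
    exact ⟨n, N, hN⟩
  · have hconj : τ * i * τ⁻¹ ∈ localInertia q := by
      rw [mem_localInertia, map_mul, map_mul, map_inv]
      exact Galois.inertia_normal_in_decomposition hi (primeLocalToGlobal_mem q τ)
    have hmem : (i ^ (q : ℕ))⁻¹ * (τ * i * τ⁻¹) ∈ localInertia q :=
      mul_mem (inv_mem (pow_mem hi _)) hconj
    refine ⟨hconj, key _ hmem ?_⟩
    have hmem' : primeLocalToGlobal q τ * (g' i hi).1 * (primeLocalToGlobal q τ)⁻¹ ∈
        (primeLocalPlace q).inertiaSubgroupIn ℚ :=
      Galois.inertia_normal_in_decomposition hi (primeLocalToGlobal_mem q τ)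
    have : g' _ hmem = ((g' i hi) ^ (q : ℕ))⁻¹ * ⟨_, hmem'⟩ := Subtype.ext (by
      show primeLocalToGlobal q ((i ^ (q : ℕ))⁻¹ * (τ * i * τ⁻¹)) = _
      simp only [map_mul, map_inv, map_pow]; rfl)
    rw [this, map_mul, map_inv, map_pow, L.tameHom_conj hA q.2 hτ _ hmem', inv_mul_cancel]

section Cocycles

variable {k : Type} [Field k] (M : Rep k (primeLocalGaloisGroup q))

/-- Coboundary as a map to cocycles. -/
def localCoboundary : M →ₗ[k] cocycles₁ M :=
  LinearMap.codRestrict (cocycles₁ M) (d₀₁ M).hom fun X => coboundaries₁_le_cocycles₁ M ⟨X, rfl⟩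

theorem localCoboundary_apply (X : M) (τ : primeLocalGaloisGroup q) :
    (localCoboundary M X : primeLocalGaloisGroup q → M) τ = M.ρ τ X - X :=
  d₀₁_hom_apply M X τ

theorem localCoboundary_H1π (X : M) : (H1π M).hom (localCoboundary M X) = 0 :=
  (H1π_eq_zero_iff _).2 ⟨X, rfl⟩

variable {M}

theorem localCocycle_mul (c : cocycles₁ M) (a b : primeLocalGaloisGroup q) :
    c (a * b) = M.ρ a (c b) + c a :=
  (mem_cocycles₁_iff c.1).1 c.2 a b

theorem localCocycle_pow {c : cocycles₁ M} {w : primeLocalGaloisGroup q}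
    (hw : ∀ m, M.ρ w m = m) (n : ℕ) : c (w ^ n) = n • c w := by
  induction n with
  | zero => simp [cocycles₁_map_one]
  | succ n ih => rw [pow_succ', localCocycle_mul, hw, ih, succ_nsmul]

theorem localCocycle_pow_eq_zero {c : cocycles₁ M} {w : primeLocalGaloisGroup q}
    (hw : c w = 0) (n : ℕ) : c (w ^ n) = 0 := by
  induction n with
  | zero => exact cocycles₁_map_one c
  | succ n ih => rw [pow_succ', localCocycle_mul, hw, ih, map_zero, add_zero]

theorem localCocycle_zpow_eq_zero {c : cocycles₁ M} {w : primeLocalGaloisGroup q}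
    (hw : c w = 0) (n : ℤ) : c (w ^ n) = 0 := by
  have hinv : ∀ v, c v = 0 → c v⁻¹ = 0 := fun v hv => by
    have h := localCocycle_mul c v⁻¹ v
    rw [inv_mul_cancel, cocycles₁_map_one, hv, map_zero, zero_add] at h
    exact h.symm
  obtain ⟨m, rfl | rfl⟩ := Int.eq_nat_or_neg n
  · rw [zpow_natCast]; exact localCocycle_pow_eq_zero hw m
  · rw [zpow_neg, zpow_natCast]; exact hinv _ (localCocycle_pow_eq_zero hw m)

theorem isLevelConstant₁_localCoboundary
    (hM : ∃ F : IntermediateField ℚ (AlgebraicClosure ℚ), FiniteDimensional ℚ F ∧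
      ∀ τ, primeLocalToGlobal q τ ∈ F.fixingSubgroup → ∀ m, M.ρ τ m = m) (X : M) :
    localCoboundary M X ∈ levelCocycles₁ (primeLocalToGlobal q) M := by
  obtain ⟨F, hF, hρ⟩ := hM
  refine (mem_levelCocycles₁_iff _ _ _).2 ⟨F, hF, fun g s hs => ?_⟩
  rw [localCoboundary_apply, localCoboundary_apply, map_mul, Module.End.mul_apply, hρ s hs]

/-- A cocycle killing inertia and a Frobenius is zero. -/
theorem localCocycle_eq_zero
    (hτ₀ : (primeLocalPlace q).IsFrobeniusAt (primeLocalToGlobal q τ₀) (q : ℕ))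
    {c : cocycles₁ M} (hc : IsLevelConstant₁ (primeLocalToGlobal q) c)
    (hI : ∀ i ∈ localInertia q, c i = 0) (h0 : c τ₀ = 0) : c = 0 := by
  obtain ⟨F, hF, hcF⟩ := hc
  refine Subtype.ext (funext fun τ => ?_)
  obtain ⟨n, i, hi, hs⟩ := exists_decomp_at_level hτ₀ F hF τ
  have h := hcF (τ₀ ^ n * i) _ hs
  rw [mul_inv_cancel_left] at h
  show c τ = 0
  rw [h, localCocycle_mul, hI i hi, localCocycle_pow_eq_zero h0, map_zero, add_zero]

variable [Finite k] [FiniteDimensional k M]
  (hM : ∃ F : IntermediateField ℚ (AlgebraicClosure ℚ), FiniteDimensional ℚ F ∧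
    ∀ τ, primeLocalToGlobal q τ ∈ F.fixingSubgroup → ∀ m, M.ρ τ m = m)

include hM in
omit [Finite k] in
/-- Unramified classes form a space of dimension at most that of the invariants. -/
theorem exists_unramified_classes :
    ∃ L : Submodule k (H1 M),
      L ≤ continuousH1 (primeLocalToGlobal q) M ∧ FiniteDimensional k L ∧
      finrank k L ≤ finrank k M.ρ.invariants ∧
      ∀ c : cocycles₁ M, IsLevelConstant₁ (primeLocalToGlobal q) c →
        (∃ T : M, ∀ i ∈ localInertia q, c i + (M.ρ i T - T) = 0) → (H1π M).hom c ∈ L := by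
  obtain ⟨τ₀, hτ₀⟩ := exists_local_frobenius q
  let Z : Submodule k (cocycles₁ M) := levelCocycles₁ (primeLocalToGlobal q) M ⊓
    { carrier := {c | ∀ i ∈ localInertia q, c i = 0}
      add_mem' := fun {a b} ha hb i hi => by
        show a i + b i = 0
        rw [ha i hi, hb i hi, add_zero]
      zero_mem' := fun i _ => rfl
      smul_mem' := fun t a ha i hi => by
        show t • a i = 0
        rw [ha i hi, smul_zero] }
  let MI : Submodule k M := ⨅ i ∈ localInertia q, LinearMap.ker (M.ρ i - 1)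
  have hMI : ∀ m, m ∈ MI ↔ ∀ i ∈ localInertia q, M.ρ i m = m := fun m => by
    simp [MI, Submodule.mem_iInf, sub_eq_zero]
  have hev : ∀ c : cocycles₁ M, c ∈ Z → c τ₀ ∈ MI := by
    intro c hc
    rw [hMI]
    intro i hi
    have hi' : τ₀⁻¹ * i * τ₀ ∈ localInertia q := by
      rw [mem_localInertia, map_mul, map_mul, map_inv]
      simpa using Galois.inertia_normal_in_decomposition hi
        (inv_mem (primeLocalToGlobal_mem q τ₀))
    have h1 := localCocycle_mul c i τ₀
    rw [hc.2 i hi, add_zero, show i * τ₀ = τ₀ * (τ₀⁻¹ * i * τ₀) by group, localCocycle_mul,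
      hc.2 _ hi', map_zero, zero_add] at h1
    exact h1.symm
  let ev : Z →ₗ[k] MI :=
    { toFun := fun c => ⟨c.1 τ₀, hev c.1 c.2⟩
      map_add' := fun _ _ => rfl
      map_smul' := fun _ _ => rfl }
  have hevinj : Function.Injective ev := by
    intro a b hab
    refine Subtype.ext ?_
    have hz : (a.1 - b.1 : cocycles₁ M) = 0 := by
      refine localCocycle_eq_zero hτ₀ ((mem_levelCocycles₁_iff _ _ _).1
        (Submodule.sub_mem _ a.2.1 b.2.1)) (fun i hi => ?_) ?_
      · show a.1 i - b.1 i = 0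
        rw [a.2.2 i hi, b.2.2 i hi, sub_zero]
      · show a.1 τ₀ - b.1 τ₀ = 0
        exact sub_eq_zero.2 (congrArg Subtype.val hab)
    exact sub_eq_zero.1 hz
  have : FiniteDimensional k Z := FiniteDimensional.of_injective ev hevinj
  have hZle : finrank k Z ≤ finrank k MI := LinearMap.finrank_le_finrank_of_injective hevinj
  let g : MI →ₗ[k] cocycles₁ M := (localCoboundary M).comp MI.subtype
  have hker : finrank k (LinearMap.ker g) ≤ finrank k M.ρ.invariants := by
    have : ∀ x ∈ LinearMap.ker g, (x : M) ∈ M.ρ.invariants := by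
      intro x hx τ
      have h := congrArg (fun y : cocycles₁ M => (y : primeLocalGaloisGroup q → M) τ)
        (LinearMap.mem_ker.1 hx)
      change (localCoboundary M x.1 : primeLocalGaloisGroup q → M) τ = 0 at h
      rw [localCoboundary_apply, sub_eq_zero] at h
      exact h
    exact LinearMap.finrank_le_finrank_of_injective
      (f := ((MI.subtype.domRestrict _).codRestrict _ fun a => this a.1 a.2))
      fun a b h => Subtype.ext (Subtype.ext (congrArg Subtype.val h :))
  refine ⟨Z.map (H1π M).hom, ?_, Module.Finite.map Z _, ?_, fun c hc hT => ?_⟩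
  · rintro _ ⟨x, hx, rfl⟩
    exact H1π_mem_continuousH1 _ M ((mem_levelCocycles₁_iff _ M _).1 hx.1)
  · have h := finrank_map_add_le (H1π M).hom g Z (fun u => ⟨isLevelConstant₁_localCoboundary hM _,
      fun i hi => by
        rw [show (g u : cocycles₁ M) i = M.ρ i u.1 - u.1 from localCoboundary_apply M _ _,
          (hMI _).1 u.2 i hi, sub_self]⟩) (fun u => localCoboundary_H1π M _)
    have h' : finrank k (Z.map (H1π M).hom) + finrank k MI ≤
        finrank k MI + finrank k M.ρ.invariants := h.trans (Nat.add_le_add hZle hker)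
    omega
  · obtain ⟨T, hT⟩ := hT
    refine ⟨c + localCoboundary M T, ⟨Submodule.add_mem _ ((mem_levelCocycles₁_iff _ M _).2 hc)
      (isLevelConstant₁_localCoboundary hM T), fun i hi => ?_⟩, ?_⟩
    · show c i + (localCoboundary M T : primeLocalGaloisGroup q → M) i = 0
      rw [localCoboundary_apply]
      exact hT i hi
    · rw [map_add, localCoboundary_H1π, add_zero]

include hM in
omit [Finite k] in
/-- All continuous classes, when inertia acts trivially, `q = 1` in `k` and the invariants form at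
most a line. -/
theorem finrank_continuousH1_le_of_unramified (hI : ∀ i ∈ localInertia q, ∀ m, M.ρ i m = m)
    (hq : ((q : ℕ) : k) = 1) (hinv : finrank k M.ρ.invariants ≤ 1) :
    FiniteDimensional k (continuousH1 (primeLocalToGlobal q) M) ∧
      finrank k (continuousH1 (primeLocalToGlobal q) M) ≤ finrank k M.ρ.invariants + 1 := by
  classical
  obtain ⟨τ₀, hτ₀⟩ := exists_local_frobenius q
  have hfix : ∀ m, M.ρ τ₀ m = m → m ∈ M.ρ.invariants := by
    intro m hm τ
    obtain ⟨F, hF, hρ⟩ := hM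
    obtain ⟨n, i, hi, hs⟩ := exists_decomp_at_level hτ₀ F hF τ
    have hn : ∀ n : ℕ, M.ρ (τ₀ ^ n) m = m := by
      intro n
      induction n with
      | zero => simp
      | succ n ih => rw [pow_succ, map_mul, Module.End.mul_apply, hm, ih]
    calc M.ρ τ m = M.ρ (τ₀ ^ n * i * ((τ₀ ^ n * i)⁻¹ * τ)) m := by rw [mul_inv_cancel_left]
      _ = m := by
        rw [map_mul, Module.End.mul_apply, hρ _ hs, map_mul, Module.End.mul_apply, hI i hi, hn]
  set Z := levelCocycles₁ (primeLocalToGlobal q) M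
  have hq0 : ∀ (N : ℕ) (x : M), ((q : ℕ) ^ N) • x = x := fun N x => by
    rw [← Nat.cast_smul_eq_nsmul k, Nat.cast_pow, hq, one_pow, one_smul]
  have hadd : ∀ (c : cocycles₁ M) (a b : primeLocalGaloisGroup q), a ∈ localInertia q →
      c (a * b) = c b + c a := fun c a b ha => by rw [localCocycle_mul, hI a ha]
  let Res : Z →ₗ[k] (localInertia q → M) :=
    { toFun := fun c i => c.1 i.1
      map_add' := fun _ _ => rfl
      map_smul' := fun _ _ => rfl }
  have hgen : ∀ a b : Z, Res a ≠ 0 → ∃ t : k, Res b = t • Res a := by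
    intro a b ha
    obtain ⟨Fa, hFa, hca⟩ := (mem_levelCocycles₁_iff _ _ _).1 a.2
    obtain ⟨Fb, hFb, hcb⟩ := (mem_levelCocycles₁_iff _ _ _).1 b.2
    have hF : FiniteDimensional ℚ (Fa ⊔ Fb : IntermediateField ℚ (AlgebraicClosure ℚ)) :=
      IntermediateField.finiteDimensional_sup Fa Fb
    obtain ⟨j, hj, hjgen, hjfrob⟩ := exists_local_tame_generator q (Fa ⊔ Fb) hF
    have hzero : ∀ c : Z, c = a ∨ c = b → ∀ w ∈ localInertia q, ∀ N : ℕ,
        primeLocalToGlobal q (w ^ (q : ℕ) ^ N) ∈ (Fa ⊔ Fb).fixingSubgroup → c.1 w = 0 := by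
      intro c hc w hw N hN
      have h1 : c.1 (w ^ (q : ℕ) ^ N) = 0 := by
        rcases hc with rfl | rfl
        · have := hca 1 _ (IntermediateField.fixingSubgroup_antitone le_sup_left hN)
          rwa [one_mul, cocycles₁_map_one] at this
        · have := hcb 1 _ (IntermediateField.fixingSubgroup_antitone le_sup_right hN)
          rwa [one_mul, cocycles₁_map_one] at this
      rwa [localCocycle_pow (hI w hw), hq0] at h1
    have hval : ∀ c : Z, c = a ∨ c = b →
        (∀ i ∈ localInertia q, ∀ (n : ℤ) (N : ℕ),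
          primeLocalToGlobal q (((j ^ n)⁻¹ * i) ^ (q : ℕ) ^ N) ∈ (Fa ⊔ Fb).fixingSubgroup →
            c.1 i = n • c.1 j) ∧ c.1 j ∈ M.ρ.invariants := by
      intro c hc
      have hz : ∀ n : ℤ, c.1 (j ^ n) = n • c.1 j := by
        intro n
        let f : localInertia q →* Multiplicative M := MonoidHom.mk'
          (fun i => Multiplicative.ofAdd (c.1 i.1)) fun x y => by
            show Multiplicative.ofAdd (c.1 (x.1 * y.1)) = _
            rw [hadd _ _ _ x.2, add_comm]; rfl
        have := congrArg Multiplicative.toAdd (map_zpow f ⟨j, hj⟩ n)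
        simpa [f] using this
      refine ⟨fun i hi n N hN => ?_, hfix _ ?_⟩
      · have hw : (j ^ n)⁻¹ * i ∈ localInertia q := mul_mem (inv_mem (zpow_mem hj n)) hi
        have h := hadd c.1 (j ^ n) ((j ^ n)⁻¹ * i) (zpow_mem hj n)
        rw [mul_inv_cancel_left, hzero c hc _ hw N hN, zero_add, hz] at h
        exact h
      · obtain ⟨hconj, N, hN⟩ := hjfrob τ₀ hτ₀ j hj
        have hw : (j ^ (q : ℕ))⁻¹ * (τ₀ * j * τ₀⁻¹) ∈ localInertia q :=
          mul_mem (inv_mem (pow_mem hj _)) hconj
        have h := hadd c.1 (j ^ (q : ℕ)) ((j ^ (q : ℕ))⁻¹ * (τ₀ * j * τ₀⁻¹))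
          (pow_mem hj (q : ℕ))
        rw [mul_inv_cancel_left, hzero c hc _ hw N hN, zero_add, localCocycle_pow (hI j hj),
          ← pow_one (q : ℕ), hq0] at h
        have h2 := localCocycle_mul c.1 (τ₀ * j * τ₀⁻¹) τ₀
        rw [inv_mul_cancel_right, hI _ hconj, localCocycle_mul c.1 τ₀ j, h,
          add_comm (c.1 τ₀) (c.1 j)] at h2
        exact add_right_cancel h2
    obtain ⟨hva, hainv⟩ := hval a (Or.inl rfl)
    obtain ⟨hvb, hbinv⟩ := hval b (Or.inr rfl)
    have hane : a.1 j ≠ 0 := by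
      intro h0
      refine ha (funext fun i => ?_)
      obtain ⟨n, N, hn⟩ := hjgen i.1 i.2
      show a.1 i.1 = 0
      rw [hva _ i.2 n N hn, h0, smul_zero]
    have hne : (⟨a.1 j, hainv⟩ : M.ρ.invariants) ≠ 0 := fun h => hane (congrArg Subtype.val h)
    have h1 : finrank k M.ρ.invariants = 1 := by
      refine le_antisymm hinv ?_
      exact Module.finrank_pos_iff_exists_ne_zero.2 ⟨_, hne⟩
    obtain ⟨t, ht⟩ := exists_smul_eq_of_finrank_eq_one h1 hne ⟨b.1 j, hbinv⟩
    refine ⟨t, funext fun i => ?_⟩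
    obtain ⟨n, N, hn⟩ := hjgen i.1 i.2
    show b.1 i.1 = t • a.1 i.1
    have ht' : t • a.1 j = b.1 j := congrArg Subtype.val ht
    rw [hva _ i.2 n N hn, hvb _ i.2 n N hn, ← ht', smul_comm]
  have hR : ∃ v, LinearMap.range Res ≤ Submodule.span k {v} := by
    by_cases h : ∀ a, Res a = 0
    · exact ⟨0, by rintro _ ⟨a, rfl⟩; rw [h a]; exact Submodule.zero_mem _⟩
    · push Not at h
      obtain ⟨a, ha⟩ := h
      refine ⟨Res a, ?_⟩
      rintro _ ⟨b, rfl⟩
      obtain ⟨t, ht⟩ := hgen a b ha
      exact Submodule.mem_span_singleton.2 ⟨t, ht.symm⟩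
  obtain ⟨v, hv⟩ := hR
  have : FiniteDimensional k (LinearMap.range Res) := Submodule.finiteDimensional_of_le hv
  have hR1 : finrank k (LinearMap.range Res) ≤ 1 :=
    (Submodule.finrank_mono hv).trans ((finrank_span_le_card ({v} : Set _)).trans (by simp))
  let ev : Z →ₗ[k] M × LinearMap.range Res :=
    LinearMap.prod { toFun := fun c => c.1 τ₀, map_add' := fun _ _ => rfl,
                     map_smul' := fun _ _ => rfl } Res.rangeRestrict
  have hevinj : Function.Injective ev := by
    intro a b hab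
    have h1 : a.1 τ₀ = b.1 τ₀ := congrArg Prod.fst hab
    have h2 : Res a = Res b := congrArg Subtype.val (congrArg Prod.snd hab)
    refine Subtype.ext (sub_eq_zero.1 ?_)
    refine localCocycle_eq_zero hτ₀ ((mem_levelCocycles₁_iff _ _ _).1
      (Submodule.sub_mem _ a.2 b.2)) (fun i hi => ?_) ?_
    · show a.1 i - b.1 i = 0
      exact sub_eq_zero.2 (congrFun h2 ⟨i, hi⟩)
    · show a.1 τ₀ - b.1 τ₀ = 0
      exact sub_eq_zero.2 h1
  have : FiniteDimensional k Z := FiniteDimensional.of_injective ev hevinj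
  have hZle : finrank k Z ≤ finrank k M + 1 :=
    (LinearMap.finrank_le_finrank_of_injective hevinj).trans
      (by rw [Module.finrank_prod]; omega)
  have hker : finrank k (LinearMap.ker (localCoboundary M)) ≤ finrank k M.ρ.invariants := by
    refine Submodule.finrank_mono fun x hx τ => ?_
    have h := congrArg (fun y : cocycles₁ M => (y : primeLocalGaloisGroup q → M) τ)
      (LinearMap.mem_ker.1 hx)
    change (localCoboundary M x : primeLocalGaloisGroup q → M) τ = 0 at h
    rw [localCoboundary_apply, sub_eq_zero] at h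
    exact h
  have h := finrank_map_add_le (H1π M).hom (localCoboundary M) Z
    (fun u => isLevelConstant₁_localCoboundary hM u) (fun u => localCoboundary_H1π M u)
  have h' : finrank k (Z.map (H1π M).hom) + finrank k M ≤
      (finrank k M + 1) + finrank k M.ρ.invariants := h.trans (Nat.add_le_add hZle hker)
  exact ⟨Module.Finite.map Z _, by
    show finrank k (Z.map (H1π M).hom) ≤ _
    omega⟩

end Cocycles

end Fermat.Agent.TW
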