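import Fermat.Agent.Tangent.Basis
import Fermat.Agent.Tangent.Conditions

/-!
# The residual representation of a deformation as a base change
-/

set_option autoImplicit false
set_option linter.style.haveILetI false

noncomputable section

open IsLocalRing
open scoped TensorProduct

namespace Fermat.Agent.TW

variable {𝒪 R : Type} [CommRing 𝒪] [IsLocalRing 𝒪] [CommRing R] [IsLocalRing R] [Algebra 𝒪 R]
  [IsLocalHom (algebraMap 𝒪 R)]
  (hres : Function.Surjective (IsLocalRing.residue R ∘ algebraMap 𝒪 R))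

theorem res0_surjective : Function.Surjective (Tangent.res0 𝒪 R hres) := fun x => by
  obtain ⟨a, rfl⟩ := residue_surjective x
  exact ⟨algebraMap 𝒪 R a, Tangent.res0_algebraMap 𝒪 R hres a⟩

theorem isLocalHom_res0 : IsLocalHom (Tangent.res0 𝒪 R hres) :=
  ⟨fun a ha => by
    by_contra h
    exact ha.ne_zero ((Tangent.res0_eq_zero_iff 𝒪 R hres a).2 ((mem_maximalIdeal a).2 h))⟩

/-- A deformation reduces to the residual representation along `res0`. -/
theorem baseChangeAlong_res0_isEquiv {ρbar : ResidualGaloisRep (ResidueField 𝒪)}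
    (ρ : GaloisRepAdic R)
    (e : ρ.residual.IsEquiv (ρbar.baseChangeAlong (ResidueField.map (algebraMap 𝒪 R)))) :
    (ρ.baseChangeAlong (Tangent.res0 𝒪 R hres) (isLocalHom_res0 hres)).IsEquiv
      (GaloisRepAdic.ofResidualGaloisRep ρbar) := by
  obtain ⟨F, rfl⟩ := Tangent.exists_framedLift hres ρbar ρ e
  letI : Algebra R (ResidueField 𝒪) := (Tangent.res0 𝒪 R hres).toAlgebra
  let E : (ResidueField 𝒪 ⊗[R] F.rep.V) ≃ₗ[ResidueField 𝒪] ρbar.V :=
    (F.basis.baseChange (ResidueField 𝒪)).equiv F.basisBar (Equiv.refl _)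
  refine ⟨⟨E, fun σ x => ?_⟩⟩
  show E ((F.rep.ρ σ).baseChange (ResidueField 𝒪) x) = ρbar.ρ σ (E x)
  suffices h : E.toLinearMap ∘ₗ (F.rep.ρ σ).baseChange (ResidueField 𝒪)
      = (ρbar.ρ σ) ∘ₗ E.toLinearMap from LinearMap.congr_fun h x
  refine (F.basis.baseChange (ResidueField 𝒪)).ext fun j => ?_
  have hE : ∀ i, E ((1 : ResidueField 𝒪) ⊗ₜ[R] F.basis i) = F.basisBar i := fun i => by
    rw [← Module.Basis.baseChange_apply]
    exact Module.Basis.equiv_apply _ _ _ _
  simp only [LinearMap.comp_apply, LinearEquiv.coe_coe, Module.Basis.baseChange_apply,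
    LinearMap.baseChange_tmul, hE]
  conv_lhs => rw [← F.basis.sum_repr (F.rep.ρ σ (F.basis j))]
  conv_rhs => rw [← F.basisBar.sum_repr (ρbar.ρ σ (F.basisBar j))]
  rw [TensorProduct.tmul_sum, map_sum]
  refine Finset.sum_congr rfl fun i _ => ?_
  rw [TensorProduct.tmul_smul, ← algebraMap_smul (ResidueField 𝒪) (F.basis.repr _ i), map_smul, hE]
  congr 1
  have h := F.res0_mat σ i j
  rw [LinearMap.toMatrix_apply, LinearMap.toMatrix_apply] at h
  exact h

end Fermat.Agent.TW
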