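import Fermat.Agent.TW.Ad
import Fermat.Agent.Tangent.PowerSeries
import Fermat.Agent.Tangent.Universal
import Fermat.Prelude.Def_GaloisRep_DeformationRingData
import Fermat.Prelude.Def_GaloisRep_StrictOrdinary
import Fermat.Prelude.Def_GaloisRep_Flat

/-!
# Tangent classes bound the number of generators of a deformation ring
-/

set_option autoImplicit false
set_option linter.style.haveILetI false
set_option linter.unusedSectionVars false

noncomputable section

open CategoryTheory groupCohomology ExtCitation Polynomial IsLocalRing Module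

namespace Fermat.Agent.TW

local notation "Γℚ" => (AlgebraicClosure ℚ ≃ₐ[ℚ] AlgebraicClosure ℚ)

/-- An automorphism acts on the `p`-th roots of unity by a fixed exponent. -/
theorem exists_exponent_on_roots_of_unity (p : ℕ) [Fact p.Prime] (σ : Γℚ) :
    ∃ a : ℕ, ∀ μ : AlgebraicClosure ℚ, μ ^ p ^ 1 = 1 → σ μ = μ ^ a := by
  haveI : NeZero p := ⟨(Fact.out : p.Prime).ne_zero⟩
  obtain ⟨ζ, hζ⟩ := HasEnoughRootsOfUnity.exists_primitiveRoot (AlgebraicClosure ℚ) p
  obtain ⟨a, -, ha⟩ := hζ.eq_pow_of_pow_eq_one (ξ := σ ζ) (by rw [← map_pow, hζ.pow_eq_one, map_one])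
  refine ⟨a, fun μ hμ => ?_⟩
  obtain ⟨i, -, rfl⟩ := hζ.eq_pow_of_pow_eq_one (ξ := μ) (by rwa [pow_one] at hμ)
  rw [map_pow, ← ha, ← pow_mul, ← pow_mul, mul_comm]

theorem detConstant_of_detIsCyclotomic {𝒪 R : Type} [CommRing 𝒪] [IsLocalRing 𝒪] [CommRing R]
    [IsLocalRing R] [Algebra 𝒪 R] [IsLocalHom (algebraMap 𝒪 R)]
    {hres : Function.Surjective (IsLocalRing.residue R ∘ algebraMap 𝒪 R)}
    {ρbar : ResidualGaloisRep (ResidueField 𝒪)} (F : Tangent.FramedLift 𝒪 R hres ρbar)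
    (p : ℕ) [Fact p.Prime] (hp𝒪 : (p : 𝒪) ∈ maximalIdeal 𝒪) (hdet : F.rep.DetIsCyclotomic p) :
    F.DetConstant := by
  intro f σ
  obtain ⟨a, ha⟩ := exists_exponent_on_roots_of_unity p σ
  obtain ⟨y, hy⟩ := Ideal.mem_span_singleton'.mp (hdet.2 1 σ a ha)
  rw [sub_eq_iff_eq_add.mp hy.symm, pow_one, ← map_natCast (algebraMap 𝒪 R) p,
    ← map_natCast (algebraMap 𝒪 R) a, Tangent.cotDer, Tangent.cotPart_add, Tangent.cotPart_mul,
    Tangent.cotPart_algebraMap, Tangent.cotPart_algebraMap, Tangent.res0_algebraMap,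
    (residue_eq_zero_iff _).mpr hp𝒪]
  simp

/-- Owner helper79. A deformation ring is a quotient of a power series ring in `r` variables as soon
as the classes of its tangent lifts lie in a space of dimension at most `r`. -/
theorem exists_mvPowerSeries_surjective_of_classes
    {𝒪 : Type} [CommRing 𝒪] [IsDomain 𝒪] [IsDiscreteValuationRing 𝒪]
    [IsAdicComplete (maximalIdeal 𝒪) 𝒪] [Finite (ResidueField 𝒪)]
    (p : ℕ) [Fact p.Prime] (_hp2 : p ≠ 2) (hp𝒪 : (p : 𝒪) ∈ maximalIdeal 𝒪)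
    {ρbar : ResidualGaloisRep (ResidueField 𝒪)}
    {𝒟 : ∀ ⦃A : Type⦄ [CommRing A] [IsLocalRing A] [Algebra 𝒪 A], GaloisRepAdic A → Prop}
    (DQ : GaloisRep.DeformationRingData 𝒪 ρbar 𝒟)
    (hdet : DQ.ρ.DetIsCyclotomic p)
    (hbase : ∀ (φ : DQ.R →ₐ[𝒪] DualNumber (ResidueField 𝒪))
      (hφ : IsLocalHom (φ : DQ.R →+* DualNumber (ResidueField 𝒪))),
      Function.Surjective φ → 𝒟 (DQ.ρ.baseChangeAlong (φ : DQ.R →+* DualNumber (ResidueField 𝒪)) hφ))
    (Sel : Submodule (ResidueField 𝒪) (H1 (ad0 ρbar)))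
    [FiniteDimensional (ResidueField 𝒪) Sel]
    (hSel : ∀ (φ : DQ.R →ₐ[𝒪] DualNumber (ResidueField 𝒪))
      (hφ : IsLocalHom (φ : DQ.R →+* DualNumber (ResidueField 𝒪))),
      Function.Surjective φ →
      ∀ (c : cocycles₁ (ad0 ρbar)) (hc : IsLevelConstant₁ (MonoidHom.id Γℚ) c),
        (DQ.ρ.baseChangeAlong (φ : DQ.R →+* DualNumber (ResidueField 𝒪)) hφ).IsEquiv
          (adLift ρbar c hc) →
        (H1π (ad0 ρbar)).hom c ∈ Sel)
    (r : ℕ) (hr : finrank (ResidueField 𝒪) Sel ≤ r) :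
    ∃ γ : MvPowerSeries (Fin r) 𝒪 →ₐ[𝒪] DQ.R, Function.Surjective γ := by
  obtain ⟨F, hF⟩ := Tangent.exists_framedLift DQ.residue_surjective ρbar DQ.ρ DQ.residual_isEquiv
  have hd : F.DetConstant := detConstant_of_detIsCyclotomic F p hp𝒪 (hF ▸ hdet)
  let Φ : Module.Dual (ResidueField 𝒪) (Tangent.cotSpace 𝒪 DQ.R) →ₗ[ResidueField 𝒪] Sel :=
    LinearMap.codRestrict Sel ((H1π (ad0 ρbar)).hom ∘ₗ F.cocycle hd) fun f => by
      rcases eq_or_ne f 0 with rfl | hf
      · rw [map_zero]; exact zero_mem _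
      · refine hSel _ (Tangent.isLocalHom_dualHom (hres := DQ.residue_surjective) f)
          (Tangent.dualHom_surjective 𝒪 DQ.R DQ.residue_surjective hf)
          _ (F.isLevelConstant₁_cocycle f hd) ?_
        have := F.baseChangeAlong_equiv_adLift f hd
        rwa [hF] at this
  have hΦ : Function.Injective Φ := by
    rw [← LinearMap.ker_eq_bot, LinearMap.ker_eq_bot']
    intro f hf
    refine Tangent.eq_zero_of_coboundary DQ F hF hd f ((H1π_eq_zero_iff _).mp ?_) fun hne => ?_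
    · exact congrArg Subtype.val hf
    · exact hbase _ _ (Tangent.dualHom_surjective 𝒪 DQ.R DQ.residue_surjective hne)
  haveI : Module.Finite (ResidueField 𝒪)
      (Module.Dual (ResidueField 𝒪) (Tangent.cotSpace 𝒪 DQ.R)) := Module.Finite.of_injective Φ hΦ
  haveI : Module.Finite (ResidueField 𝒪) (Tangent.cotSpace 𝒪 DQ.R) :=
    (Module.finite_dual_iff _).mp inferInstance
  have hle : finrank (ResidueField 𝒪) (Tangent.cotSpace 𝒪 DQ.R) ≤ r := by
    rw [← Subspace.dual_finrank_eq]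
    exact (LinearMap.finrank_le_finrank_of_injective hΦ).trans hr
  obtain ⟨x, hx⟩ := Tangent.exists_generators 𝒪 DQ.R DQ.residue_surjective hle
  exact Tangent.exists_surjective_mvPowerSeries DQ.residue_surjective x hx

end Fermat.Agent.TW
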