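import Fermat.Agent.TW.Classes
import Fermat.Agent.TW.GWAd
import Fermat.Agent.TW.Killing
import Fermat.Agent.TW.Residual
import Fermat.Agent.TW.Tangent
import Fermat.Agent.TW.LocalConditions

/-!
# Taylor–Wiles primes make the deformation ring an `r`-generated algebra

Generic in the condition `Pp` at `p`: it must be stable under surjective base change and
isomorphism and carry a local bound `dim ≤ h⁰ + 1`.
-/

set_option autoImplicit false
set_option linter.style.haveILetI false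

noncomputable section

open CategoryTheory groupCohomology ExtCitation Polynomial IsLocalRing Module

namespace Fermat.Agent.TW

local notation "Γℚ" => (AlgebraicClosure ℚ ≃ₐ[ℚ] AlgebraicClosure ℚ)

/-- The primes occurring in a finite set of natural numbers. -/
def primesIn (S : Finset ℕ) : Finset Nat.Primes := S.subtype Nat.Prime

theorem mem_primesIn {S : Finset ℕ} {q : Nat.Primes} : q ∈ primesIn S ↔ (q : ℕ) ∈ S :=
  Finset.mem_subtype

variable {𝒪 : Type} [CommRing 𝒪] [IsDomain 𝒪] [IsDiscreteValuationRing 𝒪]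
  [IsAdicComplete (maximalIdeal 𝒪) 𝒪] [Finite (ResidueField 𝒪)]

omit [IsDomain 𝒪] [IsDiscreteValuationRing 𝒪] [IsAdicComplete (maximalIdeal 𝒪) 𝒪]
  [Finite (ResidueField 𝒪)] in
theorem charP_residueField [IsLocalRing 𝒪] (p : ℕ) [Fact p.Prime]
    (hp𝒪 : (p : 𝒪) ∈ maximalIdeal 𝒪) : CharP (ResidueField 𝒪) p := by
  have h : (p : ResidueField 𝒪) = 0 := by
    rw [← map_natCast (IsLocalRing.residue 𝒪), IsLocalRing.residue_eq_zero_iff]
    exact hp𝒪
  exact (CharP.charP_iff_prime_eq_zero (Fact.out : p.Prime)).2 h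

theorem det_complexConjugation {k : Type} [Field k] (p : ℕ) [Fact p.Prime] [CharP k p]
    (ρbar : ResidualGaloisRep k)
    (hdet : (GaloisRepAdic.ofResidualGaloisRep ρbar).DetIsCyclotomic p) :
    LinearMap.det (ρbar.ρ complexConjugation) = -1 := by
  have hp : p.Prime := Fact.out
  have hμ : ∀ μ : AlgebraicClosure ℚ, μ ^ p ^ 1 = 1 → complexConjugation μ = μ ^ (p - 1) := by
    intro μ hμ
    rw [pow_one] at hμ
    have h1 : complexEmbedding μ ^ p = 1 := by rw [← map_pow, hμ, map_one]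
    apply complexEmbedding.toRingHom.injective
    show complexEmbedding (complexConjugation μ) = complexEmbedding (μ ^ (p - 1))
    rw [complexEmbedding_complexConjugation, map_pow, ← Complex.inv_eq_conj
      (Complex.norm_eq_one_of_pow_eq_one h1 hp.ne_zero)]
    refine inv_eq_of_mul_eq_one_right ?_
    rw [← pow_succ', Nat.sub_add_cancel hp.one_le, h1]
  have h := hdet.2 1 complexConjugation (p - 1) hμ
  rw [pow_one, CharP.cast_eq_zero k p, Ideal.span_singleton_eq_bot.2 rfl, Ideal.mem_bot,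
    sub_eq_zero, Nat.cast_sub hp.one_le, CharP.cast_eq_zero k p, Nat.cast_one, zero_sub] at h
  exact h

omit [IsDomain 𝒪] [IsDiscreteValuationRing 𝒪] [IsAdicComplete (maximalIdeal 𝒪) 𝒪]
  [Finite (ResidueField 𝒪)] in
theorem ad0Tw_rho_eq_one {k : Type} [Field k] (p : ℕ) [Fact p.Prime] [CharP k p]
    (ρbar : ResidualGaloisRep k) {g : Γℚ} (hg : ρbar.ρ g = 1)
    (hμ : ∀ μ : AlgebraicClosure ℚ, μ ^ p = 1 → g μ = μ) :
    (ad0Tw ρbar p).ρ g = 1 := by
  show ((cycloK (k := k) p g : kˣ) : k) • (ad0 ρbar).ρ g = 1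
  rw [Killing.cycloK_eq_one p hμ, Units.val_one, one_smul, ad0_rho_eq_one ρbar hg]

theorem inertia_fixes_roots (p : ℕ) [Fact p.Prime] {q : Nat.Primes} (hqp : (q : ℕ) ≠ p)
    {A : ValuationSubring (AlgebraicClosure ℚ)} (hA : A.LiesOverPrime (q : ℕ)) {g : Γℚ}
    (hg : g ∈ A.inertiaSubgroupIn ℚ) (μ : AlgebraicClosure ℚ) (hμ : μ ^ p = 1) : g μ = μ :=
  Galois.inertia_apply_rootOfUnity hA q.2 hg
    (fun h => hqp ((Nat.prime_dvd_prime_iff_eq q.2 Fact.out).1 h)) hμ

set_option maxHeartbeats 800000 in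
theorem exists_taylorWilesPrimes_surjective
    (p : ℕ) [Fact p.Prime] (hp2 : p ≠ 2) (hp𝒪 : (p : 𝒪) ∈ maximalIdeal 𝒪)
    (ρbar : ResidualGaloisRep (ResidueField 𝒪))
    (habs : ρbar.IsAbsolutelyIrreducible)
    (hdet : (GaloisRepAdic.ofResidualGaloisRep ρbar).DetIsCyclotomic p)
    (hsplit : ∀ σ : Γℚ,
      ∃ α β : ResidueField 𝒪, LinearMap.charpoly (ρbar.ρ σ) = (X - C α) * (X - C β))
    (hTW : ∀ (K : Type) [Field K] [Algebra (ResidueField 𝒪) K] (G : Subgroup Γℚ), G.index = 2 →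
      ∀ V : Submodule K (ρbar.baseChange K).V,
        (∀ σ ∈ G, ∀ x ∈ V, (ρbar.baseChange K).ρ σ x ∈ V) → V = ⊥ ∨ V = ⊤)
    (S Smin : Finset ℕ) (hpSmin : p ∈ Smin) (hSmin : Smin ⊆ S)
    (hmin : ∀ q : ℕ, q.Prime → q ≠ p → (q ∈ Smin ↔ ¬ ρbar.IsUnramifiedAt q))
    (Pp : ∀ ⦃A : Type⦄ [CommRing A] [IsLocalRing A], GaloisRepAdic A → Prop)
    (hbase : ∀ {A B : Type} [CommRing A] [IsLocalRing A] [CommRing B] [IsLocalRing B]
      (φ : A →+* B) (hφ : IsLocalHom φ) (ρ : GaloisRepAdic A), Function.Surjective φ → Pp ρ →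
      Pp (ρ.baseChangeAlong φ hφ))
    (hiso : ∀ {A : Type} [CommRing A] [IsLocalRing A] {ρ ρ' : GaloisRepAdic A},
      ρ.IsEquiv ρ' → Pp ρ → Pp ρ')
    (hloc : ∀ [CharP (ResidueField 𝒪) p], Pp (GaloisRepAdic.ofResidualGaloisRep ρbar) →
      ∃ L : Submodule (ResidueField 𝒪) (H1 (Rep.res (primeLocalToGlobal (pPrime p)) (ad0 ρbar))),
        L ≤ continuousH1 (primeLocalToGlobal (pPrime p))
          (Rep.res (primeLocalToGlobal (pPrime p)) (ad0 ρbar)) ∧
        FiniteDimensional (ResidueField 𝒪) L ∧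
        finrank (ResidueField 𝒪) L ≤ finrank (ResidueField 𝒪)
          (Rep.res (primeLocalToGlobal (pPrime p)) (ad0 ρbar)).ρ.invariants + 1 ∧
        ∀ (c : cocycles₁ (ad0 ρbar)) (hc : IsLevelConstant₁ (MonoidHom.id Γℚ) c),
          (adLift ρbar c hc).DetIsCyclotomic p → Pp (adLift ρbar c hc) →
          locPrime (pPrime p) (ad0 ρbar) ((H1π (ad0 ρbar)).hom c) ∈ L) :
    ∃ r : ℕ, ∀ n : ℕ, ∃ qv : Fin r → ℕ, Function.Injective qv ∧
      (∀ i, (qv i).Prime ∧ qv i ∉ S ∧ p ^ (n + 1) ∣ qv i - 1) ∧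
      (∀ i, ∀ P : ValuationSubring (AlgebraicClosure ℚ), P.LiesOverPrime (qv i) →
        ∀ φ : Γℚ, P.IsFrobeniusAt φ (qv i) →
          ∃ α β : ResidueField 𝒪, α ≠ β ∧ LinearMap.charpoly (ρbar.ρ φ) = (X - C α) * (X - C β)) ∧
      ∀ DQ : GaloisRep.DeformationRingData 𝒪 ρbar (fun _A _ _ _ ρ =>
          (ρ.DetIsCyclotomic p ∧ Pp ρ ∧
            ∀ q : ℕ, q.Prime → q ∉ Smin ∪ Finset.univ.image qv → ρ.IsUnramifiedAt q) ∧
            ∀ q ∈ Smin, q.Prime → q ≠ p → ρ.IsUnipotentOnInertiaAt q),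
        ∃ γ : MvPowerSeries (Fin r) 𝒪 →ₐ[𝒪] DQ.R, Function.Surjective γ := by
  classical
  haveI := charP_residueField (𝒪 := 𝒪) p hp𝒪
  have hp : p.Prime := Fact.out
  have h2k : (2 : ResidueField 𝒪) ≠ 0 := by
    intro h
    have h' : ((2 : ℕ) : ResidueField 𝒪) = 0 := by exact_mod_cast h
    rw [CharP.cast_eq_zero_iff (ResidueField 𝒪) p 2] at h'
    exact hp2 ((Nat.prime_dvd_prime_iff_eq hp Nat.prime_two).1 h')
  -- the space to be killed
  set Sm := primesIn Smin with hSm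
  have hpSm : pPrime p ∈ Sm := mem_primesIn.2 hpSmin
  have hur : ∀ q : Nat.Primes, q ∉ Sm → ρbar.IsUnramifiedAt q := fun q hq => by
    have hqp : (q : ℕ) ≠ p := fun h => hq (mem_primesIn.2 (h ▸ hpSmin))
    by_contra hn
    exact hq (mem_primesIn.2 ((hmin q q.2 hqp).2 hn))
  have hadUr : ∀ q : Nat.Primes, q ∉ Sm → ∀ A : ValuationSubring (AlgebraicClosure ℚ),
      A.LiesOverPrime (q : ℕ) → ∀ g ∈ A.inertiaSubgroupIn ℚ, (ad0 ρbar).ρ g = 1 :=
    fun q hq A hA g hg => ad0_rho_eq_one ρbar (hur q hq A hA g hg)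
  have htwUr : ∀ q : Nat.Primes, q ∉ Sm → ∀ A : ValuationSubring (AlgebraicClosure ℚ),
      A.LiesOverPrime (q : ℕ) → ∀ g ∈ A.inertiaSubgroupIn ℚ, (ad0Tw ρbar p).ρ g = 1 :=
    fun q hq A hA g hg => ad0Tw_rho_eq_one p ρbar (hur q hq A hA g hg)
      (inertia_fixes_roots p (fun h => hq (mem_primesIn.2 (h ▸ hpSmin))) hA hg)
  have htwsm : ∀ m : ad0Tw ρbar p, ∃ F : IntermediateField ℚ (AlgebraicClosure ℚ),
      FiniteDimensional ℚ F ∧ ∀ s ∈ F.fixingSubgroup, (ad0Tw ρbar p).ρ s m = m := by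
    intro m
    obtain ⟨L, hL, hρ⟩ := ρbar.factorsThroughFiniteLevel
    haveI := hL
    haveI : NeZero p := ⟨hp.ne_zero⟩
    haveI := Killing.finiteDimensional_rootsField p
    refine ⟨L ⊔ Killing.rootsField p, IntermediateField.finiteDimensional_sup _ _, fun s hs => ?_⟩
    rw [IntermediateField.fixingSubgroup_sup] at hs
    rw [ad0Tw_rho_eq_one p ρbar (hρ s ((IntermediateField.mem_fixingSubgroup_iff _ _).1 hs.1))
      fun μ hμ => (IntermediateField.mem_fixingSubgroup_iff _ _).1 hs.2 μ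
        (Killing.apply_mem_rootsField hμ)]
    rfl
  haveI : Finite (ad0 ρbar) := inferInstanceAs (Finite (adZeroSpace ρbar))
  haveI : Finite (ad0Tw ρbar p) := inferInstanceAs (Finite (adZeroSpace ρbar))
  haveI : Finite (continuousH1S Sm (ad0Tw ρbar p)) :=
    CFT.finite_continuousH1S_of_smooth _ Sm htwsm htwUr
  set W := continuousH1S Sm (ad0Tw ρbar p) with hW
  refine ⟨finrank (ResidueField 𝒪) W, fun n => ?_⟩
  obtain ⟨qv, hinj, hgood, hkill⟩ := Killing.exists_taylorWiles_primes ρbar p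
    ⟨hp2, habs, hdet, hsplit, hTW⟩ n (finrank (ResidueField 𝒪) W) W
    (continuousH1S_le_continuousH1 Sm _) le_rfl S (hSmin hpSmin)
    (fun q hq hqS => hur ⟨q, hq⟩ fun h => hqS (hSmin (mem_primesIn.1 h)))
  refine ⟨qv, hinj, fun i => ⟨(hgood i).1, (hgood i).2.1, (hgood i).2.2.1⟩,
    fun i => (hgood i).2.2.2, fun DQ => ?_⟩
  obtain ⟨⟨hDdet, hDP, hDur⟩, hDuni⟩ := DQ.isOfType
  -- residual properties
  have hsurj := res0_surjective DQ.residue_surjective
  have hresEq := baseChangeAlong_res0_isEquiv DQ.residue_surjective DQ.ρ DQ.residual_isEquiv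
  have hbarP : Pp (GaloisRepAdic.ofResidualGaloisRep ρbar) :=
    hiso hresEq (hbase _ _ _ hsurj hDP)
  have hbarU : ∀ q ∈ Smin, q.Prime → q ≠ p →
      (GaloisRepAdic.ofResidualGaloisRep ρbar).IsUnipotentOnInertiaAt q := fun q h1 h2 h3 =>
    Tangent.isUnipotentOnInertiaAt_of_isEquiv hresEq
      (Tangent.isUnipotentOnInertiaAt_baseChangeAlong _ _ (hDuni q h1 h2 h3))
  have hprime : ∀ i, (qv i).Prime := fun i => (hgood i).1
  -- the places
  set T : Finset Nat.Primes :=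
    Finset.univ.image (fun i => (⟨qv i, hprime i⟩ : Nat.Primes)) with hT
  set Sx := Sm ∪ T with hSx
  have hTnot : ∀ q ∈ T, q ∉ Sm ∧ q ≠ pPrime p ∧ ∃ i, qv i = (q : ℕ) := by
    intro q hq
    obtain ⟨i, -, rfl⟩ := Finset.mem_image.1 hq
    refine ⟨fun h => (hgood i).2.1 (hSmin (mem_primesIn.1 h)), fun h => ?_, i, rfl⟩
    exact (hgood i).2.1 (hSmin (by
      have h' : qv i = p := congrArg Subtype.val h
      rw [h']
      exact hpSmin))
  have hTcard : T.card = finrank (ResidueField 𝒪) W := by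
    have hf : Function.Injective (fun i => (⟨qv i, hprime i⟩ : Nat.Primes)) :=
      fun i j h => hinj (congrArg Subtype.val h)
    exact (Finset.card_image_of_injective _ hf).trans
      (Finset.card_univ.trans (Fintype.card_fin _))
  let a : Nat.Primes → ℕ := fun q => (if q = pPrime p then 1 else 0) + (if q ∈ T then 1 else 0)
  let Good : cocycles₁ (ad0 ρbar) → Prop := fun c => ∃ hc : IsLevelConstant₁ (MonoidHom.id Γℚ) c,
    (adLift ρbar c hc).DetIsCyclotomic p ∧ Pp (adLift ρbar c hc) ∧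
    (∀ q : ℕ, q.Prime → q ∉ Smin ∪ Finset.univ.image qv → (adLift ρbar c hc).IsUnramifiedAt q) ∧
    ∀ q ∈ Smin, q.Prime → q ≠ p → (adLift ρbar c hc).IsUnipotentOnInertiaAt q
  have hex : ∀ q : ↥Sx,
      ∃ L : Submodule (ResidueField 𝒪) (H1 (Rep.res (primeLocalToGlobal q.1) (ad0 ρbar))),
        L ≤ continuousH1 (primeLocalToGlobal q.1) (Rep.res (primeLocalToGlobal q.1) (ad0 ρbar)) ∧
        FiniteDimensional (ResidueField 𝒪) L ∧
        finrank (ResidueField 𝒪) L ≤ finrank (ResidueField 𝒪)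
          (Rep.res (primeLocalToGlobal q.1) (ad0 ρbar)).ρ.invariants + a q.1 ∧
        (q.1 ∈ T → continuousH1 (primeLocalToGlobal q.1)
          (Rep.res (primeLocalToGlobal q.1) (ad0 ρbar)) ≤ L) ∧
        ∀ c, Good c → locPrime q.1 (ad0 ρbar) ((H1π (ad0 ρbar)).hom c) ∈ L := by
    rintro ⟨q, hq⟩
    by_cases hqT : q ∈ T
    · obtain ⟨hqSm, hqp, i, hi⟩ := hTnot q hqT
      obtain ⟨hfd, hle⟩ := finrank_continuousH1_taylorWiles p hp2 ρbar hdet q
        ((dvd_pow_self p (Nat.succ_ne_zero n)).trans (hi ▸ (hgood i).2.2.1)) (hur q hqSm)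
        (hi ▸ (hgood i).2.2.2)
      refine ⟨_, le_rfl, hfd, ?_, fun _ => le_rfl, fun c ⟨hc, _⟩ => ?_⟩
      · simp only [a, if_neg hqp, if_pos hqT, zero_add]
        exact hle
      · unfold locPrime
        rw [Transfer.map_H1π]
        exact H1π_mem_continuousH1 _ _ (c := Transfer.cocRes (primeLocalToGlobal q) (ad0 ρbar) c)
          (IsLevelConstant₁.precomp (primeLocalToGlobal q) (fun _ => rfl) hc)
    · by_cases hqp : q = pPrime p
      · subst hqp
        obtain ⟨L, h1, h2, h3, h4⟩ := hloc hbarP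
        refine ⟨L, h1, h2, ?_, fun h => absurd h hqT, fun c ⟨hc, hd, hP, _⟩ => h4 c hc hd hP⟩
        simp only [a, if_pos, if_neg hqT, add_zero]
        exact h3
      · have hqSm : q ∈ Sm := (Finset.mem_union.1 hq).resolve_right hqT
        have hqne : (q : ℕ) ≠ p := fun h => hqp (Subtype.ext h)
        obtain ⟨L, h1, h2, h3, h4⟩ := exists_unipotent_local p hp2 ρbar hdet q hqne
          ((hmin q q.2 hqne).1 (mem_primesIn.1 hqSm))
          (hbarU q (mem_primesIn.1 hqSm) q.2 hqne)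
        refine ⟨L, h1, h2, ?_, fun h => absurd h hqT,
          fun c ⟨hc, hd, _, _, hu⟩ => h4 c hc hd (hu q (mem_primesIn.1 hqSm) q.2 hqne)⟩
        simp only [a, if_neg hqp, if_neg hqT, add_zero]
        exact h3
  choose Lq hLcont hLfd hLle hLT hLmem using hex
  let L : ∀ v : extArithIndex Sx,
      Submodule (ResidueField 𝒪) (H1 (Rep.res (extArithLoc Sx v) (ad0 ρbar)))
    | Sum.inl _ => ⊥
    | Sum.inr q => Lq q
  have hadUr' : ∀ q : Nat.Primes, q ∉ Sx → ρbar.IsUnramifiedAt q :=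
    fun q hq => hur q fun h => hq (Finset.mem_union_left _ h)
  haveI : Finite (continuousH1S Sx (ad0 ρbar)) :=
    CFT.finite_continuousH1S_of_smooth _ Sx (ad0_smooth ρbar)
      fun q hq => hadUr q fun h => hq (Finset.mem_union_left _ h)
  have hH1 : FiniteDimensional (ResidueField 𝒪) (continuousH1S Sx (ad0 ρbar)) :=
    Module.Finite.of_finite
  haveI := hH1
  have hkill' : ∀ y ∈ continuousH1S Sx (ad0Tw ρbar p),
      (∀ q ∈ T, locPrime q (ad0Tw ρbar p) y = 0) → y = 0 := by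
    intro y hy hloc0
    obtain ⟨c, hc, rfl⟩ := (mem_continuousH1S_iff _ _ _).1 hy
    haveI : Module.Finite (ResidueField 𝒪) (ad0Tw ρbar p) := Module.Finite.of_finite
    refine hkill _ ?_ fun i hi => hloc0 ⟨qv i, hi⟩
      (Finset.mem_image.2 ⟨i, Finset.mem_univ i, rfl⟩)
    refine H1π_mem_continuousH1S_of_inertia _ Sm htwsm htwUr c hc.isLevelConstant₁ ?_
    intro q hq A hA g hg
    by_cases hqT : q ∈ T
    · exact eq_zero_on_inertia_of_locPrime_eq_zero _ q c (hloc0 q hqT) (htwUr q hq) A hA g hg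
    · obtain ⟨F, hF, hcF⟩ := hc
      have h1 : c (1 * g) = c 1 := hcF 1 g (hF.2 q (fun h => (Finset.mem_union.1 h).elim hq hqT)
        A hA hg)
      simpa [cocycles₁_map_one] using h1
  have key := greenbergWiles_bound_ad0 ρbar p hp2 Sx T (Finset.mem_union_left _ hpSm)
    Finset.subset_union_right hadUr' L
    (fun v => match v with
      | Sum.inl _ => inferInstanceAs (FiniteDimensional (ResidueField 𝒪)
          (⊥ : Submodule (ResidueField 𝒪) (H1 (Rep.res archimedeanLoc (ad0 ρbar)))))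
      | Sum.inr q => hLfd q)
    (fun v => match v with
      | Sum.inl _ => bot_le
      | Sum.inr q => hLcont q)
    (by rintro v ⟨q, hqT, rfl⟩; exact hLT q hqT)
    hH1 hkill'
  haveI : FiniteDimensional (ResidueField 𝒪)
      (selmerAdm (extArithLoc Sx) (ad0 ρbar) L (continuousH1S Sx (ad0 ρbar))) :=
    groupCohomology.finiteDimensional_selmerAdm_of_adm _ _ _ _
  refine exists_mvPowerSeries_surjective_of_classes p hp2 hp𝒪 DQ hDdet (fun φ hφ hφs => ?_)
    (selmerAdm (extArithLoc Sx) (ad0 ρbar) L (continuousH1S Sx (ad0 ρbar)))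
    (fun φ hφ hφs c hc he => ?_) _ ?_
  · exact ⟨⟨Tangent.detIsCyclotomic_baseChangeAlong _ hφ hDdet, hbase _ _ _ hφs hDP,
      fun q h1 h2 => Tangent.isUnramifiedAt_baseChangeAlong _ hφ (hDur q h1 h2)⟩,
      fun q h1 h2 h3 => Tangent.isUnipotentOnInertiaAt_baseChangeAlong _ hφ (hDuni q h1 h2 h3)⟩
  · have hGood : Good c := ⟨hc,
      Tangent.detIsCyclotomic_of_isEquiv he (Tangent.detIsCyclotomic_baseChangeAlong _ hφ hDdet),
      hiso he (hbase _ _ _ hφs hDP),
      fun q h1 h2 => Tangent.isUnramifiedAt_of_isEquiv he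
        (Tangent.isUnramifiedAt_baseChangeAlong _ hφ (hDur q h1 h2)),
      fun q h1 h2 h3 => Tangent.isUnipotentOnInertiaAt_of_isEquiv he
        (Tangent.isUnipotentOnInertiaAt_baseChangeAlong _ hφ (hDuni q h1 h2 h3))⟩
    refine (mem_selmerAdm_iff _ _ _ _ _).2 ⟨?_, ?_⟩
    · rintro (u | q)
      · exact (Submodule.mem_bot _).2
          (map_archimedeanLoc_eq_zero _ (Ne.isUnit h2k) c)
      · exact hLmem q c hGood
    · haveI : Module.Finite (ResidueField 𝒪) (ad0 ρbar) := Module.Finite.of_finite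
      refine H1π_mem_continuousH1S_of_inertia _ Sx (ad0_smooth ρbar)
        (fun q hq => hadUr q fun h => hq (Finset.mem_union_left _ h)) c hc ?_
      intro q hq A hA g hg
      obtain ⟨hc', hd', hP', hu, hun⟩ := hGood
      refine cocycle_eq_zero_of_adLiftEnd_eq_one ρbar c (hadUr' q hq A hA g hg)
        (hu q q.2 ?_ A hA g hg)
      intro hmem
      rcases Finset.mem_union.1 hmem with h | h
      · exact hq (Finset.mem_union_left _ (mem_primesIn.2 h))
      · obtain ⟨i, -, hi⟩ := Finset.mem_image.1 h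
        exact hq (Finset.mem_union_right _
          (Finset.mem_image.2 ⟨i, Finset.mem_univ i, Subtype.ext hi⟩))
  · rw [invariants_ad0_eq_bot ρbar habs h2k, finrank_bot, zero_add] at key
    have hinf := one_le_finrank_invariants_archimedean ρbar h2k (det_complexConjugation p ρbar hdet)
    have e1 : ∑ v, finrank (ResidueField 𝒪) (L v)
        = ∑ q : ↥Sx, finrank (ResidueField 𝒪) (Lq q) := by
      show (∑ v : Unit ⊕ ↥Sx, finrank (ResidueField 𝒪) (L v)) = _
      rw [Fintype.sum_sum_type]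
      simp only [L, finrank_bot, Finset.sum_const_zero, zero_add]
      rfl
    have e2 : ∑ v, finrank (ResidueField 𝒪) (Rep.res (extArithLoc Sx v) (ad0 ρbar)).ρ.invariants
        = finrank (ResidueField 𝒪) (Rep.res archimedeanLoc (ad0 ρbar)).ρ.invariants
          + ∑ q : ↥Sx, finrank (ResidueField 𝒪)
              (Rep.res (primeLocalToGlobal q.1) (ad0 ρbar)).ρ.invariants := by
      show (∑ v : Unit ⊕ ↥Sx, _) = _
      rw [Fintype.sum_sum_type]
      rfl
    have hsum : ∑ q : ↥Sx, a q.1 = 1 + finrank (ResidueField 𝒪) W := by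
      rw [Finset.sum_coe_sort Sx a, Finset.sum_add_distrib, Finset.sum_ite_eq',
        if_pos (Finset.mem_union_left _ hpSm), Finset.sum_ite_mem,
        Finset.inter_eq_right.2 Finset.subset_union_right, Finset.sum_const, smul_eq_mul, mul_one,
        hTcard]
    have e3 := Finset.sum_le_sum (s := (Finset.univ : Finset ↥Sx)) fun q _ => hLle q
    rw [Finset.sum_add_distrib, hsum] at e3
    rw [e1, e2] at key
    omega

end Fermat.Agent.TW
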