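import Fermat.Agent.TW.Ad

/-!
# Transporting `H¹` along additive equivariant bijections

Used to pass between `k[G]`-modules and their underlying `𝔽_p[G]`-modules.
-/

set_option autoImplicit false
set_option linter.style.haveILetI false

noncomputable section

open CategoryTheory groupCohomology ExtCitation Module

namespace Fermat.Agent.TW.Transfer

variable {R R' : Type} [CommRing R] [CommRing R'] {G : Type} [Group G]
  {A : Rep.{0} R G} {B : Rep.{0} R' G} (e : A ≃+ B) (he : ∀ (g : G) (a : A), e (A.ρ g a) = B.ρ g (e a))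

include he in
theorem he_symm (g : G) (b : B) : e.symm (B.ρ g b) = A.ρ g (e.symm b) := by
  apply e.injective
  rw [he, e.apply_symm_apply, e.apply_symm_apply]

include he in
theorem comp_mem_cocycles₁ (c : cocycles₁ A) : (fun g => e (c g)) ∈ cocycles₁ B := by
  rw [mem_cocycles₁_iff]
  intro g h
  have h2 : c (g * h) = A.ρ g (c h) + c g := (mem_cocycles₁_iff c.1).1 c.2 g h
  rw [h2, map_add, he]

include he in
/-- Transport of cocycles. -/
def cocMap : cocycles₁ A →+ cocycles₁ B where
  toFun c := ⟨fun g => e (c g), comp_mem_cocycles₁ e he c⟩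
  map_zero' := cocycles₁_ext fun _ => map_zero e
  map_add' _ _ := cocycles₁_ext fun _ => map_add e _ _

theorem cocMap_apply (c : cocycles₁ A) (g : G) : cocMap e he c g = e (c g) := rfl

include he in
theorem cocMap_coboundary (c : cocycles₁ A) (hc : ⇑c ∈ coboundaries₁ A) :
    ⇑(cocMap e he c) ∈ coboundaries₁ B := by
  obtain ⟨a, ha⟩ := hc
  refine ⟨e a, funext fun g => ?_⟩
  have hg : A.ρ g a - a = c g := congrFun ha g
  show B.ρ g (e a) - e a = e (c g)
  rw [← he, ← map_sub, hg]

theorem H1π_cocMap_eq_of_eq (c c' : cocycles₁ A)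
    (h : (H1π A).hom c = (H1π A).hom c') :
    (H1π B).hom (cocMap e he c) = (H1π B).hom (cocMap e he c') := by
  refine (H1π_eq_iff (A := B) _ _).2 ?_
  have h2 : ⇑(c - c') ∈ coboundaries₁ A := (H1π_eq_iff (A := A) _ _).1 h
  have := cocMap_coboundary e he _ h2
  rw [map_sub] at this
  exact this

theorem H1π_surjective (A : Rep.{0} R G) : Function.Surjective (H1π A).hom := fun x =>
  H1_induction_on (C := fun x => ∃ c, (H1π A).hom c = x) x fun c => ⟨c, rfl⟩

/-- Transport of first cohomology. -/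
def h1Fun (x : H1 A) : H1 B :=
  (H1π B).hom (cocMap e he (Function.surjInv (H1π_surjective A) x))

theorem h1Fun_H1π (c : cocycles₁ A) :
    h1Fun e he ((H1π A).hom c) = (H1π B).hom (cocMap e he c) :=
  H1π_cocMap_eq_of_eq e he _ _ (Function.surjInv_eq (H1π_surjective A) _)

theorem h1Fun_add (x y : H1 A) : h1Fun e he (x + y) = h1Fun e he x + h1Fun e he y := by
  obtain ⟨c, rfl⟩ := H1π_surjective A x
  obtain ⟨d, rfl⟩ := H1π_surjective A y
  rw [← map_add, h1Fun_H1π, h1Fun_H1π, h1Fun_H1π, map_add, map_add]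

/-- Transport of first cohomology as an additive equivalence. -/
def h1Equiv : H1 A ≃+ H1 B where
  toFun := h1Fun e he
  invFun := h1Fun e.symm (he_symm e he)
  left_inv x := by
    obtain ⟨c, rfl⟩ := H1π_surjective A x
    rw [h1Fun_H1π, h1Fun_H1π]
    exact congrArg _ (cocycles₁_ext fun g => e.symm_apply_apply _)
  right_inv x := by
    obtain ⟨c, rfl⟩ := H1π_surjective B x
    rw [h1Fun_H1π, h1Fun_H1π]
    exact congrArg _ (cocycles₁_ext fun g => e.apply_symm_apply _)
  map_add' := h1Fun_add e he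

theorem h1Equiv_H1π (c : cocycles₁ A) :
    h1Equiv e he ((H1π A).hom c) = (H1π B).hom (cocMap e he c) :=
  h1Fun_H1π e he c

theorem mem_continuousH1_iff_transfer
    (r : G →* (AlgebraicClosure ℚ ≃ₐ[ℚ] AlgebraicClosure ℚ)) (x : H1 A) :
    h1Equiv e he x ∈ continuousH1 r B ↔ x ∈ continuousH1 r A := by
  constructor
  · intro hx
    obtain ⟨c, hc, hcx⟩ := (mem_continuousH1_iff r B _).1 hx
    refine (mem_continuousH1_iff r A x).2 ⟨cocMap e.symm (he_symm e he) c, hc.comp e.symm, ?_⟩
    apply (h1Equiv e he).injective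
    rw [h1Equiv_H1π, ← hcx]
    exact congrArg _ (cocycles₁_ext fun g => e.apply_symm_apply _)
  · intro hx
    obtain ⟨c, hc, rfl⟩ := (mem_continuousH1_iff r A x).1 hx
    rw [h1Equiv_H1π]
    exact H1π_mem_continuousH1 r B (c := cocMap e he c) (hc.comp e)

/-- Image of a submodule under transport, as a submodule over the second ring. -/
def SubEq (L : Submodule R (H1 A)) (L' : Submodule R' (H1 B)) : Prop :=
  ∀ x, h1Equiv e he x ∈ L' ↔ x ∈ L

theorem natCard_eq_of_subEq {L : Submodule R (H1 A)} {L' : Submodule R' (H1 B)}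
    (h : SubEq e he L L') : Nat.card L' = Nat.card L := by
  refine (Nat.card_congr ((h1Equiv e he).toEquiv.subtypeEquiv fun x => ?_)).symm
  exact (h x).symm

section S

variable {A : Rep.{0} R (AlgebraicClosure ℚ ≃ₐ[ℚ] AlgebraicClosure ℚ)}
  {B : Rep.{0} R' (AlgebraicClosure ℚ ≃ₐ[ℚ] AlgebraicClosure ℚ)} (e : A ≃+ B)
  (he : ∀ (g : AlgebraicClosure ℚ ≃ₐ[ℚ] AlgebraicClosure ℚ) (a : A),
    e (A.ρ g a) = B.ρ g (e a))

theorem mem_continuousH1S_iff_transfer (S : Finset Nat.Primes) (x : H1 A) :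
    h1Equiv e he x ∈ continuousH1S S B ↔ x ∈ continuousH1S S A := by
  constructor
  · intro hx
    obtain ⟨c, hc, hcx⟩ := (mem_continuousH1S_iff S B _).1 hx
    refine (mem_continuousH1S_iff S A x).2 ⟨cocMap e.symm (he_symm e he) c, hc.comp e.symm, ?_⟩
    apply (h1Equiv e he).injective
    rw [h1Equiv_H1π, ← hcx]
    exact congrArg _ (cocycles₁_ext fun g => e.apply_symm_apply _)
  · intro hx
    obtain ⟨c, hc, rfl⟩ := (mem_continuousH1S_iff S A x).1 hx
    rw [h1Equiv_H1π]
    exact (mem_continuousH1S_iff S B _).2 ⟨cocMap e he c, hc.comp e, rfl⟩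

end S

section Res

variable {H : Type} [Group H] (f : H →* G)

/-- Restriction of a cocycle. -/
def cocRes (M : Rep.{0} R G) (c : cocycles₁ M) : cocycles₁ (Rep.res f M) :=
  ⟨fun h => c (f h), (mem_cocycles₁_iff (A := Rep.res f M) _).2 fun g h => by
    show c (f (g * h)) = M.ρ (f g) (c (f h)) + c (f g)
    have h2 : c (f g * f h) = M.ρ (f g) (c (f h)) + c (f g) :=
      (mem_cocycles₁_iff c.1).1 c.2 (f g) (f h)
    rw [map_mul, h2]⟩

theorem map_H1π (M : Rep.{0} R G) (c : cocycles₁ M) :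
    (groupCohomology.map f (𝟙 (Rep.res f M)) 1).hom ((H1π M).hom c)
      = (H1π (Rep.res f M)).hom (cocRes f M c) := by
  rw [H1π_comp_map_apply f (𝟙 (Rep.res f M))]
  rfl

include he in
theorem he_res (h : H) (a : Rep.res f A) :
    e ((Rep.res f A).ρ h a) = (Rep.res f B).ρ h (e a) :=
  he (f h) a

theorem h1Equiv_map (x : H1 A) :
    h1Equiv (A := Rep.res f A) (B := Rep.res f B) e (he_res e he f)
        ((groupCohomology.map f (𝟙 (Rep.res f A)) 1).hom x)
      = (groupCohomology.map f (𝟙 (Rep.res f B)) 1).hom (h1Equiv e he x) := by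
  obtain ⟨c, rfl⟩ := H1π_surjective A x
  rw [map_H1π, h1Equiv_H1π, h1Equiv_H1π, map_H1π]
  exact congrArg _ (cocycles₁_ext fun h => rfl)

end Res

end Fermat.Agent.TW.Transfer
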